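import Fermat.Agent.PeriodHecke.Families

/-!
Integral matrices of prime determinant with lower left entry divisible by the level.
-/

set_option autoImplicit false

noncomputable section

open scoped MatrixGroups
open CongruenceSubgroup FLTAgent.PeriodHecke

namespace FLTAgent.LevelRaise

local notation "M2" => Matrix (Fin 2) (Fin 2) ℤ

theorem mul_right_cancel_det {W X Y : M2} (hW : W.det ≠ 0) (h : X * W = Y * W) : X = Y := by
  have h' := congrArg (fun Z => Z * Matrix.adjugate W) h
  simp only [Matrix.mul_assoc, Matrix.mul_adjugate, Matrix.mul_smul, mul_one] at h'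
  exact smul_right_injective M2 hW h'

theorem mul_left_cancel_det {W X Y : M2} (hW : W.det ≠ 0) (h : W * X = W * Y) : X = Y := by
  have h' := congrArg (fun Z => Matrix.adjugate W * Z) h
  simp only [← Matrix.mul_assoc, Matrix.adjugate_mul, Matrix.smul_mul, one_mul] at h'
  exact smul_right_injective M2 hW h'

variable (N p : ℕ) [Fact p.Prime]

/-- Every integral matrix of determinant `p` with lower left entry divisible by the level is in
one of the standard left cosets. -/
theorem exists_heckeRep (A : M2) (hdet : A.det = (p : ℤ)) (hN : (N : ℤ) ∣ A 1 0)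
    (h0 : p ∣ N → ¬ (p : ℤ) ∣ A 0 0) :
    ∃ (i : HeckeIdx N p) (δ : Gamma0 N), A = mat δ * heckeRep N p i := by
  have hpp : p.Prime := Fact.out
  have hpi : Prime (p : ℤ) := Nat.prime_iff_prime_int.mp hpp
  have hp0 : (p : ℤ) ≠ 0 := hpi.ne_zero
  rw [Matrix.det_fin_two] at hdet
  have hA := Matrix.eta_fin_two A
  set a := A 0 0
  set b := A 0 1
  set c := A 1 0
  set d := A 1 1
  by_cases hboth : (p : ℤ) ∣ a ∧ (p : ℤ) ∣ c
  · obtain ⟨⟨a', ha⟩, ⟨c', hc⟩⟩ := hboth
    have hpN : ¬ p ∣ N := fun h => h0 h ⟨a', ha⟩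
    have hcN : (N : ℤ) ∣ c' := by
      refine IsCoprime.dvd_of_dvd_mul_left ?_ (hc ▸ hN)
      exact Int.isCoprime_iff_nat_coprime.mpr (by
        simpa using ((hpp.coprime_iff_not_dvd).mpr hpN).symm)
    refine ⟨⟨none, fun _ => hpN⟩, gamma0Mk N a' b c' d ?_ hcN, ?_⟩
    · apply mul_left_cancel₀ hp0
      linear_combination hdet - d * ha + b * hc
    · rw [mat_gamma0Mk, hA, ha, hc]
      simp only [heckeRep]
      ext i k
      fin_cases i <;> fin_cases k <;> simp [Matrix.mul_apply, Fin.sum_univ_two] <;> ring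
  · obtain ⟨j, e, f, he, hf⟩ : ∃ (j : ZMod p) (e f : ℤ),
        b - a * j.val = p * e ∧ d - c * j.val = p * f := by
      by_cases hap : (p : ℤ) ∣ a
      · have hcp : ¬ (p : ℤ) ∣ c := fun h => hboth ⟨hap, h⟩
        have hc0 : (c : ZMod p) ≠ 0 := fun h => hcp (not_dvd_of_coe_eq_zero h)
        set j : ZMod p := (d : ZMod p) / (c : ZMod p)
        have hf : (p : ℤ) ∣ d - c * j.val := not_dvd_of_coe_eq_zero (by
          push_cast; rw [ZMod.natCast_zmod_val]; simp only [j]; field_simp; ring)
        obtain ⟨f, hf⟩ := hf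
        obtain ⟨e, he⟩ : (p : ℤ) ∣ b - a * j.val :=
          (hpi.dvd_or_dvd (⟨a * f - 1, by linear_combination a * hf - hdet⟩ :
            (p : ℤ) ∣ c * (b - a * j.val))).resolve_left hcp
        exact ⟨j, e, f, he, hf⟩
      · have ha0 : (a : ZMod p) ≠ 0 := fun h => hap (not_dvd_of_coe_eq_zero h)
        set j : ZMod p := (b : ZMod p) / (a : ZMod p)
        have he : (p : ℤ) ∣ b - a * j.val := not_dvd_of_coe_eq_zero (by
          push_cast; rw [ZMod.natCast_zmod_val]; simp only [j]; field_simp; ring)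
        obtain ⟨e, he⟩ := he
        obtain ⟨f, hf⟩ : (p : ℤ) ∣ d - c * j.val :=
          (hpi.dvd_or_dvd (⟨c * e + 1, by linear_combination c * he + hdet⟩ :
            (p : ℤ) ∣ a * (d - c * j.val))).resolve_left hap
        exact ⟨j, e, f, he, hf⟩
    refine ⟨idxSome N p j, gamma0Mk N a e c f ?_ hN, ?_⟩
    · apply mul_left_cancel₀ hp0
      linear_combination hdet - a * hf + c * he
    · rw [mat_gamma0Mk, hA, heckeRep_idxSome]
      ext i k
      fin_cases i <;> fin_cases k <;>
        simp [Matrix.mul_apply, Fin.sum_univ_two, -ZMod.natCast_val] <;>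
        first | linear_combination he | linear_combination hf | ring1

/-- The index is determined by the coset. -/
theorem heckeRep_unique {δ δ' : Gamma0 N} {i j : HeckeIdx N p}
    (h : mat δ * heckeRep N p i = mat δ' * heckeRep N p j) : i = j ∧ δ = δ' := by
  obtain rfl : i = j := by
    refine (heckeFam N p).inj (δ'⁻¹ * δ) i j ?_
    rw [mat_mul, mul_assoc, heckeFam_α, h, ← mul_assoc, ← mat_mul, inv_mul_cancel, mat_one, one_mul]
  exact ⟨rfl, (heckeFam N p).cancel h⟩

end FLTAgent.LevelRaise
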