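import Fermat.Agent.LevelRaise.Invariance
import Fermat.Agent.PeriodHecke.Families

/-!
Restriction and transfer between `Γ₀(N)` and `Γ₀(L)` for `N ∣ L`, adjoint for the intersection
pairing.
-/

set_option autoImplicit false

noncomputable section

open scoped MatrixGroups
open CongruenceSubgroup FLTAgent.PeriodHecke

namespace FLTAgent.LevelRaise

local notation "SL2Z" => Matrix.SpecialLinearGroup (Fin 2) ℤ
local notation "M2" => Matrix (Fin 2) (Fin 2) ℤ
local notation "S'" => (ModularGroup.S : SL2Z)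
local notation "T'" => (ModularGroup.T : SL2Z)
local notation "R'" => ((ModularGroup.S * ModularGroup.T : SL2Z))

variable {N L : ℕ} (h : N ∣ L)

include h in
theorem Gamma0_le : Gamma0 L ≤ Gamma0 N := fun γ hγ => by
  rw [Gamma0_mem, ZMod.intCast_zmod_eq_zero_iff_dvd] at hγ ⊢
  exact (Int.natCast_dvd_natCast.mpr h).trans hγ

/-- The inclusion. -/
def incl : Gamma0 L →* Gamma0 N := Subgroup.inclusion (Gamma0_le h)

@[simp] theorem coe_incl (γ : Gamma0 L) : ((incl h γ : Gamma0 N) : SL2Z) = (γ : SL2Z) := rfl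

theorem incl_rel (γ : Gamma0 L) : (1 : M2) * mat γ = mat (incl h γ) * 1 := by
  rw [one_mul, mul_one]; rfl

/-- Restriction. -/
def res {A : Type*} [AddCommGroup A] : Hpar (Gamma0 N) A →+ Hpar (Gamma0 L) A :=
  twist (incl h) (by simp) (incl_rel h)

theorem res_apply {A : Type*} [AddCommGroup A] (φ : Hpar (Gamma0 N) A) (γ : Gamma0 L) :
    (res h φ).1 (Additive.ofMul γ) = φ.1 (Additive.ofMul (incl h γ)) := rfl

theorem res_mapHpar {A B : Type*} [AddCommGroup A] [AddCommGroup B] (f : A →+ B)
    (φ : Hpar (Gamma0 N) A) : res h (mapHpar f φ) = mapHpar f (res h φ) := rfl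

/-- The projection of cosets. -/
def projCos (_h : N ∣ L) (x : Cos L) : Cos N := (x.out : Cos N)

theorem projCos_mk (g : SL2Z) : projCos h (g : Cos L) = (g : Cos N) := by
  obtain ⟨γ, hγ⟩ := QuotientGroup.mk_out_eq_mul (Gamma0 L) g
  rw [projCos, hγ, QuotientGroup.eq]
  simp only [mul_inv_rev, mul_assoc, inv_mul_cancel, mul_one]
  exact inv_mem (Gamma0_le h γ.2)

theorem projCos_smul (k : SL2Z) (x : Cos L) : projCos h (k • x) = k • projCos h x := by
  induction x using QuotientGroup.induction_on with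
  | H g => rw [MulAction.Quotient.smul_coe, projCos_mk, projCos_mk, MulAction.Quotient.smul_coe]

theorem IsData.res [NeZero N] [NeZero L] {A : Type*} [AddCommGroup A] {φ : Hpar (Gamma0 N) A}
    {d : Cos N → A} (hd : IsData φ.1 d) : IsData (res h φ).1 (d ∘ projCos h) := by
  obtain ⟨f, hf, hg⟩ := hd
  have hmem : ∀ x : Cos L, ((projCos h x).out)⁻¹ * x.out ∈ Gamma0 N := fun x => by
    rw [← QuotientGroup.eq, QuotientGroup.out_eq']; rfl
  let e : Cos L → A := fun x => φ.1 (Additive.ofMul ⟨_, hmem x⟩)
  have key : ∀ (g : SL2Z) (x : Cos L), cosetCoc (LevelRaise.res h φ).1 g x =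
      cosetCoc φ.1 g (projCos h x) + e x - e (g • x) := by
    intro g x
    have hγ : incl h ⟨_, ES.cocycle_mem g x⟩ =
        (⟨_, hmem (g • x)⟩ : Gamma0 N)⁻¹ * ⟨_, ES.cocycle_mem g (projCos h x)⟩ * ⟨_, hmem x⟩ := by
      apply Subtype.ext
      simp only [coe_incl, Subgroup.coe_mul, Subgroup.coe_inv, projCos_smul h g x]
      group
    rw [cosetCoc, res_apply, hγ, ofMul_mul, map_add, ofMul_mul, map_add, ofMul_inv, map_neg]
    simp only [e, cosetCoc]
    abel
  refine ⟨fun x => f (projCos h x) + e x, fun x => ?_, fun x => ?_⟩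
  · rw [key, hf]; simp only [projCos_smul]; abel
  · rw [key, hg]; simp only [Pi.add_apply, Function.comp_apply, projCos_smul]; abel

variable [NeZero L]

open scoped Classical in
/-- Sum over a fibre. -/
def fibSum {A : Type*} [AddCommMonoid A] (h : N ∣ L) (u : Cos L → A) (y : Cos N) : A :=
  ∑ x ∈ Finset.univ.filter (fun x => projCos h x = y), u x

theorem fibSum_smul {A : Type*} [AddCommMonoid A] (u : Cos L → A) (k : SL2Z) (y : Cos N) :
    fibSum h (fun x => u (k • x)) y = fibSum h u (k • y) := by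
  classical
  unfold fibSum
  refine Finset.sum_equiv (act (Gamma0 L) k) (fun x => ?_) fun x _ => rfl
  simp [projCos_smul]

theorem fibSum_add {A : Type*} [AddCommMonoid A] (u v : Cos L → A) (y : Cos N) :
    fibSum h (fun x => u x + v x) y = fibSum h u y + fibSum h v y := Finset.sum_add_distrib

theorem fibSum_sub {A : Type*} [AddCommGroup A] (u v : Cos L → A) (y : Cos N) :
    fibSum h (fun x => u x - v x) y = fibSum h u y - fibSum h v y := Finset.sum_sub_distrib _ _

section Tau

variable {A : Type*} [AddCommGroup A]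

theorem fibSum_coc_mul (x : Additive (Gamma0 L) →+ A) (g k : SL2Z) (y : Cos N) :
    fibSum h (cosetCoc x (g * k)) y =
      fibSum h (cosetCoc x g) (k • y) + fibSum h (cosetCoc x k) y := by
  rw [← fibSum_smul h (cosetCoc x g) k y, ← fibSum_add]
  exact Finset.sum_congr rfl fun z _ => cosetCoc_mul x g k z

/-- The transfer as a homomorphism. -/
def tauHom (x : Additive (Gamma0 L) →+ A) : Additive (Gamma0 N) →+ A :=
  AddMonoidHom.mk'
    (fun γ => fibSum h (cosetCoc x ((Additive.toMul γ : Gamma0 N) : SL2Z))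
      ((1 : SL2Z) : Cos N))
    fun γ δ => by rw [toMul_add, Subgroup.coe_mul, fibSum_coc_mul, smul_base]

theorem tauHom_apply (x : Additive (Gamma0 L) →+ A) (γ : Gamma0 N) :
    tauHom h x (Additive.ofMul γ) =
      fibSum h (cosetCoc x (γ : SL2Z)) ((1 : SL2Z) : Cos N) := rfl

theorem tauHom_mem {x : Additive (Gamma0 L) →+ A} (hx : x ∈ Hpar (Gamma0 L) A) :
    tauHom h x ∈ Hpar (Gamma0 N) A := by
  classical
  intro γ hγ
  obtain ⟨u, hu⟩ := exists_coboundary (act (Gamma0 L) (γ : SL2Z)) _
    (orbit_sum_eq_zero hx (g := (γ : SL2Z)) hγ)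
  rw [tauHom_apply, show cosetCoc x (γ : SL2Z) = fun z => u z - u ((γ : SL2Z) • z) from funext hu,
    fibSum_sub, fibSum_smul, smul_base, sub_self]

/-- The transfer. -/
def tau : Hpar (Gamma0 L) A →+ Hpar (Gamma0 N) A :=
  AddMonoidHom.mk' (fun x => ⟨tauHom h x.1, tauHom_mem h x.2⟩) fun x y => by
    refine Subtype.ext (AddMonoidHom.ext fun γ => ?_)
    exact fibSum_add h _ _ _

theorem tau_apply (x : Hpar (Gamma0 L) A) (γ : Gamma0 N) :
    (tau h x).1 (Additive.ofMul γ) =
      fibSum h (cosetCoc x.1 (γ : SL2Z)) ((1 : SL2Z) : Cos N) := rfl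

theorem tau_mapHpar {B : Type*} [AddCommGroup B] (f : A →+ B) (x : Hpar (Gamma0 L) A) :
    tau h (mapHpar f x) = mapHpar f (tau h x) :=
  Subtype.ext (AddMonoidHom.ext fun _ => (map_sum f _ _).symm)

theorem IsData.tau [NeZero N] {x : Hpar (Gamma0 L) A} {d : Cos L → A} (hd : IsData x.1 d) :
    IsData (tau h x).1 (fibSum h d) := by
  obtain ⟨f, hf, hg⟩ := hd
  set b := ((1 : SL2Z) : Cos N)
  let E : Cos N → A := fun y => fibSum h (cosetCoc x.1 y.out) b
  have key : ∀ (g : SL2Z) (y : Cos N), cosetCoc (LevelRaise.tau h x).1 g y =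
      fibSum h (cosetCoc x.1 g) y + E y - E (g • y) := by
    intro g y
    show fibSum h (cosetCoc x.1 ((g • y).out⁻¹ * g * y.out)) b = _
    have hb : ∀ z : Cos N, (z.out : SL2Z) • b = z := fun z => by
      rw [MulAction.Quotient.smul_coe, smul_eq_mul, mul_one, QuotientGroup.out_eq']
    rw [fibSum_coc_mul, fibSum_coc_mul, hb, show cosetCoc x.1 (g • y).out⁻¹ =
      fun z => -cosetCoc x.1 (g • y).out ((g • y).out⁻¹ • z) from funext (cosetCoc_inv x.1 _)]
    rw [show fibSum h (fun z => -cosetCoc x.1 (g • y).out ((g • y).out⁻¹ • z)) (g • y) =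
      -fibSum h (fun z => cosetCoc x.1 (g • y).out ((g • y).out⁻¹ • z)) (g • y) from
        Finset.sum_neg_distrib _, fibSum_smul, inv_smul_eq_iff.mpr (hb (g • y)).symm]
    simp only [E]
    abel
  refine ⟨fun y => fibSum h f y + E y, fun y => ?_, fun y => ?_⟩
  · rw [key, show cosetCoc x.1 S' = fun z => f z - f (S' • z) from funext hf, fibSum_sub,
      fibSum_smul]
    exact (by intro a b c e; abel : ∀ a b c e : A, a - b + c - e = a + c - (b + e)) _ _ _ _
  · rw [key, show cosetCoc x.1 R' = fun z => (f + d) z - (f + d) (R' • z) from funext hg,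
      fibSum_sub, fibSum_smul, show f + d = fun z => f z + d z from rfl]
    simp only [fibSum_add, Pi.add_apply]
    abel

end Tau

variable {A : Type*} [CommRing A] [NeZero N]

theorem pairVal_comp_proj (P : Cos N → A) (k : Cos L → A) :
    pairVal (P ∘ projCos h) k = pairVal P (fibSum h k) := by
  classical
  simp only [pairVal, Function.comp_apply, projCos_smul, fibSum, Finset.mul_sum]
  rw [← Finset.sum_fiberwise Finset.univ (projCos h)
    (fun x => (P (projCos h x) - P (S' • projCos h x)) * k x)]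
  refine Finset.sum_congr rfl fun y _ => Finset.sum_congr rfl fun x hx => ?_
  rw [(Finset.mem_filter.mp hx).2]

theorem pairVal_proj_comp (P : Cos L → A) (k : Cos N → A) :
    pairVal P (k ∘ projCos h) = pairVal (fibSum h P) k := by
  classical
  have e : ∀ y, fibSum h P (S' • y) = fibSum h (fun x => P (S' • x)) y := fun y =>
    (fibSum_smul h P S' y).symm
  simp only [pairVal, Function.comp_apply, e, ← fibSum_sub]
  simp only [fibSum, Finset.sum_mul]
  rw [← Finset.sum_fiberwise Finset.univ (projCos h)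
    (fun x => (P x - P (S' • x)) * k (projCos h x))]
  refine Finset.sum_congr rfl fun y _ => Finset.sum_congr rfl fun x hx => ?_
  rw [(Finset.mem_filter.mp hx).2]

/-- Restriction is adjoint to the transfer. -/
theorem pair_res_left (φ : Hpar (Gamma0 N) A) (x : Hpar (Gamma0 L) A) :
    pair (res h φ) x = pair φ (tau h x) := by
  rw [pair_eq (IsData.res h (isData_datum φ)) (P := potential φ ∘ projCos h) (fun y => by
      simp only [Function.comp_apply, projCos_smul]; exact isPot_potential φ (projCos h y))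
      (isData_datum x),
    pairVal_comp_proj]
  exact (pair_eq (isData_datum φ) (isPot_potential φ) (IsData.tau h (isData_datum x))).symm

/-- Restriction is adjoint to the transfer on the other side. -/
theorem pair_res_right (x : Hpar (Gamma0 L) A) (φ : Hpar (Gamma0 N) A) :
    pair x (res h φ) = pair (tau h x) φ := by
  rw [pair_eq (isData_datum x) (isPot_potential x) (IsData.res h (isData_datum φ)),
    pairVal_proj_comp]
  refine (pair_eq (IsData.tau h (isData_datum x)) (fun y => ?_) (isData_datum φ)).symm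
  rw [← fibSum_smul h (potential x) T' y, ← fibSum_smul h (datum x) R' y, ← fibSum_sub,
    ← fibSum_sub]
  exact Finset.sum_congr rfl fun z _ => isPot_potential x z

end FLTAgent.LevelRaise
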