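import Fermat.Agent.PeriodHecke.Equivariance

/-!
A homomorphism killing `Γ₁(N)` is an eigenvector with Eisenstein eigenvalues.
-/

set_option autoImplicit false

noncomputable section

open scoped MatrixGroups
open CongruenceSubgroup FLTAgent.PeriodHecke

namespace FLTAgent.LevelRaise

variable {N r : ℕ} [Fact r.Prime] {A : Type*} [AddCommGroup A]

theorem lowerRight_mul (γ δ : Gamma0 N) :
    ((mat (γ * δ) 1 1 : ℤ) : ZMod N) = (mat γ 1 1 : ℤ) * (mat δ 1 1 : ℤ) := by
  rw [mat_mul, Matrix.mul_apply, Fin.sum_univ_two]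
  push_cast
  rw [show ((mat γ 1 0 : ℤ) : ZMod N) = 0 from Gamma0_mem.mp γ.2, zero_mul, zero_add]

/-- A homomorphism killing `Γ₁(N)` depends on the lower right entry modulo `N`. -/
theorem eq_of_lowerRight {φ : Additive (Gamma0 N) →+ A}
    (hφ : ∀ γ : Gamma0 N, (N : ℤ) ∣ mat γ 1 1 - 1 → φ (Additive.ofMul γ) = 0) {γ δ : Gamma0 N}
    (h : ((mat γ 1 1 : ℤ) : ZMod N) = (mat δ 1 1 : ℤ)) :
    φ (Additive.ofMul γ) = φ (Additive.ofMul δ) := by
  have h1 := lowerRight_mul δ δ⁻¹
  rw [mul_inv_cancel, mat_one, Matrix.one_apply_eq, Int.cast_one] at h1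
  have h0 := hφ (γ * δ⁻¹) ((ZMod.intCast_zmod_eq_zero_iff_dvd _ _).mp (by
    push_cast
    rw [lowerRight_mul, h, ← h1, sub_self]))
  rwa [ofMul_mul, map_add, ofMul_inv, map_neg, add_neg_eq_zero] at h0

/-- The Hecke operators act on such a homomorphism by `1 + r`. -/
theorem hecke_of_kills_Gamma1 (hr : ¬ r ∣ N) {φ : Additive (Gamma0 N) →+ A}
    (hφ : ∀ γ : Gamma0 N, (N : ℤ) ∣ mat γ 1 1 - 1 → φ (Additive.ofMul γ) = 0) :
    (heckeFam N r).hecke φ = (r + 1) • φ := by
  classical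
  obtain ⟨u, v, huv⟩ : IsCoprime (r : ℤ) (N : ℤ) := Int.isCoprime_iff_nat_coprime.mpr (by
    simpa using ((Fact.out : r.Prime).coprime_iff_not_dvd).mpr hr)
  let g : Gamma0 N := gamma0Mk N u (-v) N r (by linear_combination huv) dvd_rfl
  let E : HeckeIdx N r → Gamma0 N := fun i => if i.1 = none then 1 else g
  have hE : ∀ i, ((heckeRep N r i 1 1 : ℤ) : ZMod N) = (mat (E i) 1 1 : ℤ) := by
    intro i
    rcases HeckeIdx.cases N r i with ⟨h, rfl⟩ | ⟨j, rfl⟩
    · simp [E, heckeRep, mat_one]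
    · simp [E, idxSome, heckeRep, g]
  refine AddMonoidHom.ext fun γ => ?_
  obtain ⟨γ, rfl⟩ := Additive.ofMul.surjective γ
  rw [HeckeFamily.hecke_apply]
  have key : ∀ i, φ (Additive.ofMul ((heckeFam N r).coc γ i)) =
      φ (Additive.ofMul γ) +
        (φ (Additive.ofMul (E i)) - φ (Additive.ofMul (E ((heckeFam N r).next γ i)))) := by
    intro i
    have hrel := congrFun (congrFun ((heckeFam N r).rel γ i) 1) 1
    set j := (heckeFam N r).next γ i
    set δ := (heckeFam N r).coc γ i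
    rw [heckeFam_α, Matrix.mul_apply, Matrix.mul_apply, Fin.sum_univ_two, Fin.sum_univ_two] at hrel
    have h10 : heckeRep N r i 1 0 = 0 := by
      rcases HeckeIdx.cases N r i with ⟨h, e⟩ | ⟨k, e⟩ <;> simp [e, heckeRep, idxSome]
    rw [h10, zero_mul, zero_add] at hrel
    have hd := congrArg (fun z : ℤ => (z : ZMod N)) hrel
    simp only [Int.cast_add, Int.cast_mul] at hd
    rw [show ((mat δ 1 0 : ℤ) : ZMod N) = 0 from Gamma0_mem.mp δ.2, zero_mul, zero_add, hE, hE,
      ← lowerRight_mul, ← lowerRight_mul] at hd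
    have h2 := eq_of_lowerRight hφ hd
    simp only [ofMul_mul, map_add] at h2
    rw [eq_sub_of_add_eq h2.symm]
    abel
  rw [Finset.sum_congr rfl fun i _ => key i, Finset.sum_add_distrib, Finset.sum_sub_distrib,
    show ∑ i, φ (Additive.ofMul (E ((heckeFam N r).next γ i))) = ∑ i, φ (Additive.ofMul (E i)) from
      Equiv.sum_comp ((heckeFam N r).perm γ) (fun i => φ (Additive.ofMul (E i))),
    sub_self, add_zero, sum_idx_of_not_dvd N r hr]
  simp [add_smul]

end FLTAgent.LevelRaise
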