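import Fermat.Agent.LevelRaise.Transfer
import Fermat.Agent.LevelRaise.Classify

/-!
The Atkin–Lehner involution at a prime exactly dividing the level.
-/

set_option autoImplicit false

noncomputable section

open scoped MatrixGroups
open CongruenceSubgroup FLTAgent.PeriodHecke

namespace FLTAgent.LevelRaise

local notation "SL2Z" => Matrix.SpecialLinearGroup (Fin 2) ℤ
local notation "M2" => Matrix (Fin 2) (Fin 2) ℤ

/-- A solution of `ℓ a - N b = 1`. -/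
structure Bez (N ℓ : ℕ) where
  a : ℤ
  b : ℤ
  eq : (ℓ : ℤ) * a - N * b = 1

variable {N ℓ : ℕ}

theorem exists_bez [Fact ℓ.Prime] (h : ¬ ℓ ∣ N) : Nonempty (Bez N ℓ) := by
  obtain ⟨u, v, huv⟩ : IsCoprime (ℓ : ℤ) (N : ℤ) := Int.isCoprime_iff_nat_coprime.mpr (by
    simpa using ((Fact.out : ℓ.Prime).coprime_iff_not_dvd).mpr h)
  exact ⟨⟨u, -v, by linear_combination huv⟩⟩

namespace Bez

variable (B : Bez N ℓ) [Fact ℓ.Prime] [NeZero N]

theorem ell_ne_zero : (ℓ : ℤ) ≠ 0 := Int.natCast_ne_zero.mpr (Fact.out : ℓ.Prime).ne_zero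

theorem level_ne_zero : ((N * ℓ : ℕ) : ℤ) ≠ 0 :=
  Int.natCast_ne_zero.mpr (Nat.mul_ne_zero (NeZero.ne N) (Fact.out : ℓ.Prime).ne_zero)

include B in
theorem not_dvd : ¬ ℓ ∣ N := fun h => by
  have h1 : (ℓ : ℤ) ∣ 1 := by
    rw [← B.eq]
    exact dvd_sub (dvd_mul_right _ _) (dvd_mul_of_dvd_left (Int.natCast_dvd_natCast.mpr h) _)
  exact (Fact.out : ℓ.Prime).one_lt.ne' (by simpa using Int.eq_one_of_dvd_one (Int.natCast_nonneg ℓ) h1)

theorem not_dvd_b : ¬ (ℓ : ℤ) ∣ B.b := fun h => by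
  have h1 : (ℓ : ℤ) ∣ 1 := by
    rw [← B.eq]
    exact dvd_sub (dvd_mul_right _ _) (dvd_mul_of_dvd_right h _)
  exact (Fact.out : ℓ.Prime).one_lt.ne' (by simpa using Int.eq_one_of_dvd_one (Int.natCast_nonneg ℓ) h1)

/-- The Atkin–Lehner matrix. -/
def W : M2 := !![(ℓ : ℤ) * B.a, B.b; (N : ℤ) * ℓ, ℓ]

theorem det_W : B.W.det = (ℓ : ℤ) := by
  rw [W, Matrix.det_fin_two_of]
  linear_combination (ℓ : ℤ) * B.eq

theorem det_W_pos : 0 < B.W.det := by
  rw [B.det_W]; exact_mod_cast (Fact.out : ℓ.Prime).pos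

theorem det_W_ne : B.W.det ≠ 0 := B.det_W_pos.ne'

/-- The conjugate of a matrix with lower left entry `N ℓ C` by the Atkin–Lehner matrix. -/
def cMat (A B' C D : ℤ) : M2 :=
  !![(ℓ : ℤ) * B.a * A + B.b * (N * ℓ * C) - N * ((ℓ : ℤ) * B.a * B' + B.b * D),
    -(B.a * B.b * A) - B.b ^ 2 * N * C + (ℓ : ℤ) * B.a ^ 2 * B' + B.a * B.b * D;
    (N : ℤ) * ℓ * (A + ℓ * C - N * B' - D),
    -(B.b * (N * A + N * ℓ * C)) + (ℓ : ℤ) * B.a * (N * B' + D)]

theorem cMat_rel (A B' C D : ℤ) :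
    B.W * !![A, B'; (N : ℤ) * ℓ * C, D] = B.cMat A B' C D * B.W := by
  have := B.eq
  ext i j
  fin_cases i <;> fin_cases j <;> simp [W, cMat, Matrix.mul_apply, Fin.sum_univ_two] <;> grind

theorem exists_conj (γ : Gamma0 (N * ℓ)) :
    ∃ η : Gamma0 (N * ℓ), B.W * mat γ = mat η * B.W := by
  obtain ⟨C, hC⟩ := dvd_lower_left (N * ℓ) γ
  push_cast at hC
  have hrel : B.W * mat γ = B.cMat (mat γ 0 0) (mat γ 0 1) C (mat γ 1 1) * B.W := by
    rw [← B.cMat_rel, ← hC, ← Matrix.eta_fin_two (mat γ)]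
  have hd : (B.cMat (mat γ 0 0) (mat γ 0 1) C (mat γ 1 1)).det = 1 := by
    have := congrArg Matrix.det hrel
    rw [Matrix.det_mul, Matrix.det_mul, mat_det, mul_one] at this
    exact (mul_eq_right₀ B.det_W_ne).mp this.symm
  refine ⟨⟨⟨_, hd⟩, Gamma0_mem.mpr ((ZMod.intCast_zmod_eq_zero_iff_dvd _ _).mpr ?_)⟩, hrel⟩
  show ((N * ℓ : ℕ) : ℤ) ∣ (N : ℤ) * ℓ * _
  push_cast
  exact dvd_mul_right _ _

/-- Conjugation by the Atkin–Lehner matrix. -/
def c : Gamma0 (N * ℓ) →* Gamma0 (N * ℓ) :=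
  MonoidHom.mk' (fun γ => (B.exists_conj γ).choose) fun γ δ => by
    apply mat_injective
    refine mul_right_cancel_det B.det_W_ne ?_
    refine (B.exists_conj (γ * δ)).choose_spec.symm.trans ?_
    rw [mat_mul, mat_mul, ← mul_assoc]
    refine (congrArg (· * mat δ) (B.exists_conj γ).choose_spec).trans ?_
    rw [mul_assoc, mul_assoc]
    exact congrArg (mat _ * ·) (B.exists_conj δ).choose_spec

theorem c_rel (γ : Gamma0 (N * ℓ)) : B.W * mat γ = mat (B.c γ) * B.W :=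
  (B.exists_conj γ).choose_spec

/-- The square of the Atkin–Lehner matrix up to a scalar. -/
def g0 : Gamma0 (N * ℓ) :=
  gamma0Mk (N * ℓ) ((ℓ : ℤ) * B.a ^ 2 + B.b * N) (B.a * B.b + B.b)
    ((N : ℤ) * ℓ * (B.a + 1)) ((N : ℤ) * B.b + ℓ)
    (by linear_combination ((ℓ : ℤ) * B.a - N * B.b + 1) * B.eq)
    (by push_cast; exact dvd_mul_right _ _)

theorem W_mul_W : B.W * B.W = (ℓ : ℤ) • mat B.g0 := by
  rw [g0, mat_gamma0Mk]
  ext i j
  fin_cases i <;> fin_cases j <;> simp [W, Matrix.mul_apply, Fin.sum_univ_two] <;> ring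

theorem c_c (γ : Gamma0 (N * ℓ)) : B.c (B.c γ) = B.g0 * γ * B.g0⁻¹ := by
  rw [eq_mul_inv_iff_mul_eq]
  apply mat_injective
  have h : B.W * B.W * mat γ = mat (B.c (B.c γ)) * (B.W * B.W) := by
    rw [mul_assoc, B.c_rel, ← mul_assoc, B.c_rel, mul_assoc]
  rw [B.W_mul_W, Matrix.smul_mul, Matrix.mul_smul, ← mat_mul, ← mat_mul] at h
  exact (smul_right_injective M2 (ell_ne_zero (ℓ := ℓ)) h).symm

theorem c_surjective : Function.Surjective B.c := fun η =>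
  ⟨B.c (B.g0⁻¹ * η * B.g0), by rw [B.c_c]; group⟩

section Op

variable {A A' : Type*} [AddCommGroup A] [AddCommGroup A']

/-- The Atkin–Lehner involution. -/
def op : Hpar (Gamma0 (N * ℓ)) A →+ Hpar (Gamma0 (N * ℓ)) A :=
  twist B.c B.det_W_ne B.c_rel

theorem op_apply (φ : Hpar (Gamma0 (N * ℓ)) A) (γ : Gamma0 (N * ℓ)) :
    (B.op φ).1 (Additive.ofMul γ) = φ.1 (Additive.ofMul (B.c γ)) := rfl

theorem op_op (φ : Hpar (Gamma0 (N * ℓ)) A) : B.op (B.op φ) = φ := by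
  refine Subtype.ext (AddMonoidHom.ext fun γ => ?_)
  obtain ⟨γ, rfl⟩ := Additive.ofMul.surjective γ
  rw [op_apply, op_apply, B.c_c, ofMul_mul, ofMul_mul, map_add, map_add, ofMul_inv, map_neg]
  abel

theorem op_mapHpar (f : A →+ A') (φ : Hpar (Gamma0 (N * ℓ)) A) :
    B.op (mapHpar f φ) = mapHpar f (B.op φ) := rfl

end Op

theorem pair_op {A : Type*} [CommRing A] (x y : Hpar (Gamma0 (N * ℓ)) A) :
    pair (B.op x) y = pair x (B.op y) := by
  conv_lhs => rw [← B.op_op y]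
  exact pair_twist B.c B.det_W_pos B.c_rel x (B.op y)

end Bez

end FLTAgent.LevelRaise
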