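import Fermat.Agent.LevelRaise.Degeneracy

/-!
Self-adjointness of the Hecke operators at good primes, their commutation with the degeneracy
maps, and the compatible pairs coming from the kernel of the degeneracy maps.
-/

set_option autoImplicit false

noncomputable section

open scoped MatrixGroups
open CongruenceSubgroup FLTAgent.PeriodHecke

namespace FLTAgent.LevelRaise

local notation "M2" => Matrix (Fin 2) (Fin 2) ℤ

/-- Right nondegeneracy in difference form. -/
theorem eq_of_pair_left {M : ℕ} [NeZero M] {A : Type*} [CommRing A] {x y : Hpar (Gamma0 M) A}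
    (h : ∀ ψ, pair x ψ = pair y ψ) : x = y := by
  rw [← sub_eq_zero]
  refine eq_zero_of_pair_eq_zero fun ψ => ?_
  have h1 := pair_add_left (x - y) y ψ
  rw [sub_add_cancel, h ψ] at h1
  exact add_eq_right.mp h1.symm

/-- The Hecke operators at primes not dividing the level are self-adjoint. -/
theorem pair_hecke {M r : ℕ} [NeZero M] [Fact r.Prime] (hr : ¬ r ∣ M) {A : Type*} [CommRing A]
    (φ ψ : Hpar (Gamma0 M) A) :
    pair ((heckeFam M r).heckePar φ) ψ = pair φ ((heckeFam M r).heckePar ψ) := by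
  obtain ⟨B⟩ := exists_bez hr
  haveI : NeZero (M * r) := ⟨Nat.mul_ne_zero (NeZero.ne M) (Fact.out : r.Prime).ne_zero⟩
  rw [← B.tau_op_res φ, ← B.tau_op_res ψ, ← pair_res_right, B.pair_op, pair_res_left]

section Good

variable {N ℓ r : ℕ} [Fact ℓ.Prime] [Fact r.Prime] [NeZero N] [NeZero (N * ℓ)]
  (hr : ¬ r ∣ N * ℓ) {A : Type*} [AddCommGroup A]

include hr in
theorem not_dvd_left : ¬ r ∣ N := fun h => hr (dvd_mul_of_dvd_left h ℓ)

/-- The same index at the larger level. -/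
def idxUp (i : HeckeIdx (N * ℓ) r) : HeckeIdx N r :=
  ⟨i.1, fun h h' => i.2 h (dvd_mul_of_dvd_left h' ℓ)⟩

include hr in
theorem idxUp_bijective : Function.Bijective (idxUp (N := N) (ℓ := ℓ) (r := r)) :=
  ⟨fun _ _ h => Subtype.ext (congrArg Subtype.val h : _),
    fun i => ⟨⟨i.1, fun _ => hr⟩, rfl⟩⟩

theorem heckeRep_idxUp (i : HeckeIdx (N * ℓ) r) :
    heckeRep N r (idxUp i) = heckeRep (N * ℓ) r i := by
  rcases HeckeIdx.cases (N * ℓ) r i with ⟨h, rfl⟩ | ⟨j, rfl⟩ <;> rfl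

include hr in
/-- Restriction commutes with the Hecke operators at good primes. -/
theorem hecke_res (φ : Hpar (Gamma0 N) A) :
    (heckeFam (N * ℓ) r).heckePar (res (dvd_level N ℓ) φ) =
      res (dvd_level N ℓ) ((heckeFam N r).heckePar φ) := by
  refine Subtype.ext (AddMonoidHom.ext fun γ => ?_)
  obtain ⟨γ, rfl⟩ := Additive.ofMul.surjective γ
  rw [res_apply, HeckeFamily.coe_heckePar, HeckeFamily.coe_heckePar, HeckeFamily.hecke_apply,
    HeckeFamily.hecke_apply]
  rw [← (Equiv.ofBijective _ (idxUp_bijective hr)).sum_comp]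
  refine Finset.sum_congr rfl fun i _ => ?_
  obtain ⟨h1, h2⟩ := (heckeFam N r).eq_of_rel (γ := incl (dvd_level N ℓ) γ) (i := idxUp i)
    (j := idxUp ((heckeFam (N * ℓ) r).next γ i))
    (δ := incl (dvd_level N ℓ) ((heckeFam (N * ℓ) r).coc γ i)) (by
      rw [heckeFam_α, heckeRep_idxUp, heckeRep_idxUp]
      exact (heckeFam (N * ℓ) r).rel γ i)
  rw [Equiv.ofBijective_apply, h2]
  rfl

namespace Bez

variable (B : Bez N ℓ)

include hr in
theorem exists_move (j : HeckeIdx (N * ℓ) r) :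
    ∃ (i : HeckeIdx (N * ℓ) r) (δ : Gamma0 (N * ℓ)),
      B.W * heckeRep (N * ℓ) r j = mat δ * heckeRep (N * ℓ) r i * B.W := by
  obtain ⟨A', B', D, hA⟩ : ∃ A' B' D : ℤ, heckeRep (N * ℓ) r j = !![A', B'; (N : ℤ) * ℓ * 0, D] := by
    rcases HeckeIdx.cases (N * ℓ) r j with ⟨h, rfl⟩ | ⟨k, rfl⟩
    · exact ⟨r, 0, 1, by simp [heckeRep]⟩
    · exact ⟨1, k.val, r, by rw [heckeRep_idxSome, mul_zero]⟩
  have hrel := B.cMat_rel A' B' 0 D
  rw [← hA] at hrel
  have hdet : (heckeRep (N * ℓ) r j).det = (r : ℤ) := by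
    rcases HeckeIdx.cases (N * ℓ) r j with ⟨h, rfl⟩ | ⟨k, rfl⟩ <;>
      simp [heckeRep, idxSome, Matrix.det_fin_two_of]
  have hd : (B.cMat A' B' 0 D).det = (r : ℤ) := by
    have := congrArg Matrix.det hrel
    rw [Matrix.det_mul, Matrix.det_mul, hdet, mul_comm] at this
    exact (mul_right_cancel₀ B.det_W_ne this).symm
  obtain ⟨i, δ, hδ⟩ := exists_heckeRep (N * ℓ) r (B.cMat A' B' 0 D) hd
    (by show ((N * ℓ : ℕ) : ℤ) ∣ (N : ℤ) * ℓ * _; push_cast; exact dvd_mul_right _ _)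
    fun h => absurd h hr
  exact ⟨i, δ, by rw [hrel, hδ]⟩

include hr in
/-- The Atkin–Lehner involution commutes with the Hecke operators at good primes. -/
theorem hecke_op (Φ : Hpar (Gamma0 (N * ℓ)) A) :
    (heckeFam (N * ℓ) r).heckePar (B.op Φ) = B.op ((heckeFam (N * ℓ) r).heckePar Φ) := by
  choose e δ h using B.exists_move hr
  have hbij : Function.Bijective e := by
    refine Finite.injective_iff_bijective.mp fun j j' hjj => ?_
    obtain ⟨μ, hμ⟩ := B.c_surjective (δ j * (δ j')⁻¹)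
    refine ((heckeFam (N * ℓ) r).inj μ j' j ?_).symm
    rw [heckeFam_α]
    refine mul_left_cancel_det B.det_W_ne ?_
    rw [← mul_assoc, B.c_rel, hμ, mul_assoc, h j', ← mul_assoc, ← mul_assoc, ← mat_mul,
      inv_mul_cancel_right, h j, hjj]
  exact Subtype.ext ((heckeFam (N * ℓ) r).hecke_intertwine (heckeFam (N * ℓ) r) B.c B.W B.det_W_ne
    B.c_rel (Equiv.ofBijective e hbij) δ h Φ.1)

end Bez

include hr in
/-- The transfer commutes with the Hecke operators at good primes. -/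
theorem hecke_tau {A : Type*} [CommRing A] (Φ : Hpar (Gamma0 (N * ℓ)) A) :
    (heckeFam N r).heckePar (tau (dvd_level N ℓ) Φ) =
      tau (dvd_level N ℓ) ((heckeFam (N * ℓ) r).heckePar Φ) :=
  eq_of_pair_left fun ψ => by
    rw [pair_hecke (not_dvd_left hr), ← pair_res_right, ← hecke_res hr, ← pair_hecke hr,
      pair_res_right]

end Good

namespace Bez

variable {N ℓ p : ℕ} [Fact ℓ.Prime] [NeZero N] [NeZero (N * ℓ)] (B : Bez N ℓ)

/-- A relation between the two degeneracy maps gives a compatible pair. -/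
def compatPair (φ ψ : Hpar (Gamma0 N) (ZMod p))
    (h : res (dvd_level N ℓ) φ + B.op (res (dvd_level N ℓ) ψ) = 0) : CompatPair N ℓ p where
  φ := φ
  ψ := ψ
  compat γ η h00 h01 h10 h11 := by
    have hmem : (γ : SL(2, ℤ)) ∈ Gamma0 (N * ℓ) := by
      rw [Gamma0_mem, ZMod.intCast_zmod_eq_zero_iff_dvd]
      push_cast
      rw [show ((γ : SL(2, ℤ)) : M2) 1 0 = (ℓ : ℤ) * mat η 1 0 from h10.symm, mul_comm (N : ℤ)]
      exact mul_dvd_mul_left _ (dvd_lower_left N η)
    let g0' : Gamma0 N := gamma0Mk N B.a B.b N ℓ (by linear_combination B.eq) dvd_rfl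
    have hW : B.W = mat g0' * !![(ℓ : ℤ), 0; 0, 1] := by
      rw [mat_gamma0Mk]
      ext r s
      fin_cases r <;> fin_cases s <;> simp [Bez.W, Matrix.mul_apply, Fin.sum_univ_two] <;> ring
    have hc : incl (dvd_level N ℓ) (B.c ⟨γ, hmem⟩) = g0' * η * g0'⁻¹ := by
      apply mat_injective
      refine mul_right_cancel_det B.det_W_ne ?_
      show mat (B.c ⟨γ, hmem⟩) * B.W = _
      rw [← B.c_rel, mat_mul, mul_assoc (mat (g0' * η)), hW, mul_assoc,
        ← mul_assoc (mat g0'⁻¹), ← mat_mul, inv_mul_cancel, mat_one, one_mul, mat_mul, mul_assoc]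
      congr 1
      show _ * mat γ = _
      rw [Matrix.eta_fin_two (mat γ), Matrix.eta_fin_two (mat η), ← h10, ← h00, h01, ← h11]
      ext r s
      fin_cases r <;> fin_cases s <;> simp [Matrix.mul_apply, Fin.sum_univ_two] <;> ring
    have h1 := congrFun (congrArg (fun x : Hpar (Gamma0 (N * ℓ)) (ZMod p) => (x.1 : _ → ZMod p)) h)
      (Additive.ofMul ⟨γ, hmem⟩)
    simp only [AddSubgroup.coe_add, AddMonoidHom.add_apply, op_apply, res_apply, hc, ofMul_mul,
      map_add, ofMul_inv, map_neg, ZeroMemClass.coe_zero, AddMonoidHom.zero_apply] at h1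
    rw [add_comm (ψ.1 (Additive.ofMul g0')) (ψ.1 (Additive.ofMul η)), add_neg_cancel_right] at h1
    exact h1

/-- The kernel of the degeneracy maps kills `Γ₁(N)`. -/
theorem eq_zero_of_kernel [Fact p.Prime] (hp2 : p ≠ 2)
    {φ ψ : Hpar (Gamma0 N) (ZMod p)}
    (h : res (dvd_level N ℓ) φ + B.op (res (dvd_level N ℓ) ψ) = 0) {γ : Gamma0 N}
    (hd : (N : ℤ) ∣ mat γ 1 1 - 1) :
    φ.1 (Additive.ofMul γ) = 0 ∧ ψ.1 (Additive.ofMul γ) = 0 := by
  refine ⟨(B.compatPair φ ψ h).phi_eq_zero B.not_dvd hp2 hd,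
    (B.compatPair ψ φ ?_).phi_eq_zero B.not_dvd hp2 hd⟩
  have h' := congrArg B.op h
  rwa [map_add, op_op, map_zero, add_comm] at h'

end Bez

end FLTAgent.LevelRaise
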