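import Fermat.Agent.PeriodHecke.Action

/-!
Reduction modulo a prime of homomorphisms killing parabolic and elliptic elements, and a
criterion for a vector to be in an image over a prime field.
-/

set_option autoImplicit false

noncomputable section

open scoped MatrixGroups
open CongruenceSubgroup FLTAgent.PeriodHecke

namespace FLTAgent.LevelRaise

variable (M p : ℕ)

/-- Reduction modulo `p`. -/
def red : Hpar (Gamma0 M) ℤ →+ Hpar (Gamma0 M) (ZMod p) := mapHpar (Int.castAddHom (ZMod p))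

theorem red_apply (φ : Hpar (Gamma0 M) ℤ) (γ : Additive (Gamma0 M)) :
    (red M p φ).1 γ = ((φ.1 γ : ℤ) : ZMod p) := rfl

theorem red_surjective [NeZero M] : Function.Surjective (red M p) := fun φ => by
  obtain ⟨l, rfl⟩ := (homEquiv M (ZMod p)).surjective φ
  obtain ⟨l', hl'⟩ := Module.projective_lifting_property
    (Int.castAddHom (ZMod p)).toIntLinearMap l ZMod.intCast_surjective
  exact ⟨homEquiv M ℤ l', by rw [red, mapHpar_homEquiv, hl']⟩

variable {M p}

theorem exists_eq_nsmul_of_red_eq_zero [NeZero p] {φ : Hpar (Gamma0 M) ℤ} (h : red M p φ = 0) :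
    ∃ ψ : Hpar (Gamma0 M) ℤ, φ = p • ψ := by
  have hd : ∀ γ, (p : ℤ) ∣ φ.1 γ := fun γ => by
    rw [← ZMod.intCast_zmod_eq_zero_iff_dvd, ← red_apply, h]; rfl
  refine ⟨⟨AddMonoidHom.mk' (fun γ => φ.1 γ / p) fun γ δ => by
    rw [map_add, Int.add_ediv_of_dvd_left (hd γ)], fun γ hγ => ?_⟩,
    Subtype.ext (AddMonoidHom.ext fun γ => ?_)⟩
  · show φ.1 (Additive.ofMul γ) / (p : ℤ) = 0
    rw [φ.2 γ hγ, Int.zero_ediv]
  · show φ.1 γ = (p : ℕ) • (φ.1 γ / (p : ℤ))
    rw [nsmul_eq_mul, Int.mul_ediv_cancel' (hd γ)]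

theorem nsmul_zmod_Hpar (φ : Hpar (Gamma0 M) (ZMod p)) : p • φ = 0 :=
  Subtype.ext (AddMonoidHom.ext fun γ => by
    show p • φ.1 γ = 0
    rw [nsmul_eq_mul, ZMod.natCast_self, zero_mul])

theorem finite_Hpar_zmod [NeZero M] [NeZero p] : Finite (Hpar (Gamma0 M) (ZMod p)) :=
  Nat.finite_of_card_ne_zero (by rw [card_Hpar_zmod]; exact pow_ne_zero _ (NeZero.ne p))

theorem intCast_zsmul_apply {A : Type*} [AddCommGroup A] (c : ℤ) (φ : Hpar (Gamma0 M) A)
    (γ : Additive (Gamma0 M)) : (c • φ).1 γ = c • φ.1 γ := rfl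

theorem zsmul_eq_zero_iff_zmod [Fact p.Prime] {c : ℤ} {φ : Hpar (Gamma0 M) (ZMod p)}
    (h : c • φ = 0) : (c : ZMod p) = 0 ∨ φ = 0 := by
  refine or_iff_not_imp_left.mpr fun hc => Subtype.ext (AddMonoidHom.ext fun γ => ?_)
  have h1 := DFunLike.congr_fun (congrArg Subtype.val h) γ
  rw [intCast_zsmul_apply, zsmul_eq_mul] at h1
  exact (mul_eq_zero.mp h1).resolve_left hc

section Range

variable [Fact p.Prime] {V X : Type*} [AddCommGroup V] [Finite V] [AddCommGroup X]

theorem mem_range_of_orthogonal' [Module (ZMod p) V] (B : V →+ V →+ ZMod p)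
    (hB : ∀ u, (∀ v, B u v = 0) → u = 0) (f : X →+ V) (w : V)
    (h : ∀ u, (∀ x, B u (f x) = 0) → B u w = 0) : w ∈ f.range := by
  classical
  by_contra hw
  let Bl : V →ₗ[ZMod p] Module.Dual (ZMod p) V :=
    AddMonoidHom.toZModLinearMap p (M₁ := Module.Dual (ZMod p) V)
      (AddMonoidHom.mk' (fun u => (B u).toZModLinearMap p) fun u u' =>
        LinearMap.ext fun v => by
          rw [LinearMap.add_apply, AddMonoidHom.coe_toZModLinearMap, map_add]; rfl)
  have hBl : ∀ u v, Bl u v = B u v := fun _ _ => rfl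
  have hinj : Function.Injective Bl := by
    refine (injective_iff_map_eq_zero _).mpr fun u hu => hB u fun v => ?_
    rw [← hBl, hu]; rfl
  have hsurj : Function.Surjective Bl :=
    (LinearMap.injective_iff_surjective_of_finrank_eq_finrank
      Subspace.dual_finrank_eq.symm).mp hinj
  let R := AddSubgroup.toZModSubmodule p f.range
  obtain ⟨g, hg⟩ := Module.Projective.exists_dual_ne_zero (ZMod p) (x := R.mkQ w)
    fun h0 => hw ((Submodule.Quotient.mk_eq_zero R).mp h0)
  obtain ⟨u, hu⟩ := hsurj (g.comp R.mkQ)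
  refine hg (((LinearMap.congr_fun hu w).symm.trans (hBl u w)).trans (h u fun x => ?_))
  rw [← hBl, hu, LinearMap.comp_apply,
    show R.mkQ (f x) = 0 from (Submodule.Quotient.mk_eq_zero R).mpr ⟨x, rfl⟩, map_zero]

/-- A vector is in the image as soon as everything orthogonal to the image is orthogonal to it. -/
theorem mem_range_of_orthogonal (hV : ∀ v : V, p • v = 0) (B : V →+ V →+ ZMod p)
    (hB : ∀ u, (∀ v, B u v = 0) → u = 0) (f : X →+ V) (w : V)
    (h : ∀ u, (∀ x, B u (f x) = 0) → B u w = 0) : w ∈ f.range :=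
  @mem_range_of_orthogonal' p _ V X _ _ _ (AddCommGroup.zmodModule hV) B hB f w h

end Range

end FLTAgent.LevelRaise
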