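import Fermat.Agent.LevelRaise.Commute
import Fermat.Agent.LevelRaise.Reduction
import Fermat.Agent.LevelRaise.DiamondTrivial

/-!
An integral vector killed by both degeneracy maps whose reduction carries the given eigensystem.
-/

set_option autoImplicit false

noncomputable section

open scoped MatrixGroups
open CongruenceSubgroup FLTAgent.PeriodHecke Polynomial

namespace FLTAgent.LevelRaise

section Shift

variable {M : ℕ} (r : ℕ) [Fact r.Prime] {A : Type*} [AddCommGroup A]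

/-- The operator `T_r - (1 + r)`. -/
def shiftOp : Hpar (Gamma0 M) A →+ Hpar (Gamma0 M) A :=
  (heckeFam M r).heckePar - (r + 1) • AddMonoidHom.id _

theorem shiftOp_apply (φ : Hpar (Gamma0 M) A) :
    shiftOp r φ = (heckeFam M r).heckePar φ - (r + 1) • φ := rfl

end Shift

variable {N ℓ p : ℕ} [Fact ℓ.Prime] [NeZero N] [NeZero (N * ℓ)] [Fact p.Prime] (B : Bez N ℓ)

section Maps

variable {A : Type*} [AddCommGroup A]

/-- The two transfers. -/
def push : Hpar (Gamma0 (N * ℓ)) A →+ Hpar (Gamma0 N) A × Hpar (Gamma0 N) A :=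
  (tau (dvd_level N ℓ)).prod ((tau (dvd_level N ℓ)).comp B.op)

theorem push_apply (x : Hpar (Gamma0 (N * ℓ)) A) :
    push B x = (tau (dvd_level N ℓ) x, tau (dvd_level N ℓ) (B.op x)) := rfl

theorem red_push (x : Hpar (Gamma0 (N * ℓ)) ℤ) :
    (red N p).prodMap (red N p) (push B x) = push B (red (N * ℓ) p x) := by
  simp only [push_apply, AddMonoidHom.prodMap, AddMonoidHom.prod_apply, AddMonoidHom.coe_comp,
    AddMonoidHom.coe_fst, AddMonoidHom.coe_snd, Function.comp_apply]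
  exact Prod.ext (tau_mapHpar _ _ x).symm (tau_mapHpar _ _ (B.op x)).symm

theorem push_shiftOp {A : Type*} [CommRing A] {r : ℕ} [Fact r.Prime] (hr : ¬ r ∣ N * ℓ)
    (x : Hpar (Gamma0 (N * ℓ)) A) :
    push B (shiftOp r x) = (shiftOp (M := N) r).prodMap (shiftOp r) (push B x) := by
  simp only [push_apply, AddMonoidHom.prodMap, AddMonoidHom.prod_apply, AddMonoidHom.coe_comp,
    AddMonoidHom.coe_fst, AddMonoidHom.coe_snd, Function.comp_apply, shiftOp_apply, map_sub,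
    map_nsmul, ← hecke_tau hr, ← B.hecke_op hr]
  exact Prod.ext rfl rfl

end Maps

/-- Right multiples of the pairing on pairs. -/
def pairProd : Hpar (Gamma0 N) (ZMod p) × Hpar (Gamma0 N) (ZMod p) →+
    Hpar (Gamma0 N) (ZMod p) × Hpar (Gamma0 N) (ZMod p) →+ ZMod p :=
  AddMonoidHom.mk' (fun u => (pairHom u.1).comp (AddMonoidHom.fst _ _) +
      (pairHom u.2).comp (AddMonoidHom.snd _ _))
    fun u u' => AddMonoidHom.ext fun v => by
      simp [pair_add_left]; abel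

theorem pairProd_apply (u v : Hpar (Gamma0 N) (ZMod p) × Hpar (Gamma0 N) (ZMod p)) :
    pairProd u v = pair u.1 v.1 + pair u.2 v.2 := rfl

theorem pair_zero_left {M : ℕ} [NeZero M] {A : Type*} [CommRing A] (ψ : Hpar (Gamma0 M) A) :
    pair (0 : Hpar (Gamma0 M) A) ψ = 0 := by
  rw [← pairHom_apply, map_zero, AddMonoidHom.zero_apply]

theorem pair_zero_right {M : ℕ} [NeZero M] {A : Type*} [CommRing A] (ψ : Hpar (Gamma0 M) A) :
    pair ψ (0 : Hpar (Gamma0 M) A) = 0 := by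
  rw [← pairHom_apply, map_zero]

theorem pairProd_nondeg (u : Hpar (Gamma0 N) (ZMod p) × Hpar (Gamma0 N) (ZMod p))
    (h : ∀ v, pairProd u v = 0) : u = 0 := by
  refine Prod.ext (eq_zero_of_pair_eq_zero fun ψ => ?_) (eq_zero_of_pair_eq_zero fun ψ => ?_)
  · simpa [pairProd_apply, pair_zero_right] using h (ψ, 0)
  · simpa [pairProd_apply, pair_zero_right] using h (0, ψ)

variable {r₀ : ℕ} [Fact r₀.Prime] (hr₀ : ¬ r₀ ∣ N * ℓ) (hp2 : p ≠ 2)

include B hr₀ hp2 in
/-- Up to the kernel of the degeneracy maps the transfers are onto. -/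
theorem shiftOp_mem_range (w : Hpar (Gamma0 N) (ZMod p) × Hpar (Gamma0 N) (ZMod p)) :
    (shiftOp r₀).prodMap (shiftOp r₀) w ∈ (push B (A := ZMod p)).range := by
  haveI : Finite (Hpar (Gamma0 N) (ZMod p)) := finite_Hpar_zmod
  refine mem_range_of_orthogonal (fun v => Prod.ext (nsmul_zmod_Hpar v.1) (nsmul_zmod_Hpar v.2))
    pairProd pairProd_nondeg (push B) _ fun u hu => ?_
  have hker : res (dvd_level N ℓ) u.1 + B.op (res (dvd_level N ℓ) u.2) = 0 := by
    refine eq_zero_of_pair_eq_zero fun x => ?_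
    rw [pair_add_left, B.pair_op, pair_res_left, pair_res_left]
    exact hu x
  have h1 : ∀ φ : Hpar (Gamma0 N) (ZMod p),
      (∀ γ : Gamma0 N, (N : ℤ) ∣ mat γ 1 1 - 1 → φ.1 (Additive.ofMul γ) = 0) →
      shiftOp r₀ φ = 0 := fun φ hφ => by
    rw [shiftOp_apply, sub_eq_zero]
    exact Subtype.ext (hecke_of_kills_Gamma1 (not_dvd_left hr₀) hφ)
  have hsym : ∀ φ ψ : Hpar (Gamma0 N) (ZMod p),
      pair φ (shiftOp r₀ ψ) = pair (shiftOp r₀ φ) ψ := fun φ ψ => by
    simp only [shiftOp_apply, ← pairHom_apply, map_sub, map_nsmul, AddMonoidHom.sub_apply,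
      AddMonoidHom.nsmul_apply]
    simp only [pairHom_apply, pair_hecke (not_dvd_left hr₀)]
  rw [pairProd_apply]
  simp only [AddMonoidHom.prodMap, AddMonoidHom.prod_apply, AddMonoidHom.coe_comp,
    AddMonoidHom.coe_fst, AddMonoidHom.coe_snd, Function.comp_apply]
  rw [hsym, hsym, h1 _ fun γ hγ => (B.eq_zero_of_kernel hp2 hker hγ).1,
    h1 _ fun γ hγ => (B.eq_zero_of_kernel hp2 hker hγ).2, pair_zero_left, pair_zero_left,
    add_zero]

/-- An endomorphism compatible with a map is compatible after a polynomial. -/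
theorem map_aeval_comm {X Y : Type*} [AddCommGroup X] [AddCommGroup Y] (f : X →+ Y)
    (s : Module.End ℤ X) (t : Module.End ℤ Y) (h : ∀ x, f (s x) = t (f x)) (g : ℤ[X]) (x : X) :
    f (aeval s g x) = aeval t g (f x) := by
  induction g using Polynomial.induction_on generalizing x with
  | C a => simp [Module.algebraMap_end_apply]
  | add g g' hg hg' => simp [hg, hg']
  | monomial n a ih =>
    simp only [map_mul, map_pow, aeval_X, aeval_C, Module.End.mul_apply, pow_succ] at ih ⊢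
    rw [ih, h]

/-- A polynomial congruent to a power sends everything into a submodule. -/
theorem exists_poly_mem {V : Type*} [AddCommGroup V] [Module.Finite ℤ V] (s : Module.End ℤ V)
    (R : Submodule ℤ V) (hst : R ≤ R.comap s) (h : ∀ w, ∃ v, s w - (p : ℤ) • v ∈ R) :
    ∃ g : ℤ[X], g.map (Int.castRingHom (ZMod p)) = X ^ g.natDegree ∧ ∀ w, aeval s g w ∈ R := by
  set s' := R.mapQ R s hst
  have hI : LinearMap.range s' ≤ Ideal.span {(p : ℤ)} • ⊤ := by
    rintro _ ⟨c, rfl⟩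
    obtain ⟨w, rfl⟩ := Submodule.Quotient.mk_surjective _ c
    obtain ⟨v, hv⟩ := h w
    show s' (R.mkQ w) ∈ _
    rw [show s' (R.mkQ w) = R.mkQ (s w) from rfl,
      show R.mkQ (s w) = R.mkQ ((p : ℤ) • v) from (Submodule.Quotient.eq R).mpr hv, map_zsmul]
    exact Submodule.smul_mem_smul (Ideal.mem_span_singleton_self _) Submodule.mem_top
  obtain ⟨g, hmon, -, hcoef, hg⟩ :=
    LinearMap.exists_monic_and_natDegree_eq_and_coeff_mem_pow_and_aeval_eq_zero ℤ s' _ hI
  refine ⟨g, Polynomial.ext fun k => ?_, fun w => ?_⟩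
  · rw [coeff_map, coeff_X_pow]
    split_ifs with hk
    · rw [hk, hmon.coeff_natDegree, map_one]
    · rcases Nat.lt_or_gt_of_ne hk with hlt | hgt
      · have h1 := Ideal.pow_le_self (Nat.sub_ne_zero_of_lt hlt) (hcoef k)
        rw [eq_intCast, ZMod.intCast_zmod_eq_zero_iff_dvd]
        exact Ideal.mem_span_singleton.mp h1
      · rw [coeff_eq_zero_of_natDegree_lt hgt, map_zero]
  · have h := map_aeval_comm R.mkQ.toAddMonoidHom s s' (fun _ => rfl) g w
    rw [hg] at h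
    exact (Submodule.Quotient.mk_eq_zero R).mp h

theorem red_shiftOp {M r : ℕ} [Fact r.Prime] (x : Hpar (Gamma0 M) ℤ) :
    red M p (shiftOp r x) = shiftOp r (red M p x) := by
  rw [shiftOp_apply, shiftOp_apply, map_sub, map_nsmul]
  simp only [red, HeckeFamily.heckePar_mapHpar]

include B hr₀ hp2 in
/-- Up to multiples of `p`, the shifted operator maps into the image. -/
theorem exists_sub_mem_range (w : Hpar (Gamma0 N) ℤ × Hpar (Gamma0 N) ℤ) :
    ∃ v, (shiftOp r₀).prodMap (shiftOp r₀) w - p • v ∈ (push B (A := ℤ)).range := by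
  obtain ⟨x, hx⟩ := shiftOp_mem_range B hr₀ hp2 ((red N p).prodMap (red N p) w)
  obtain ⟨y, rfl⟩ := red_surjective (N * ℓ) p x
  rw [← red_push] at hx
  obtain ⟨w1, w2⟩ := w
  have h1 : red N p (shiftOp r₀ w1 - (push B y).1) = 0 := by
    rw [map_sub, red_shiftOp, sub_eq_zero]
    exact (congrArg Prod.fst hx).symm
  have h2 : red N p (shiftOp r₀ w2 - (push B y).2) = 0 := by
    rw [map_sub, red_shiftOp, sub_eq_zero]
    exact (congrArg Prod.snd hx).symm
  obtain ⟨v1, hv1⟩ := exists_eq_nsmul_of_red_eq_zero h1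
  obtain ⟨v2, hv2⟩ := exists_eq_nsmul_of_red_eq_zero h2
  refine ⟨(v1, v2), y, Prod.ext ?_ ?_⟩
  · show (push B y).1 = shiftOp r₀ w1 - p • v1
    rw [← hv1, sub_sub_cancel]
  · show (push B y).2 = shiftOp r₀ w2 - p • v2
    rw [← hv2, sub_sub_cancel]

include B hr₀ hp2 in
/-- An integral polynomial in `T_r₀ - (1 + r₀)` congruent to a power maps into the image. -/
theorem exists_poly_range :
    ∃ g : ℤ[X], (g.map (Int.castRingHom (ZMod p))) = X ^ g.natDegree ∧
      ∀ w : Hpar (Gamma0 N) ℤ × Hpar (Gamma0 N) ℤ,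
        aeval ((shiftOp r₀).prodMap (shiftOp r₀)).toIntLinearMap g w ∈
          (push B (A := ℤ)).range := by
  refine exists_poly_mem (p := p) _ (AddSubgroup.toIntSubmodule (push B (A := ℤ)).range) ?_
    fun w => ?_
  · rintro _ ⟨x, rfl⟩
    exact ⟨shiftOp r₀ x, push_shiftOp B hr₀ x⟩
  · obtain ⟨v, hv⟩ := exists_sub_mem_range (p := p) B hr₀ hp2 w
    refine ⟨v, ?_⟩
    rw [natCast_zsmul]
    exact hv

/-- The class modulo `p` killed by both transfers. -/
def oldClass (ε : ℤ) (φ : Hpar (Gamma0 N) (ZMod p)) : Hpar (Gamma0 (N * ℓ)) (ZMod p) :=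
  res (dvd_level N ℓ) φ - ε • B.op (res (dvd_level N ℓ) φ)

theorem push_oldClass {ε : ℤ} (hε : ε * ε = 1) {φ : Hpar (Gamma0 N) (ZMod p)}
    (hℓ : (heckeFam N ℓ).heckePar φ = (ε * (ℓ + 1)) • φ) : push B (oldClass B ε φ) = 0 := by
  have e : ∀ (m : ℤ), (ℓ + 1) • φ = m • φ ∨ m ≠ (ℓ : ℤ) + 1 := fun m =>
    (eq_or_ne m ((ℓ : ℤ) + 1)).imp (fun h => by rw [h, ← natCast_zsmul]; norm_num) id
  have h1 : (ℓ + 1) • φ = ((ℓ : ℤ) + 1) • φ := (e _).resolve_right fun h => h rfl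
  rw [push_apply, oldClass]
  refine Prod.ext ?_ ?_
  · show tau _ _ = 0
    rw [map_sub, map_zsmul, B.tau_res, B.tau_op_res, hℓ, h1, smul_smul, ← mul_assoc, hε, one_mul,
      sub_self]
  · show tau _ _ = 0
    rw [map_sub, map_zsmul, B.op_op, map_sub, map_zsmul, B.tau_res, B.tau_op_res, hℓ, h1, smul_smul,
      sub_self]

theorem hecke_oldClass {ε : ℤ} {φ : Hpar (Gamma0 N) (ZMod p)} {r : ℕ} [Fact r.Prime]
    (hr : ¬ r ∣ N * ℓ) {a : ℤ} (h : (heckeFam N r).heckePar φ = a • φ) :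
    (heckeFam (N * ℓ) r).heckePar (oldClass B ε φ) = a • oldClass B ε φ := by
  rw [oldClass, map_sub, map_zsmul, B.hecke_op hr, hecke_res hr, h, map_zsmul, map_zsmul, smul_sub,
    smul_comm ε a]

include B hr₀ hp2 in
theorem oldClass_ne_zero {φ : Hpar (Gamma0 N) (ZMod p)} (hne : φ ≠ 0) {ε : ℤ} {a : ℤ}
    (h : (heckeFam N r₀).heckePar φ = a • φ) (ha : (a : ZMod p) ≠ 1 + (r₀ : ZMod p)) :
    oldClass B ε φ ≠ 0 := fun h0 => by
  have h1 : res (dvd_level N ℓ) φ + B.op (res (dvd_level N ℓ) ((-ε) • φ)) = 0 := by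
    rw [map_zsmul, map_zsmul, neg_smul, ← sub_eq_add_neg]
    exact h0
  have h2 : (heckeFam N r₀).heckePar φ = (r₀ + 1) • φ :=
    Subtype.ext (hecke_of_kills_Gamma1 (not_dvd_left hr₀)
      fun γ hγ => (B.eq_zero_of_kernel hp2 h1 hγ).1)
  rw [h, ← natCast_zsmul, ← sub_eq_zero, ← sub_smul] at h2
  rcases zsmul_eq_zero_iff_zmod h2 with h3 | h3
  · exact ha (by push_cast at h3; linear_combination h3)
  · exact hne h3

theorem aeval_step {X V : Type*} [AddCommGroup X] [AddCommGroup V] (f : X →+ V)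
    (s : Module.End ℤ X) (t : Module.End ℤ V) (h : ∀ z, f (s z) = t (f z)) (g : ℤ[X]) {n : ℕ}
    {x y : X} {w : V} (hx : f x = n • w) (hy : f y = aeval t g w) :
    f (aeval s g x) = n • f y := by
  rw [map_aeval_comm f s t h, hx, map_nsmul, hy]

theorem aeval_eigen {X V : Type*} [AddCommGroup X] [AddCommGroup V] (f : X →+ V)
    (s : Module.End ℤ X) (t : Module.End ℤ V) (h : ∀ z, f (s z) = t (f z)) (g : ℤ[X]) {c : ℤ}
    {x : X} {w : V} (hx : f x = w) (hw : t w = c • w) : f (aeval s g x) = g.eval c • w := by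
  rw [map_aeval_comm f s t h, hx]
  induction g using Polynomial.induction_on with
  | C a => simp [Module.algebraMap_end_apply]
  | add g g' hg hg' => simp [hg, hg', add_smul]
  | monomial n a ih =>
    simp only [map_mul, map_pow, aeval_X, aeval_C, Module.End.mul_apply, pow_succ, eval_mul,
      eval_pow, eval_X, eval_C] at ih ⊢
    rw [hw, map_zsmul, map_zsmul, ih, smul_smul]
    congr 1
    ring

theorem eval_intCast_of_map_eq_pow {g : ℤ[X]}
    (hg : g.map (Int.castRingHom (ZMod p)) = X ^ g.natDegree) (c : ℤ) :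
    ((g.eval c : ℤ) : ZMod p) = (c : ZMod p) ^ g.natDegree := by
  have h2 := congrArg (fun q : (ZMod p)[X] => q.eval (c : ZMod p)) hg
  simpa [eval_map, eval₂_at_intCast] using h2

/-- The lifting argument. -/
theorem lift_aux {X V Xp Vp : Type*} [AddCommGroup X] [AddCommGroup V] [AddCommGroup Xp]
    [AddCommGroup Vp] (f : X →+ V) (fp : Xp →+ Vp) (rX : X →+ Xp) (rV : V →+ Vp) (n : ℕ)
    (hcomm : ∀ x, rV (f x) = fp (rX x)) (hsurj : Function.Surjective rX)
    (hker : ∀ v, rV v = 0 → ∃ w, v = n • w) (hn : ∀ x : Xp, n • x = 0) (s : Module.End ℤ X)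
    (t : Module.End ℤ V) (sp : Module.End ℤ Xp) (hst : ∀ x, f (s x) = t (f x))
    (hsp : ∀ x, rX (s x) = sp (rX x)) (g : ℤ[X]) (hrange : ∀ w, aeval t g w ∈ f.range) {x₀ : Xp}
    (hx : fp x₀ = 0) {c : ℤ} (hc : sp x₀ = c • x₀) :
    ∃ z, f z = 0 ∧ rX z = g.eval c • x₀ := by
  obtain ⟨x, hxred⟩ := hsurj x₀
  obtain ⟨w, hw⟩ := hker (f x) (by rw [hcomm, hxred, hx])
  obtain ⟨y, hy⟩ := hrange w
  refine ⟨aeval s g x - n • y, ?_, ?_⟩
  · rw [map_sub, map_nsmul, aeval_step f s t hst g hw hy, sub_self]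
  · rw [map_sub, map_nsmul, hn, sub_zero, aeval_eigen rX s sp hsp g hxred hc]

theorem exists_eq_nsmul_pair {v : Hpar (Gamma0 N) ℤ × Hpar (Gamma0 N) ℤ}
    (h : (red N p).prodMap (red N p) v = 0) : ∃ w, v = p • w := by
  obtain ⟨w1, hw1⟩ := exists_eq_nsmul_of_red_eq_zero (p := p) (congrArg Prod.fst h)
  obtain ⟨w2, hw2⟩ := exists_eq_nsmul_of_red_eq_zero (p := p) (congrArg Prod.snd h)
  exact ⟨(w1, w2), Prod.ext hw1 hw2⟩

include B hr₀ hp2 in
/-- Lifting an eigen class killed by both transfers. -/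
theorem exists_lift {x₀ : Hpar (Gamma0 (N * ℓ)) (ZMod p)} (hx : push B x₀ = 0) {c : ℤ}
    (hs : shiftOp r₀ x₀ = c • x₀) :
    ∃ (z : Hpar (Gamma0 (N * ℓ)) ℤ) (n : ℕ) (k : ℤ), push B z = 0 ∧ red (N * ℓ) p z = k • x₀ ∧
      (k : ZMod p) = (c : ZMod p) ^ n := by
  obtain ⟨g, hg, hrange⟩ := exists_poly_range (p := p) B hr₀ hp2
  obtain ⟨z, h1, h2⟩ := lift_aux (push B) (push B) (red (N * ℓ) p) ((red N p).prodMap (red N p)) p
    (red_push B) (red_surjective _ _) (fun v => exists_eq_nsmul_pair) nsmul_zmod_Hpar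
    (shiftOp (M := N * ℓ) r₀).toIntLinearMap
    ((shiftOp (M := N) r₀).prodMap (shiftOp r₀)).toIntLinearMap
    (shiftOp (M := N * ℓ) r₀).toIntLinearMap
    (fun x => push_shiftOp B hr₀ x) red_shiftOp g hrange hx hs
  exact ⟨z, g.natDegree, g.eval c, h1, h2, eval_intCast_of_map_eq_pow hg c⟩

include hp2 in
/-- An integral class killed by both transfers with the given eigensystem modulo `p`. -/
theorem exists_lattice_vector {φ₀ : Hpar (Gamma0 N) (ZMod p)} (hne : φ₀ ≠ 0) (P : Set ℕ)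
    (hP : ∀ r ∈ P, ¬ r ∣ N * ℓ) (a : ℕ → ℤ)
    (hφ : ∀ (r : ℕ) [Fact r.Prime], r ∈ P → (heckeFam N r).heckePar φ₀ = a r • φ₀)
    {ε : ℤ} (hε : ε * ε = 1) (hℓ : (heckeFam N ℓ).heckePar φ₀ = (ε * (ℓ + 1)) • φ₀)
    (hr₀P : r₀ ∈ P) (ha : (a r₀ : ZMod p) ≠ 1 + (r₀ : ZMod p)) :
    ∃ z : Hpar (Gamma0 (N * ℓ)) ℤ, push B z = 0 ∧ red (N * ℓ) p z ≠ 0 ∧
      ∀ (r : ℕ) [Fact r.Prime], r ∈ P →
        (heckeFam (N * ℓ) r).heckePar (red (N * ℓ) p z) = a r • red (N * ℓ) p z := by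
  have hr₀ := hP r₀ hr₀P
  have heig : ∀ (r : ℕ) [Fact r.Prime], r ∈ P →
      (heckeFam (N * ℓ) r).heckePar (oldClass B ε φ₀) = a r • oldClass B ε φ₀ :=
    fun r _ hr => hecke_oldClass B (hP r hr) (hφ r hr)
  have hs : shiftOp r₀ (oldClass B ε φ₀) = (a r₀ - (r₀ + 1)) • oldClass B ε φ₀ := by
    rw [shiftOp_apply, heig r₀ hr₀P, sub_smul, ← natCast_zsmul]
    norm_num
  obtain ⟨z, n, k, hz, hzr, hk⟩ := exists_lift B hr₀ hp2 (push_oldClass B hε hℓ) hs
  refine ⟨z, hz, fun h => ?_, fun r _ hr => ?_⟩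
  · rw [hzr] at h
    rcases zsmul_eq_zero_iff_zmod h with h1 | h1
    · rw [hk] at h1
      exact pow_ne_zero _ (fun h2 => ha (by push_cast at h2; linear_combination h2)) h1
    · exact oldClass_ne_zero B hr₀ hp2 hne (hφ r₀ hr₀P) ha h1
  · rw [hzr, map_zsmul, heig r hr, smul_comm]

end FLTAgent.LevelRaise
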