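import Fermat.Agent.LevelRaise.Invariant

/-!
Ihara's lemma for parabolic homomorphisms: a compatible pair kills `Γ₁(N)`.
-/

set_option autoImplicit false

noncomputable section

open scoped MatrixGroups
open CongruenceSubgroup FLTAgent.PeriodHecke

namespace FLTAgent.LevelRaise

local notation "SL2Z" => Matrix.SpecialLinearGroup (Fin 2) ℤ

theorem exists_sl2 (a b c d : ℤ) (h : a * d - b * c = 1) :
    ∃ g : SL2Z, g 0 0 = a ∧ g 0 1 = b ∧ g 1 0 = c ∧ g 1 1 = d :=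
  ⟨⟨!![a, b; c, d], by rw [Matrix.det_fin_two_of]; exact h⟩, rfl, rfl, rfl, rfl⟩

theorem ιQ_eq {g h : SL2Z} (h00 : g 0 0 = h 0 0) (h01 : g 0 1 = h 0 1) (h10 : g 1 0 = h 1 0)
    (h11 : g 1 1 = h 1 1) : g = h :=
  Subtype.ext (by ext i j; fin_cases i <;> fin_cases j <;> assumption)

namespace CompatPair

variable {N q p : ℕ} [Fact q.Prime] [NeZero N] (P : CompatPair N q p) (hqN : ¬ q ∣ N)

theorem Phi_Uz_mul {γ : SL2Z} (hγ : (N : ℤ) ∣ γ 1 0) (x : ℤ) :
    P.Phi hqN (ιQ (γ * Uz x)) = P.Phi hqN (ιQ γ) := by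
  rw [map_mul, ιQ_Uz, P.Phi_mul hqN (P.ιQ_mem hqN hγ) (P.Ur_mem_and hqN (InR.int x)).1,
    (P.Ur_mem_and hqN (InR.int x)).2, add_zero]

theorem Phi_Lz_mul {γ : SL2Z} (hγ : (N : ℤ) ∣ γ 1 0) {x : ℤ} (hx : (N : ℤ) ∣ x) :
    P.Phi hqN (ιQ (γ * Lz x)) = P.Phi hqN (ιQ γ) := by
  obtain ⟨y, rfl⟩ := hx
  have h := P.Lr_mem_and hqN (InR.int (q := q) y)
  rw [map_mul, ιQ_Lz, show ((N * y : ℤ) : ℚ) = (N : ℚ) * (y : ℚ) by push_cast; ring,
    P.Phi_mul hqN (P.ιQ_mem hqN hγ) h.1, h.2, add_zero]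

variable [Fact p.Prime] (hp2 : p ≠ 2)

include hp2 in
/-- The symbol of a square residue vanishes. -/
theorem Phi_of_square {R : ℕ} [Fact R.Prime] (hRp : R ≠ p) {γ : SL2Z} {c : ℤ}
    (h11 : γ 1 1 = (R : ℤ)) (hd : (N : ℤ) ∣ γ 1 1 - 1) (h10 : γ 1 0 = N * c)
    (hc : (c : ZMod R) ≠ 0) (hsq : IsSquare (c : ZMod R)) : P.Phi hqN (ιQ γ) = 0 := by
  have hR : R.Prime := Fact.out
  have hp : p.Prime := Fact.out
  have hN0 : (N : ℤ) ≠ 0 := Nat.cast_ne_zero.mpr (NeZero.ne N)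
  obtain ⟨u, hu⟩ := hsq
  -- a prime congruent to the root and to two
  have hcop : Nat.Coprime R p := (Nat.coprime_primes hR hp).mpr hRp
  set x : ℕ := (Nat.chineseRemainder hcop u.val 2).1
  obtain ⟨hx1, hx2⟩ := (Nat.chineseRemainder hcop u.val 2).2
  have hxR : (x : ZMod R) = u := by
    rw [← ZMod.natCast_zmod_val u]
    exact (ZMod.natCast_eq_natCast_iff _ _ _).mpr hx1
  have hxp : (x : ZMod p) = 2 := by
    have := (ZMod.natCast_eq_natCast_iff _ _ _).mpr hx2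
    simpa using this
  have h20 : (2 : ZMod p) ≠ 0 := by
    intro h
    have : ((2 : ℕ) : ZMod p) = 0 := by simpa using h
    rw [ZMod.natCast_eq_zero_iff] at this
    exact hp2 ((Nat.prime_dvd_prime_iff_eq hp Nat.prime_two).mp this)
  have hu0 : u ≠ 0 := fun h => hc (by rw [hu, h, mul_zero])
  have hunit : IsUnit ((x : ℕ) : ZMod (R * p)) := by
    rw [ZMod.isUnit_iff_coprime]
    refine Nat.Coprime.mul_right (Nat.Coprime.symm ?_) (Nat.Coprime.symm ?_)
    · refine hR.coprime_iff_not_dvd.mpr fun h => hu0 ?_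
      rw [← hxR]; exact (ZMod.natCast_eq_zero_iff _ _).mpr h
    · refine hp.coprime_iff_not_dvd.mpr fun h => h20 ?_
      rw [← hxp]; exact (ZMod.natCast_eq_zero_iff _ _).mpr h
  haveI : NeZero (R * p) := ⟨Nat.mul_ne_zero hR.ne_zero hp.ne_zero⟩
  obtain ⟨t, ht, htp, hteq⟩ := Nat.forall_exists_prime_gt_and_eq_mod hunit N
  have htmod := (ZMod.natCast_eq_natCast_iff _ _ _).mp hteq
  have htR : (t : ZMod R) = u := by
    rw [← hxR]
    exact (ZMod.natCast_eq_natCast_iff _ _ _).mpr (htmod.of_dvd (dvd_mul_right _ _))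
  have htP : (t : ZMod p) = 2 := by
    rw [← hxp]
    exact (ZMod.natCast_eq_natCast_iff _ _ _).mpr (htmod.of_dvd (dvd_mul_left _ _))
  have htN : ¬ t ∣ N := fun h => by
    have := Nat.le_of_dvd (Nat.pos_of_ne_zero (NeZero.ne N)) h; omega
  obtain ⟨k, hk⟩ : (R : ℤ) ∣ c - (t : ℤ) ^ 2 := by
    rw [← ZMod.intCast_zmod_eq_zero_iff_dvd]
    push_cast
    rw [htR, hu]; ring
  set γ₁ := γ * Lz (-(N * k))
  have hγN : (N : ℤ) ∣ γ 1 0 := ⟨c, h10⟩
  have e1 : P.Phi hqN (ιQ γ₁) = P.Phi hqN (ιQ γ) :=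
    P.Phi_Lz_mul hqN hγN (dvd_mul_right _ _).neg_right
  have g10 : γ₁ 1 0 = (t : ℤ) ^ 2 * N := by
    rw [sl2_mul]; simp [h10, h11]; linear_combination (N : ℤ) * hk
  have g11 : γ₁ 1 1 = (R : ℤ) := by rw [sl2_mul]; simp [h11]
  have hdet := sl2_det γ₁
  rw [g10, g11] at hdet
  obtain ⟨γ₂, k00, k01, k10, k11⟩ := exists_sl2 (γ₁ 0 0) (γ₁ 0 1 * (t : ℤ) ^ 2) N R
    (by linear_combination hdet)
  have e2 : P.Phi hqN (ιQ γ₁) = P.Phi hqN (ιQ γ₂) :=
    P.symbol_div_sq hqN htp htN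
      (fun h => h20 (by rw [← htP]; exact (ZMod.natCast_eq_zero_iff _ _).mpr h))
      (fun h => by
        have h1 : ((t - 1 : ℕ) : ZMod p) = 0 := (ZMod.natCast_eq_zero_iff _ _).mpr h
        rw [Nat.cast_sub htp.one_lt.le, htP, Nat.cast_one] at h1
        exact one_ne_zero (by linear_combination h1 : (1 : ZMod p) = 0))
      (by rw [g11, ← h11]; exact hd) (by rw [k10]) k00 k01 (by rw [g10, k10]) (by rw [k11, g11])
  obtain ⟨j, hj⟩ : (N : ℤ) ∣ 1 - γ₂ 1 1 := by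
    rw [k11, ← h11]
    have := hd.neg_right
    rwa [neg_sub] at this
  set γ₃ := γ₂ * Uz j
  have hN2 : (N : ℤ) ∣ γ₂ 1 0 := by rw [k10]
  have e3 : P.Phi hqN (ιQ γ₃) = P.Phi hqN (ιQ γ₂) := P.Phi_Uz_mul hqN hN2 j
  have l10 : γ₃ 1 0 = N := by rw [sl2_mul]; simp [k10]
  have l11 : γ₃ 1 1 = 1 := by rw [sl2_mul]; simp [k10]; linear_combination -hj
  have hdet3 := sl2_det γ₃
  rw [l10, l11] at hdet3
  have e4 : Uz (γ₃ 0 1) * Lz N = γ₃ := by
    refine ιQ_eq ?_ ?_ ?_ ?_ <;> rw [sl2_mul] <;> simp [l10, l11]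
    linear_combination -hdet3
  have hU0 := P.Phi_Lz_mul hqN (γ := Uz (γ₃ 0 1)) (by simp) (dvd_refl (N : ℤ))
  rw [e4, ιQ_Uz, (P.Ur_mem_and hqN (InR.int _)).2] at hU0
  rw [← e1, e2, ← e3, hU0]

omit [Fact p.Prime] in
theorem exists_q_move {γ : SL2Z} {u : ℤ} (h10 : γ 1 0 = N * ((q : ℤ) * u)) {d' : ℤ} {j : ℤ}
    (hd' : d' = γ 1 1 + j * (N * u)) (hq : ¬ (q : ℤ) ∣ d') :
    ∃ γ' : SL2Z, γ' 1 0 = γ 1 0 ∧ γ' 1 1 = d' ∧ P.Phi hqN (ιQ γ') = P.Phi hqN (ιQ γ) := by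
  obtain ⟨w, z, hwz⟩ := ((Nat.prime_iff_prime_int.mp (Fact.out : q.Prime)).coprime_iff_not_dvd).mpr hq
  -- `w * q + z * d' = 1`
  set i : ℤ := -(γ 0 0 * j * z)
  set b' : ℤ := γ 0 1 + γ 0 0 * j * w
  have hdet := sl2_det γ
  rw [h10] at hdet
  obtain ⟨γ', g00, g01, g10, g11⟩ := exists_sl2 (γ 0 0 + i * (N * u)) b' (γ 1 0) d' (by
    rw [h10]; simp only [i, b', hd']
    rw [hd'] at hwz
    linear_combination hdet - γ 0 0 * j * N * u * hwz)
  have hγ : (N : ℤ) ∣ γ 1 0 := ⟨_, h10⟩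
  have hy : ∀ r : ℤ, InR q ((r : ℚ) / q) := fun r =>
    (InR.int r).mul (InR.qinv (Fact.out : q.Prime).ne_zero)
  have e : ιQ γ' = Ur ((i : ℚ) / q) * ιQ γ * Ur ((j : ℚ) / q) := by
    have hq0 : (q : ℚ) ≠ 0 := qQ_ne
    have h10' := congrArg (fun z : ℤ => (z : ℚ)) h10
    have hd'' := congrArg (fun z : ℤ => (z : ℚ)) hd'
    have hwz' := congrArg (fun z : ℤ => (z : ℚ)) hwz
    push_cast at h10' hd'' hwz'
    refine slq_ext ?_ ?_ ?_ ?_ <;> simp only [slq_mul, ιQ_apply, g00, g01, g10, g11] <;>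
      simp [i, b', h10'] <;> field_simp
    · rw [hd''] at hwz'
      linear_combination (γ 0 0 : ℚ) * (j : ℚ) * hwz'
    · linear_combination hd''
  refine ⟨γ', g10, g11, ?_⟩
  obtain ⟨m1, f1⟩ := P.Ur_mem_and hqN (hy i)
  obtain ⟨m2, f2⟩ := P.Ur_mem_and hqN (hy j)
  rw [e, P.Phi_mul hqN (mul_mem m1 (P.ιQ_mem hqN hγ)) m2, P.Phi_mul hqN m1 (P.ιQ_mem hqN hγ), f1, f2,
    zero_add, add_zero]

include hp2 in
/-- The symbol vanishes for a prime lower right entry. -/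
theorem Phi_of_prime {R : ℕ} [Fact R.Prime] (hbig : max (max N q) (max p 2) < R) {γ : SL2Z}
    {c : ℤ} (h11 : γ 1 1 = (R : ℤ)) (hd : (N : ℤ) ∣ γ 1 1 - 1) (h10 : γ 1 0 = N * c)
    (hc : (c : ZMod R) ≠ 0) : P.Phi hqN (ιQ γ) = 0 := by
  classical
  have hR : R.Prime := Fact.out
  have hq : q.Prime := Fact.out
  by_cases hsq : IsSquare (c : ZMod R)
  · exact P.Phi_of_square hqN hp2 (by omega) h11 hd h10 hc hsq
  have hqR : ¬ R ∣ q := fun h => by have := Nat.le_of_dvd hq.pos h; omega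
  have hqR0 : ((q : ℕ) : ZMod R) ≠ 0 := fun h => hqR ((ZMod.natCast_eq_zero_iff _ _).mp h)
  -- an auxiliary prime
  obtain ⟨u, hu, hup, hueq⟩ := Nat.forall_exists_prime_gt_and_eq_mod
    (isUnit_iff_ne_zero.mpr (mul_ne_zero hc (inv_ne_zero hqR0))) (max (max N q) R)
  obtain ⟨k, hk⟩ : (R : ℤ) ∣ c - (q : ℤ) * u := by
    rw [← ZMod.intCast_zmod_eq_zero_iff_dvd]
    push_cast
    rw [hueq]; field_simp; ring
  set γ₁ := γ * Lz (-(N * k))
  have e1 : P.Phi hqN (ιQ γ₁) = P.Phi hqN (ιQ γ) :=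
    P.Phi_Lz_mul hqN ⟨c, h10⟩ (dvd_mul_right _ _).neg_right
  have g10 : γ₁ 1 0 = N * ((q : ℤ) * u) := by
    rw [sl2_mul]; simp [h10, h11]; linear_combination (N : ℤ) * hk
  have g11 : γ₁ 1 1 = (R : ℤ) := by rw [sl2_mul]; simp [h11]
  have hRodd : R % 2 = 1 := hR.eq_two_or_odd.resolve_left (by omega)
  have hqu : ¬ q ∣ u := fun h => by
    have := (Nat.prime_dvd_prime_iff_eq hq hup).mp h; omega
  have huR : ¬ u ∣ R := fun h => by
    have := (Nat.prime_dvd_prime_iff_eq hup hR).mp h; omega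
  have hJ : jacobiSym ((q : ℤ) * u) R = -1 := by
    rw [← jacobiSym.legendreSym.to_jacobiSym, legendreSym.eq_neg_one_iff]
    push_cast
    rw [hueq]
    convert hsq using 2
    field_simp
  -- the class of the new prime
  obtain ⟨M, x, hM, hxco, hMN, hM4, hxR, hflip⟩ : ∃ (M : ℕ) (x : ℤ), M ≠ 0 ∧
      IsCoprime x (M : ℤ) ∧ N * u ∣ M ∧ 4 * u ∣ M ∧ ((N * u : ℕ) : ℤ) ∣ x - R ∧
      ∀ R' : ℕ, R'.Prime → (M : ℤ) ∣ (R' : ℤ) - x →
        R' % (4 * u) = R % (4 * u) ∧ jacobiSym q R' = -jacobiSym q R := by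
    have hcopR : ∀ n : ℕ, n ≠ 0 → n < R → IsCoprime (R : ℤ) (n : ℤ) := fun n h0 hlt =>
      Int.isCoprime_iff_gcd_eq_one.mpr (hR.coprime_iff_not_dvd.mpr fun h => by
        have := Nat.le_of_dvd (Nat.pos_of_ne_zero h0) h; omega)
    have hRu : IsCoprime (R : ℤ) (u : ℤ) :=
      Int.isCoprime_iff_gcd_eq_one.mpr ((Nat.coprime_primes hR hup).mpr fun h => huR (h ▸ dvd_rfl))
    have h4u : ∀ R' : ℕ, ((4 * u : ℕ) : ℤ) ∣ (R' : ℤ) - R → R' % (4 * u) = R % (4 * u) := fun R' h =>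
      ((ZMod.natCast_eq_natCast_iff' R' R (4 * u)).mp (by
        rw [← sub_eq_zero]
        have := (ZMod.intCast_zmod_eq_zero_iff_dvd _ _).mpr h
        push_cast at this ⊢
        exact this))
    rcases eq_or_ne q 2 with rfl | hq2
    · -- modulus `8 N u`
      obtain ⟨n', hn'⟩ : ∃ n' : ℤ, (N : ℤ) = 2 * n' + 1 := by
        refine ⟨(N : ℤ) / 2, ?_⟩
        omega
      obtain ⟨u', hu'⟩ : ∃ u' : ℤ, (u : ℤ) = 2 * u' + 1 := by
        refine ⟨(u : ℤ) / 2, ?_⟩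
        omega
      refine ⟨8 * (N * u), (R : ℤ) + 4 * (N * u : ℕ), by
        have := hup.ne_zero; have := NeZero.ne N; positivity, ?_, dvd_mul_left _ _,
        ⟨2 * N, by ring⟩, ⟨4, by ring⟩, fun R' hR' hdvd => ?_⟩
      · push_cast
        have hNu : IsCoprime (R : ℤ) ((N : ℤ) * u) :=
          IsCoprime.mul_right (hcopR N (NeZero.ne N) (by omega)) hRu
        refine IsCoprime.mul_right ?_ ?_
        · rw [show (8 : ℤ) = 2 ^ 3 by norm_num]
          exact IsCoprime.pow_right ((Int.prime_two.coprime_iff_not_dvd).mpr (by omega)).symm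
        · simpa using hNu.add_mul_left_left 4
      · push_cast at hdvd
        obtain ⟨l, hl⟩ := hdvd
        refine ⟨h4u R' ⟨N * (2 * l + 1), by push_cast; linear_combination hl⟩, ?_⟩
        have h8 : (R' : ℤ) = (R : ℤ) + 4 + 8 * (N * u * l + (n' + u' + 2 * n' * u')) := by
          rw [hn', hu'] at hl ⊢; linear_combination hl
        have ho : R' % 2 = 1 := by omega
        simp only [Nat.cast_ofNat]
        rw [jacobiSym.at_two (Nat.odd_iff.mpr ho), jacobiSym.at_two (Nat.odd_iff.mpr hRodd)]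
        have hcases : R % 8 = 1 ∨ R % 8 = 3 ∨ R % 8 = 5 ∨ R % 8 = 7 := by omega
        rw [ZMod.χ₈_nat_eq_if_mod_eight, ZMod.χ₈_nat_eq_if_mod_eight]
        rcases hcases with h | h | h | h
        · have : R' % 8 = 5 := by omega
          simp [h, this, ho, hRodd]
        · have : R' % 8 = 7 := by omega
          simp [h, this, ho, hRodd]
        · have : R' % 8 = 1 := by omega
          simp [h, this, ho, hRodd]
        · have : R' % 8 = 3 := by omega
          simp [h, this, ho, hRodd]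
    · -- a non residue modulo `q`
      obtain ⟨n0, hn0⟩ := FiniteField.exists_nonsquare (F := ZMod q) (by rwa [ZMod.ringChar_zmod_n])
      set B : ℕ := 4 * (N * u)
      have hqB : ¬ q ∣ B := fun h => by
        rcases hq.dvd_mul.mp h with h | h
        · have : q ∣ 2 ^ 2 := by simpa using h
          exact hq2 ((Nat.prime_dvd_prime_iff_eq hq Nat.prime_two).mp (hq.dvd_of_dvd_pow this))
        · exact (hq.dvd_mul.mp h).elim hqN hqu
      obtain ⟨v, w, hvw⟩ : IsCoprime (q : ℤ) (B : ℤ) :=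
        Int.isCoprime_iff_gcd_eq_one.mpr (hq.coprime_iff_not_dvd.mpr hqB)
      set x : ℤ := (R : ℤ) * (v * q) + (R : ℤ) * (n0.val : ℤ) * (w * B)
      have hn00 : n0 ≠ 0 := fun h => hn0 (h ▸ ⟨0, by simp⟩)
      have hxq : (q : ℤ) ∣ x - (R : ℤ) * n0.val :=
        ⟨(R : ℤ) * v * (1 - n0.val), by simp only [x]; linear_combination (R : ℤ) * n0.val * hvw⟩
      have hxB : (B : ℤ) ∣ x - R :=
        ⟨(R : ℤ) * w * (n0.val - 1), by simp only [x]; linear_combination (R : ℤ) * hvw⟩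
      refine ⟨q * B, x, Nat.mul_ne_zero hq.ne_zero (by
        have := hup.ne_zero; have := NeZero.ne N; positivity), ?_,
        dvd_mul_of_dvd_right (dvd_mul_left _ _) _, dvd_mul_of_dvd_right ⟨N, by ring⟩ _,
        (Int.natCast_dvd_natCast.mpr (dvd_mul_left _ _)).trans hxB, fun R' hR' hdvd => ?_⟩
      · push_cast
        refine IsCoprime.mul_right ?_ ?_
        · refine ((Nat.prime_iff_prime_int.mp hq).coprime_iff_not_dvd.mpr fun h => ?_).symm
          have h2 := dvd_sub h hxq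
          rw [sub_sub_cancel] at h2
          rcases (Nat.prime_iff_prime_int.mp hq).dvd_or_dvd h2 with h3 | h3
          · have := (Nat.prime_dvd_prime_iff_eq hq hR).mp (Int.natCast_dvd_natCast.mp h3); omega
          · exact hn00 (by
              rw [← ZMod.natCast_zmod_val n0, ZMod.natCast_eq_zero_iff]
              exact Int.natCast_dvd_natCast.mp h3)
        · obtain ⟨l, hl⟩ := hxB
          rw [show x = (R : ℤ) + B * l by linear_combination hl]
          refine IsCoprime.add_mul_left_left ?_ l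
          rw [show (B : ℤ) = 2 ^ 2 * ((N : ℤ) * u) by simp only [B]; push_cast; ring]
          refine IsCoprime.mul_right ?_ (IsCoprime.mul_right (hcopR N (NeZero.ne N) (by omega)) hRu)
          exact IsCoprime.pow_right (hcopR 2 two_ne_zero (by omega))
      · push_cast at hdvd
        have hB' : (B : ℤ) ∣ (R' : ℤ) - R := by
          simpa using dvd_add (dvd_of_mul_left_dvd hdvd) hxB
        have h1 := h4u R' ((Int.natCast_dvd_natCast.mpr ⟨N, by ring⟩).trans hB')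
        refine ⟨h1, ?_⟩
        have h4 : R' % 4 = R % 4 := by
          have := congrArg (· % 4) h1
          simpa [Nat.mod_mul_right_mod] using this
        have hqodd : Odd q := hq.odd_of_ne_two hq2
        rw [jacobiSym.quadratic_reciprocity' hqodd (Nat.odd_iff.mpr (by omega)),
          jacobiSym.quadratic_reciprocity' hqodd (Nat.odd_iff.mpr hRodd)]
        simp only [qrSign]
        rw [ZMod.χ₄_nat_mod_four R', h4, ← ZMod.χ₄_nat_mod_four R]
        have hRx : ((R' : ℤ) : ZMod q) = ((R : ℤ) * n0.val : ℤ) := by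
          rw [← sub_eq_zero, ← Int.cast_sub, ZMod.intCast_zmod_eq_zero_iff_dvd]
          simpa using dvd_add (dvd_of_mul_right_dvd hdvd) hxq
        have hleg : jacobiSym (R' : ℤ) q = -jacobiSym (R : ℤ) q := by
          rw [← jacobiSym.legendreSym.to_jacobiSym, ← jacobiSym.legendreSym.to_jacobiSym,
            show legendreSym q (R' : ℤ) = legendreSym q ((R : ℤ) * (n0.val : ℤ)) by
              simp only [legendreSym, hRx], legendreSym.mul,
            (legendreSym.eq_neg_one_iff q (a := (n0.val : ℤ))).mpr (by simpa using hn0)]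
          ring
        rw [hleg, mul_neg]
  obtain ⟨R', hR'big, hR'p, hR'x⟩ := exists_prime_class hM hxco (max (max (max N q) R) (max u p))
  haveI : Fact R'.Prime := ⟨hR'p⟩
  obtain ⟨hmod, hq'⟩ := hflip R' hR'p hR'x
  obtain ⟨j, hj⟩ : ((N * u : ℕ) : ℤ) ∣ (R' : ℤ) - R := by
    simpa using dvd_add ((Int.natCast_dvd_natCast.mpr hMN).trans hR'x) hxR
  push_cast at hj
  have hqR' : ¬ (q : ℤ) ∣ (R' : ℤ) := fun h => by
    have := (Nat.prime_dvd_prime_iff_eq hq hR'p).mp (Int.natCast_dvd_natCast.mp h); omega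
  obtain ⟨γ', k10, k11, e2⟩ := P.exists_q_move hqN g10 (d' := (R' : ℤ)) (j := j)
    (by rw [g11]; linear_combination hj) hqR'
  have hd' : (N : ℤ) ∣ γ' 1 1 - 1 := by
    rw [k11, show (R' : ℤ) - 1 = (γ 1 1 - 1) + ((R' : ℤ) - R) by rw [h11]; ring, hj]
    exact dvd_add hd (Dvd.dvd.mul_right (dvd_mul_right _ _) _)
  have hJ' : jacobiSym ((q : ℤ) * u) R' = 1 := by
    rw [jacobiSym.mul_left, hq']
    rw [jacobiSym.mul_left] at hJ
    have hu' : jacobiSym (u : ℤ) R' = jacobiSym (u : ℤ) R := by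
      rw [jacobiSym.mod_right _ (Nat.odd_iff.mpr (hR'p.eq_two_or_odd.resolve_left (by omega))),
        jacobiSym.mod_right _ (Nat.odd_iff.mpr hRodd)]
      simp [hmod]
    rw [hu']
    linarith [hJ]
  rw [← e1, ← e2]
  have hqu0 : ((((q : ℤ) * u : ℤ)) : ZMod R') ≠ 0 := by
    push_cast
    refine mul_ne_zero ?_ ?_ <;> rw [Ne, ZMod.natCast_eq_zero_iff] <;> intro h
    · have := Nat.le_of_dvd hq.pos h; omega
    · have := Nat.le_of_dvd hup.pos h; omega
  refine P.Phi_of_square hqN hp2 (by omega) k11 hd' (k10.trans g10) hqu0 ?_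
  rw [← jacobiSym.legendreSym.to_jacobiSym] at hJ'
  exact (legendreSym.eq_one_iff R' hqu0).mp hJ'

include hqN hp2 in
/-- Ihara's lemma: a compatible pair kills `Γ₁(N)`. -/
theorem phi_eq_zero {γ : Gamma0 N} (hd : (N : ℤ) ∣ mat γ 1 1 - 1) :
    P.φ.1 (Additive.ofMul γ) = 0 := by
  obtain ⟨c, hc⟩ := dvd_lower_left N γ
  by_cases hc0 : mat γ 1 0 = 0
  · exact P.φ.2 γ (parabolic_upper hc0)
  have hdet := sl2_det (γ : SL2Z)
  have hco : IsCoprime (mat γ 1 1) (mat γ 1 0) :=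
    ⟨mat γ 0 0, -mat γ 0 1, by simp only [mat]; linear_combination hdet⟩
  set B := (mat γ 1 0).natAbs
  obtain ⟨R, hRbig, hRp, hRx⟩ := exists_prime_class (B := B) (Int.natAbs_ne_zero.mpr hc0)
    (x := mat γ 1 1) (by
      rw [Int.natCast_natAbs]
      rcases abs_choice (mat γ 1 0) with h | h <;> rw [h]
      · exact hco
      · exact hco.neg_right) (max (max (max N q) (max p 2)) B)
  haveI : Fact R.Prime := ⟨hRp⟩
  obtain ⟨j, hj⟩ := Int.dvd_natAbs_self.trans hRx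
  have hN0 : (N : ℤ) ∣ (γ : SL2Z) 1 0 := dvd_lower_left N γ
  rw [← P.Phi_gamma0 hqN γ, ← P.Phi_Uz_mul hqN hN0 j]
  refine P.Phi_of_prime hqN hp2 (R := R) (by omega) (c := c) ?_ ?_ ?_ ?_
  · rw [sl2_mul]; simp [mat] at hj ⊢; linear_combination -hj
  · rw [sl2_mul]; simp
    rw [show (γ : SL2Z) 1 0 * j + (γ : SL2Z) 1 1 - 1 = (γ : SL2Z) 1 0 * j + ((γ : SL2Z) 1 1 - 1) by ring]
    exact dvd_add (hN0.mul_right _) hd
  · rw [sl2_mul]; simp [mat] at hc ⊢; exact hc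
  · intro h
    rw [ZMod.intCast_zmod_eq_zero_iff_dvd] at h
    have h2 : (R : ℤ) ∣ mat γ 1 0 := hc ▸ h.mul_left _
    have := Nat.le_of_dvd (Int.natAbs_pos.mpr hc0) (Int.natCast_dvd.mp h2)
    omega

end CompatPair

end FLTAgent.LevelRaise
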