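import Fermat.Agent.LevelRaise.AtkinLehner
import Fermat.Agent.LevelRaise.Ihara
import Fermat.Agent.PeriodHecke.Equivariance

/-!
The Hecke operators through the two degeneracy maps between `Γ₀(N)` and `Γ₀(N ℓ)`.
-/

set_option autoImplicit false

noncomputable section

open scoped MatrixGroups
open CongruenceSubgroup FLTAgent.PeriodHecke

namespace FLTAgent.LevelRaise

local notation "SL2Z" => Matrix.SpecialLinearGroup (Fin 2) ℤ
local notation "M2" => Matrix (Fin 2) (Fin 2) ℤ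

theorem dvd_level (N ℓ : ℕ) : N ∣ N * ℓ := dvd_mul_right N ℓ

open scoped Classical in
/-- The fibre over the base coset. -/
def fib (N ℓ : ℕ) [NeZero (N * ℓ)] : Finset (Cos (N * ℓ)) :=
  Finset.univ.filter fun x => projCos (dvd_level N ℓ) x = ((1 : SL2Z) : Cos N)

variable {N ℓ : ℕ} [Fact ℓ.Prime] [NeZero N] [NeZero (N * ℓ)]

omit [Fact ℓ.Prime] [NeZero N] in
theorem mem_fib {x : Cos (N * ℓ)} : x ∈ fib N ℓ ↔ (x.out : SL2Z) ∈ Gamma0 N := by
  classical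
  rw [fib, Finset.mem_filter, projCos, QuotientGroup.eq, mul_one, inv_mem_iff]
  simp

omit [Fact ℓ.Prime] [NeZero N] in
theorem smul_mem_fib (γ : Gamma0 N) (x : Cos (N * ℓ)) :
    (γ : SL2Z) • x ∈ fib N ℓ ↔ x ∈ fib N ℓ := by
  classical
  simp only [fib, Finset.mem_filter, Finset.mem_univ, true_and, projCos_smul]
  rw [smul_eq_iff_eq_inv_smul, show ((γ : SL2Z)⁻¹) = ((γ⁻¹ : Gamma0 N) : SL2Z) from rfl, smul_base]

omit [Fact ℓ.Prime] [NeZero N] in
theorem mk_mem_fib (k : Gamma0 N) : (((k : SL2Z)) : Cos (N * ℓ)) ∈ fib N ℓ := by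
  classical
  simp only [fib, Finset.mem_filter, Finset.mem_univ, true_and, projCos_mk]
  rw [QuotientGroup.eq, mul_one]
  exact inv_mem k.2

omit [Fact ℓ.Prime] [NeZero N] in
theorem tau_apply_fib {A : Type*} [AddCommGroup A] (x : Hpar (Gamma0 (N * ℓ)) A) (γ : Gamma0 N) :
    (tau (dvd_level N ℓ) x).1 (Additive.ofMul γ) = ∑ z ∈ fib N ℓ, cosetCoc x.1 (γ : SL2Z) z := rfl

namespace Bez

variable (B : Bez N ℓ)

omit [NeZero (N * ℓ)] in
theorem rel_mem {k : SL2Z} (hk : k ∈ Gamma0 N) {η : M2}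
    (h : B.W * ((k : SL2Z) : M2) = η * B.W) : k ∈ Gamma0 (N * ℓ) := by
  obtain ⟨C, hC⟩ := dvd_lower_left N (⟨k, hk⟩ : Gamma0 N)
  have h00 := congrFun (congrFun h 0) 0
  simp [W, Matrix.mul_apply, Fin.sum_univ_two] at h00
  have hℓ : Prime (ℓ : ℤ) := Nat.prime_iff_prime_int.mp (Fact.out : ℓ.Prime)
  have hb : (ℓ : ℤ) ∣ B.b * (k : M2) 1 0 :=
    ⟨η 0 0 * B.a + η 0 1 * N - B.a * (k : M2) 0 0, by linear_combination h00⟩
  have hc : (ℓ : ℤ) ∣ (k : M2) 1 0 := (hℓ.dvd_or_dvd hb).resolve_left B.not_dvd_b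
  rw [Gamma0_mem, ZMod.intCast_zmod_eq_zero_iff_dvd]
  push_cast
  exact IsCoprime.mul_dvd (Int.isCoprime_iff_nat_coprime.mpr (by
    simpa using (((Fact.out : ℓ.Prime).coprime_iff_not_dvd).mpr B.not_dvd).symm)) ⟨C, hC⟩ hc

/-- The explicit coset of a residue. -/
def unipInv (j : ℤ) : Gamma0 N :=
  gamma0Mk N 1 (j - B.b) (-N) ((ℓ : ℤ) * B.a - N * j) (by linear_combination B.eq)
    (dvd_neg.mpr dvd_rfl)

omit [Fact ℓ.Prime] [NeZero N] [NeZero (N * ℓ)] in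
theorem W_unipInv (j : ℤ) : B.W * mat (B.unipInv j) = !![1, j; 0, (ℓ : ℤ)] := by
  rw [unipInv, mat_gamma0Mk]
  have := B.eq
  ext r s
  fin_cases r <;> fin_cases s <;> simp [W, Matrix.mul_apply, Fin.sum_univ_two] <;> grind

variable {M : ℕ} [NeZero M] (hM : M ∣ N * ℓ) {A : Type*} [AddCommGroup A]

omit [NeZero M] in
theorem eq_of_index {x y : Cos (N * ℓ)} (hx : x ∈ fib N ℓ) (hy : y ∈ fib N ℓ) {δ δ' : Gamma0 M}
    {i : HeckeIdx M ℓ} (h : B.W * ((x.out⁻¹ : SL2Z) : M2) = mat δ * heckeRep M ℓ i)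
    (h' : B.W * ((y.out⁻¹ : SL2Z) : M2) = mat δ' * heckeRep M ℓ i) : x = y := by
  have hk := B.rel_mem (mul_mem (inv_mem (mem_fib.mp hx)) (mem_fib.mp hy))
    (η := mat (δ * δ'⁻¹)) (by
      rw [Matrix.SpecialLinearGroup.coe_mul, ← mul_assoc, h,
        show mat δ = mat (δ * δ'⁻¹) * mat δ' by rw [← mat_mul, inv_mul_cancel_right],
        mul_assoc (mat _) (mat _), ← h', mul_assoc, mul_assoc, ← Matrix.SpecialLinearGroup.coe_mul,
        inv_mul_cancel, Matrix.SpecialLinearGroup.coe_one, mul_one])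
  rw [← QuotientGroup.out_eq' x, ← QuotientGroup.out_eq' y, QuotientGroup.eq]
  exact hk

omit [NeZero M] in
include hM in
theorem exists_index_of_mk {k : Gamma0 N} {δ₀ : Gamma0 M} {i : HeckeIdx M ℓ}
    (h : B.W * mat k = mat δ₀ * heckeRep M ℓ i) :
    ∃ δ : Gamma0 M, B.W * (((((k⁻¹ : Gamma0 N) : SL2Z) : Cos (N * ℓ)).out⁻¹ : SL2Z) : M2) =
      mat δ * heckeRep M ℓ i := by
  obtain ⟨η, hη⟩ := QuotientGroup.mk_out_eq_mul (Gamma0 (N * ℓ)) ((k⁻¹ : Gamma0 N) : SL2Z)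
  refine ⟨incl hM (B.c η⁻¹) * δ₀, ?_⟩
  rw [hη, mat_mul, mul_assoc, ← h, ← mul_assoc,
    show mat (incl hM (B.c η⁻¹)) * B.W = B.W * mat η⁻¹ from (B.c_rel _).symm, mul_assoc]
  simp only [mat, ← Matrix.SpecialLinearGroup.coe_mul]
  simp

/-- A sum over cosets is a Hecke operator. -/
theorem sum_eq_hecke (s : Finset (Cos (N * ℓ))) (hs : s ⊆ fib N ℓ) (γ : Gamma0 M)
    (hinv : ∀ x, (γ : SL2Z) • x ∈ s ↔ x ∈ s)
    (hex : ∀ x ∈ s, ∃ (i : HeckeIdx M ℓ) (δ : Gamma0 M),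
      B.W * ((x.out⁻¹ : SL2Z) : M2) = mat δ * heckeRep M ℓ i)
    (hsurj : ∀ i : HeckeIdx M ℓ, ∃ x ∈ s, ∃ δ : Gamma0 M,
      B.W * ((x.out⁻¹ : SL2Z) : M2) = mat δ * heckeRep M ℓ i)
    (φ : Additive (Gamma0 M) →+ A) :
    ∑ x ∈ s, φ (Additive.ofMul (incl hM (B.c ⟨_, ES.cocycle_mem (γ : SL2Z) x⟩))) =
      (heckeFam M ℓ).hecke φ (Additive.ofMul γ) := by
  classical
  choose e δ hδ using hex
  rw [HeckeFamily.hecke_apply]
  have einj : ∀ x hx y hy, e x hx = e y hy → x = y := fun x hx y hy hxy =>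
    B.eq_of_index (hs hx) (hs hy) (hxy ▸ hδ x hx) (hδ y hy)
  let k : Cos (N * ℓ) → Gamma0 M := fun x =>
    incl hM (B.c ⟨_, ES.cocycle_mem (γ : SL2Z) x⟩)
  have key : ∀ x (hx : x ∈ s), (heckeFam M ℓ).coc γ (e _ ((hinv x).mpr hx)) =
      (δ _ ((hinv x).mpr hx))⁻¹ * k x * δ x hx ∧
      (heckeFam M ℓ).next γ (e _ ((hinv x).mpr hx)) = e x hx := by
    intro x hx
    set y := (γ : SL2Z) • x
    have hy := (hinv x).mpr hx
    refine (and_comm.mp ((heckeFam M ℓ).eq_of_rel ?_))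
    rw [heckeFam_α]
    have h1 : mat (δ y hy) * (heckeRep M ℓ (e y hy) * mat γ) =
        mat (k x) * (mat (δ x hx) * heckeRep M ℓ (e x hx)) := by
      rw [← mul_assoc, ← hδ, ← hδ, mul_assoc, ← mul_assoc (mat (k x))]
      rw [show mat (k x) * B.W = B.W * mat ⟨_, ES.cocycle_mem (γ : SL2Z) x⟩ from (B.c_rel _).symm]
      simp only [mat, mul_assoc, ← Matrix.SpecialLinearGroup.coe_mul]
      congr 2
      simp only [y]
      group
      try rfl
    have h2 := congrArg (mat (δ y hy)⁻¹ * ·) h1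
    simp only [← mul_assoc, ← mat_mul, inv_mul_cancel, mat_one, one_mul] at h2
    exact h2
  have e1 : ∀ x ∈ s.attach, e _ ((hinv x.1).mpr x.2) ∈ (Finset.univ : Finset (HeckeIdx M ℓ)) :=
    fun _ _ => Finset.mem_univ _
  have hbij : Function.Bijective (fun x : s => e _ ((hinv x.1).mpr x.2)) := by
    refine ⟨fun x y h => Subtype.ext ?_, fun i => ?_⟩
    · exact (MulAction.injective (γ : SL2Z)) (einj _ _ _ _ h)
    · obtain ⟨x, hx, δ', hδ'⟩ := hsurj i
      refine ⟨⟨(γ : SL2Z)⁻¹ • x, (hinv _).mp (by rwa [smul_inv_smul])⟩, ?_⟩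
      have : ∀ y hy, y = x → e y hy = i := by
        rintro y hy rfl
        exact (heckeRep_unique M ℓ ((hδ y hy).symm.trans hδ')).1
      exact this _ _ (smul_inv_smul _ _)
  rw [← (Equiv.ofBijective _ hbij).sum_comp (fun i => φ (Additive.ofMul ((heckeFam M ℓ).coc γ i)))]
  simp only [Equiv.ofBijective_apply]
  rw [← Finset.sum_coe_sort s]
  symm
  have hsum : ∀ x : s, φ (Additive.ofMul ((heckeFam M ℓ).coc γ (e _ ((hinv x.1).mpr x.2)))) =
      φ (Additive.ofMul (δ x.1 x.2)) - φ (Additive.ofMul (δ _ ((hinv x.1).mpr x.2))) +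
        φ (Additive.ofMul (k x.1)) := by
    intro x
    rw [(key x.1 x.2).1, ofMul_mul, ofMul_mul, map_add, map_add, ofMul_inv, map_neg]
    abel
  simp only [hsum, Finset.sum_add_distrib, Finset.sum_sub_distrib]
  let σ : Equiv.Perm s := (MulAction.toPerm (γ : SL2Z)).subtypePerm hinv
  rw [show ∑ x : s, φ (Additive.ofMul (δ _ ((hinv x.1).mpr x.2))) =
    ∑ x : s, φ (Additive.ofMul (δ x.1 x.2)) from
      Equiv.sum_comp σ (fun x : s => φ (Additive.ofMul (δ x.1 x.2))), sub_self, zero_add]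

omit [NeZero (N * ℓ)] in
theorem det_W_mul (k : SL2Z) : (B.W * (k : M2)).det = (ℓ : ℤ) := by
  rw [Matrix.det_mul, B.det_W, k.2, mul_one]

omit [NeZero (N * ℓ)] in
theorem W_mul_lower (k : SL2Z) :
    (B.W * (k : M2)) 1 0 = (N : ℤ) * ℓ * (k : M2) 0 0 + (ℓ : ℤ) * (k : M2) 1 0 ∧
      (B.W * (k : M2)) 0 0 = (ℓ : ℤ) * B.a * (k : M2) 0 0 + B.b * (k : M2) 1 0 := by
  constructor <;> simp [W, Matrix.mul_apply, Fin.sum_univ_two]

/-- The representative of an index. -/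
def idxInv : HeckeIdx N ℓ → Gamma0 N
  | ⟨none, _⟩ => 1
  | ⟨some j, _⟩ => B.unipInv j.val

theorem idxInv_spec (i : HeckeIdx N ℓ) :
    ∃ δ : Gamma0 N, B.W * mat (B.idxInv i) = mat δ * heckeRep N ℓ i := by
  rcases HeckeIdx.cases N ℓ i with ⟨h, rfl⟩ | ⟨j, rfl⟩
  · refine ⟨gamma0Mk N B.a B.b N ℓ (by linear_combination B.eq) dvd_rfl, ?_⟩
    show B.W * mat (1 : Gamma0 N) = _
    rw [mat_one, mul_one, mat_gamma0Mk]
    simp only [heckeRep]
    ext r s
    fin_cases r <;> fin_cases s <;> simp [W, Matrix.mul_apply, Fin.sum_univ_two] <;> ring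
  · refine ⟨1, ?_⟩
    rw [mat_one, one_mul, heckeRep_idxSome]
    exact B.W_unipInv _

theorem exists_index (x : Cos (N * ℓ)) (hx : x ∈ fib N ℓ) :
    ∃ (i : HeckeIdx N ℓ) (δ : Gamma0 N),
      B.W * ((x.out⁻¹ : SL2Z) : M2) = mat δ * heckeRep N ℓ i := by
  refine exists_heckeRep N ℓ _ (B.det_W_mul _) ?_ fun h => absurd h B.not_dvd
  rw [(B.W_mul_lower _).1]
  exact dvd_add (dvd_mul_of_dvd_left (dvd_mul_right _ _) _)
    (dvd_mul_of_dvd_right (dvd_lower_left N ⟨_, inv_mem (mem_fib.mp hx)⟩) _)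

theorem exists_fib_index (i : HeckeIdx N ℓ) : ∃ x ∈ fib N ℓ, ∃ δ : Gamma0 N,
    B.W * ((x.out⁻¹ : SL2Z) : M2) = mat δ * heckeRep N ℓ i := by
  obtain ⟨δ₀, h⟩ := B.idxInv_spec i
  exact ⟨_, mk_mem_fib _, B.exists_index_of_mk (dvd_level N ℓ) h⟩

include B in
theorem card_fib : (fib N ℓ).card = ℓ + 1 := by
  classical
  have key : ∀ i : HeckeIdx N ℓ,
      ((((B.idxInv i)⁻¹ : Gamma0 N) : SL2Z) : Cos (N * ℓ)) ∈ fib N ℓ ∧ ∃ δ : Gamma0 N,
        B.W * (((((B.idxInv i)⁻¹ : Gamma0 N) : SL2Z) : Cos (N * ℓ)).out⁻¹ : SL2Z) =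
          mat δ * heckeRep N ℓ i := fun i => by
    obtain ⟨δ₀, h⟩ := B.idxInv_spec i
    exact ⟨mk_mem_fib _, B.exists_index_of_mk (dvd_level N ℓ) h⟩
  calc (fib N ℓ).card = (Finset.univ : Finset (HeckeIdx N ℓ)).card := by
        symm
        refine Finset.card_bij (fun i _ => ((((B.idxInv i)⁻¹ : Gamma0 N) : SL2Z) : Cos (N * ℓ)))
          (fun i _ => (key i).1) (fun i _ j _ hij => ?_) fun x hx => ?_
        · obtain ⟨-, δ, h⟩ := key i
          obtain ⟨-, δ', h'⟩ := key j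
          rw [hij] at h
          exact (heckeRep_unique N ℓ (h.symm.trans h')).1
        · obtain ⟨i, δ, h⟩ := B.exists_index x hx
          obtain ⟨hi, δ', h'⟩ := key i
          exact ⟨i, Finset.mem_univ _, B.eq_of_index hi hx h' h⟩
    _ = ℓ + 1 := by
      rw [Finset.card_eq_sum_ones, sum_idx_of_not_dvd N ℓ B.not_dvd]
      simp [add_comm]

variable [NeZero M]

include B in
/-- The transfer of a restriction. -/
theorem tau_res (φ : Hpar (Gamma0 N) A) :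
    tau (dvd_level N ℓ) (res (dvd_level N ℓ) φ) = (ℓ + 1) • φ := by
  classical
  refine Subtype.ext (AddMonoidHom.ext fun γ => ?_)
  obtain ⟨γ, rfl⟩ := Additive.ofMul.surjective γ
  let g : Cos (N * ℓ) → A := fun x => if hx : (x.out : SL2Z) ∈ Gamma0 N then
    φ.1 (Additive.ofMul ⟨_, hx⟩) else 0
  have key : ∀ x ∈ fib N ℓ, cosetCoc (res (dvd_level N ℓ) φ).1 (γ : SL2Z) x =
      φ.1 (Additive.ofMul γ) + (g x - g ((γ : SL2Z) • x)) := by
    intro x hx
    have hxm := mem_fib.mp hx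
    have hym := mem_fib.mp ((smul_mem_fib γ x).mpr hx)
    have hk : incl (dvd_level N ℓ) ⟨_, ES.cocycle_mem (γ : SL2Z) x⟩ =
        (⟨_, hym⟩ : Gamma0 N)⁻¹ * γ * ⟨_, hxm⟩ := rfl
    rw [cosetCoc, res_apply, hk, ofMul_mul, ofMul_mul, map_add, map_add, ofMul_inv, map_neg]
    simp only [g, dif_pos hxm, dif_pos hym]
    abel
  rw [tau_apply_fib, Finset.sum_congr rfl key, Finset.sum_add_distrib, Finset.sum_sub_distrib,
    Finset.sum_const, B.card_fib]
  rw [show ∑ x ∈ fib N ℓ, g ((γ : SL2Z) • x) = ∑ x ∈ fib N ℓ, g x from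
    Finset.sum_equiv (MulAction.toPerm (γ : SL2Z)) (fun x => (smul_mem_fib γ x).symm) fun _ _ => rfl,
    sub_self, add_zero]
  rfl

/-- The Hecke operator at a prime not dividing the level through the degeneracy maps. -/
theorem tau_op_res (φ : Hpar (Gamma0 N) A) :
    tau (dvd_level N ℓ) (B.op (res (dvd_level N ℓ) φ)) = (heckeFam N ℓ).heckePar φ := by
  refine Subtype.ext (AddMonoidHom.ext fun γ => ?_)
  obtain ⟨γ, rfl⟩ := Additive.ofMul.surjective γ
  rw [tau_apply_fib, HeckeFamily.coe_heckePar]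
  exact B.sum_eq_hecke (dvd_level N ℓ) _ subset_rfl γ (smul_mem_fib γ) B.exists_index
    B.exists_fib_index φ.1

/-- The operator `U` through the degeneracy maps. -/
theorem res_tau_op (Φ : Hpar (Gamma0 (N * ℓ)) A) :
    res (dvd_level N ℓ) (tau (dvd_level N ℓ) (B.op Φ)) =
      B.op Φ + (heckeFam (N * ℓ) ℓ).heckePar Φ := by
  classical
  refine Subtype.ext (AddMonoidHom.ext fun γ => ?_)
  obtain ⟨γ, rfl⟩ := Additive.ofMul.surjective γ
  set b := ((1 : SL2Z) : Cos (N * ℓ))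
  have hb : b ∈ fib N ℓ := mk_mem_fib (1 : Gamma0 N)
  have hfix : (γ : SL2Z) • b = b := smul_base γ
  rw [res_apply, tau_apply_fib, ← Finset.add_sum_erase _ _ hb, AddSubgroup.coe_add,
    AddMonoidHom.add_apply, HeckeFamily.coe_heckePar]
  congr 1
  · exact cosetCoc_base _ γ
  · refine (Finset.sum_congr rfl fun x _ => ?_).trans
      (B.sum_eq_hecke (M := N * ℓ) dvd_rfl ((fib N ℓ).erase b) (Finset.erase_subset _ _) γ
        (fun x => ?_) (fun x hx => ?_) (fun i => ?_) Φ.1)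
    · rfl
    · rw [Finset.mem_erase, Finset.mem_erase, show (γ : SL2Z) = ((incl (dvd_level N ℓ) γ : Gamma0 N) : SL2Z) from rfl,
        smul_mem_fib, coe_incl]
      refine and_congr_left fun _ => not_congr ⟨fun h => ?_, fun h => by rw [h, hfix]⟩
      exact MulAction.injective (γ : SL2Z) (h.trans hfix.symm)
    · obtain ⟨hxb, hxf⟩ := Finset.mem_erase.mp hx
      obtain ⟨h10, h00⟩ := B.W_mul_lower (x.out⁻¹ : SL2Z)
      have hN : (N : ℤ) ∣ ((x.out⁻¹ : SL2Z) : M2) 1 0 :=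
        dvd_lower_left N ⟨_, inv_mem (mem_fib.mp hxf)⟩
      refine exists_heckeRep _ ℓ _ (B.det_W_mul _) ?_ fun _ hdvd => hxb ?_
      · rw [h10]; push_cast
        exact dvd_add (dvd_mul_right _ _) (by
          rw [mul_comm (ℓ : ℤ)]; exact mul_dvd_mul_right hN _)
      · rw [h00, dvd_add_right (dvd_mul_of_dvd_left (dvd_mul_right _ _) _)] at hdvd
        have hℓ : Prime (ℓ : ℤ) := Nat.prime_iff_prime_int.mp (Fact.out : ℓ.Prime)
        have hmem : (x.out⁻¹ : SL2Z) ∈ Gamma0 (N * ℓ) := by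
          rw [Gamma0_mem, ZMod.intCast_zmod_eq_zero_iff_dvd]
          push_cast
          exact IsCoprime.mul_dvd (Int.isCoprime_iff_nat_coprime.mpr (by
            simpa using (((Fact.out : ℓ.Prime).coprime_iff_not_dvd).mpr B.not_dvd).symm)) hN
            ((hℓ.dvd_or_dvd hdvd).resolve_left B.not_dvd_b)
        rw [← QuotientGroup.out_eq' x, QuotientGroup.eq, mul_one]
        exact hmem
    · rcases HeckeIdx.cases _ ℓ i with ⟨h, rfl⟩ | ⟨j, rfl⟩
      · exact absurd (dvd_mul_left ℓ N) (h rfl)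
      · refine ⟨_, Finset.mem_erase.mpr ⟨fun hk => ?_, mk_mem_fib ((B.unipInv j.val)⁻¹)⟩,
          B.exists_index_of_mk dvd_rfl (δ₀ := 1) ?_⟩
        · rw [QuotientGroup.eq, mul_one] at hk
          simp only [Subgroup.coe_inv, inv_inv] at hk
          rw [Gamma0_mem, ZMod.intCast_zmod_eq_zero_iff_dvd] at hk
          have h1 : ((N * ℓ : ℕ) : ℤ) ∣ ((N : ℕ) : ℤ) := by
            rw [← dvd_neg]; exact hk
          have h2 := Nat.le_of_dvd (Nat.pos_of_ne_zero (NeZero.ne N)) (Int.natCast_dvd_natCast.mp h1)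
          have h3 : N * 2 ≤ N * ℓ := Nat.mul_le_mul_left N (Fact.out : ℓ.Prime).two_le
          have h4 : 0 < N := Nat.pos_of_ne_zero (NeZero.ne N)
          omega
        · rw [mat_one, one_mul, heckeRep_idxSome]
          exact B.W_unipInv _

end Bez

end FLTAgent.LevelRaise
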