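import Fermat.Agent.LevelRaise.Congruence
import Fermat.Agent.PeriodHecke.Freeness
import Fermat.Agent.PeriodHecke.Odd
import Fermat.Agent.CuspForms.EigenChar

/-!
From an integral class congruent to an eigensystem to a complex eigenclass and an eigenform.
-/

set_option autoImplicit false

noncomputable section

open scoped MatrixGroups
open CongruenceSubgroup FLTAgent.PeriodHecke

namespace FLTAgent.LevelRaise

/-- A commuting family has a common eigenvector in every invariant subspace. -/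
theorem exists_common_eigen {R V : Type*} [CommRing R] [AddCommGroup V] [Module ℂ V]
    [FiniteDimensional ℂ V] (ρ : R →+* Module.End ℂ V) (W : Submodule ℂ V) (hW0 : W ≠ ⊥)
    (hW : ∀ r, ∀ w ∈ W, ρ r w ∈ W) :
    ∃ v ∈ W, v ≠ 0 ∧ ∀ r, ∃ c : ℂ, ρ r v = c • v := by
  induction h : Module.finrank ℂ W using Nat.strong_induction_on generalizing W with
  | _ n ih =>
    obtain ⟨v, hv, hv0⟩ := (Submodule.ne_bot_iff W).mp hW0
    by_cases hall : ∀ r, ∃ c : ℂ, ∀ w ∈ W, ρ r w = c • w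
    · exact ⟨v, hv, hv0, fun r => ⟨_, (hall r).choose_spec v hv⟩⟩
    push Not at hall
    obtain ⟨r, hr⟩ := hall
    haveI : Nontrivial W := Submodule.nontrivial_iff_ne_bot.mpr hW0
    obtain ⟨μ, hμ⟩ := Module.End.exists_eigenvalue ((ρ r).restrict (hW r))
    obtain ⟨x, hx⟩ := hμ.exists_hasEigenvector
    set W' := W ⊓ Module.End.eigenspace (ρ r) μ
    have hle : W' ≤ W := inf_le_left
    have hx' : (x : V) ∈ W' := ⟨x.2, Module.End.mem_eigenspace_iff.mpr
      (congrArg Subtype.val (Module.End.mem_eigenspace_iff.mp hx.1))⟩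
    have hne : W' ≠ W := fun he => by
      obtain ⟨w, hw, hw'⟩ := hr μ
      exact hw' (Module.End.mem_eigenspace_iff.mp (he ▸ hw : w ∈ W').2)
    have hlt := Submodule.finrank_lt_finrank_of_lt (lt_of_le_of_ne hle hne)
    have hinv : ∀ s, ∀ w ∈ W', ρ s w ∈ W' := fun s w hw => ⟨hW s w hw.1, by
      rw [SetLike.mem_coe, Module.End.mem_eigenspace_iff, ← Module.End.mul_apply, ← map_mul,
        mul_comm, map_mul, Module.End.mul_apply, Module.End.mem_eigenspace_iff.mp hw.2, map_smul]⟩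
    obtain ⟨u, hu, hu'⟩ := ih _ (h ▸ hlt) W'
      ((Submodule.ne_bot_iff _).mpr ⟨_, hx', fun h0 => hx.2 (Subtype.ext h0)⟩) hinv rfl
    exact ⟨u, hle hu, hu'⟩

/-- Complex eigenclasses come from normalised eigenforms. -/
theorem exists_normalized_of_eigenclass {M : ℕ} [NeZero M] (P : Set ℕ) (a : ℕ → ℂ)
    {Φ : Hpar (Gamma0 M) ℂ} (h0 : Φ ≠ 0)
    (h : ∀ (p : ℕ) [Fact p.Prime], p ∈ P → (heckeFam M p).hecke Φ.1 = a p • Φ.1) :
    ∃ g : CuspForm (Gamma0 M) 2, g.IsNormalizedEigenform ∧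
      ∀ (p : ℕ), p.Prime → p ∈ P → ModularFormClass.qCoeff g p = a p := by
  obtain ⟨g₀, hg0, hg⟩ := exists_eigenform_of_eigenclass P a Φ.2
    (fun e => h0 (Subtype.ext e)) h
  haveI := (ES.finrank_cuspForm_ge (ES.Gamma0_neg_one_mem (N := M)) (ES.exists_span_eq_top M)).1
  let ρ : CuspForm.heckeAlgebra M 2 (∅ : Set ℕ) →+*
      Module.End ℂ (CuspForm (Gamma0 M) 2) := (CuspForm.heckeAlgebra M 2 (∅ : Set ℕ)).val.toRingHom
  let W : Submodule ℂ (CuspForm (Gamma0 M) 2) :=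
    ⨅ p : {p : ℕ // p.Prime ∧ p ∈ P}, Module.End.eigenspace
      (ρ (CuspForms.heckeGen M p.1 p.2.1)) (a p.1)
  have hmem : ∀ f, f ∈ W ↔ ∀ p (hp : p.Prime), p ∈ P →
      ρ (CuspForms.heckeGen M p hp) f = a p • f := fun f => by
    simp only [W, Submodule.mem_iInf, Module.End.mem_eigenspace_iff, Subtype.forall]
    exact ⟨fun h p hp hpP => h p ⟨hp, hpP⟩, fun h p hp => h p hp.1 hp.2⟩
  obtain ⟨v, hv, hv0, hvc⟩ := exists_common_eigen ρ W
    ((Submodule.ne_bot_iff W).mpr ⟨g₀, (hmem g₀).mpr fun p hp hpP => by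
      haveI := Fact.mk hp
      exact (LinearMap.congr_fun (coe_heckeGen M p) g₀).trans (hg p hpP), hg0⟩)
    fun t f hf => (hmem _).mpr fun p hp hpP => by
      rw [← Module.End.mul_apply, ← map_mul, mul_comm, map_mul, Module.End.mul_apply,
        (hmem f).mp hf p hp hpP, map_smul]
  choose c hc using hvc
  have h1 : ModularFormClass.qCoeff v 1 ≠ 0 := fun e => hv0 (CuspForms.eq_zero_of_qCoeff_one
    fun t => by
      show ModularFormClass.qCoeff ⇑(ρ t v) 1 = 0
      rw [hc, CuspForms.qCoeff_smul_form, e, mul_zero])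
  obtain ⟨hn, hval⟩ := CuspForms.isNormalizedEigenform_of_eigen
    (g := (ModularFormClass.qCoeff v 1)⁻¹ • v)
    (by rw [CuspForms.qCoeff_smul_form, inv_mul_cancel₀ h1]) c fun t => by
      show ρ t (_ • v) = _
      rw [map_smul, hc, smul_comm]
  refine ⟨_, hn, fun p hp hpP => ?_⟩
  rw [hval p hp]
  exact smul_left_injective ℂ hv0 ((hc _).symm.trans ((hmem v).mp hv p hp hpP))

/-- Precomposition with a commutative action. -/
def precompAct {R W : Type*} [CommRing R] [AddCommGroup W] (σ : R →+* Module.End ℤ W) :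
    R →+* Module.End ℂ (W →ₗ[ℤ] ℂ) where
  toFun F :=
    { toFun := fun l => l ∘ₗ σ F
      map_add' := fun _ _ => LinearMap.add_comp _ _ _
      map_smul' := fun _ _ => LinearMap.smul_comp _ _ _ }
  map_one' := LinearMap.ext fun l => LinearMap.ext fun w => by
    show l (σ 1 w) = l w
    rw [map_one]; rfl
  map_mul' F G := LinearMap.ext fun l => LinearMap.ext fun w => by
    show l (σ (F * G) w) = l (σ G (σ F w))
    rw [mul_comm F G, map_mul]; rfl
  map_zero' := LinearMap.ext fun l => LinearMap.ext fun w => by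
    show l (σ 0 w) = 0
    rw [map_zero, LinearMap.zero_apply, map_zero]
  map_add' F G := LinearMap.ext fun l => LinearMap.ext fun w => by
    show l (σ (F + G) w) = l (σ F w) + l (σ G w)
    rw [map_add, LinearMap.add_apply, map_add]

/-- A common eigenvector whose character is compatible with a given one. -/
theorem exists_compatible_eigen {R V k : Type*} [CommRing R] [AddCommGroup V] [Module ℂ V]
    [FiniteDimensional ℂ V] [Field k] (ρ : R →+* Module.End ℂ V) (ev : R →+* k)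
    (K : Submodule ℂ V) (hK : ∀ r, ∀ w ∈ K, ρ r w ∈ K) {x : V} (hx : x ∈ K)
    (hnz : ∀ r, ev r ≠ 0 → ρ r x ≠ 0) :
    ∃ v ∈ K, v ≠ 0 ∧ ∃ χ : R →+* ℂ, (∀ r, ρ r v = χ r • v) ∧ ∀ r, χ r = 0 → ev r = 0 := by
  classical
  let Q : ℕ → Prop := fun n => ∃ r, ev r ≠ 0 ∧ Module.finrank ℂ (K.map (ρ r)) = n
  have hQ : ∃ n, Q n := ⟨_, 1, by rw [map_one]; exact one_ne_zero, rfl⟩
  obtain ⟨r₀, hr₀, hn⟩ := Nat.find_spec hQ
  set U := K.map (ρ r₀)
  have hUinv : ∀ s, ∀ u ∈ U, ρ s u ∈ U := by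
    rintro s _ ⟨l, hl, rfl⟩
    refine ⟨ρ s l, hK s l hl, ?_⟩
    rw [← Module.End.mul_apply, ← map_mul, mul_comm, map_mul, Module.End.mul_apply]
  have hU0 : U ≠ ⊥ :=
    (Submodule.ne_bot_iff U).mpr ⟨_, Submodule.mem_map_of_mem hx, hnz r₀ hr₀⟩
  have hinj : ∀ s, ev s ≠ 0 → ∀ u ∈ U, ρ s u = 0 → u = 0 := by
    intro s hs u hu h0
    let f := (ρ s).restrict (hUinv s)
    have hsurj : Function.Surjective f := by
      have hle : U.map (ρ s) ≤ U := Submodule.map_le_iff_le_comap.mpr fun x hx => hUinv s x hx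
      have hge : Module.finrank ℂ U ≤ Module.finrank ℂ (U.map (ρ s)) := by
        rw [hn]
        refine Nat.find_min' hQ ⟨s * r₀, ?_, ?_⟩
        · rw [map_mul]; exact mul_ne_zero hs hr₀
        · rw [map_mul, Module.End.mul_eq_comp, Submodule.map_comp]
      intro y
      obtain ⟨w, hw, hwy⟩ := (Submodule.eq_of_le_of_finrank_le hle hge).ge y.2
      exact ⟨⟨w, hw⟩, Subtype.ext hwy⟩
    exact congrArg Subtype.val (LinearMap.injective_iff_surjective.mpr hsurj
      (a₁ := ⟨u, hu⟩) (a₂ := 0) (by rw [map_zero]; exact Subtype.ext h0))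
  obtain ⟨v, hv, hv0, hvc⟩ := exists_common_eigen ρ U hU0 hUinv
  choose c hc using hvc
  have hcu : ∀ {r : R} {d : ℂ}, ρ r v = d • v → c r = d :=
    fun h => smul_left_injective ℂ hv0 ((hc _).symm.trans h)
  refine ⟨v, ?_, hv0,
    { toFun := c
      map_one' := hcu (by rw [map_one, one_smul]; rfl)
      map_mul' := fun F G => hcu (by
        rw [map_mul, Module.End.mul_apply, hc, map_smul, hc, smul_smul, mul_comm])
      map_zero' := hcu (by rw [map_zero, zero_smul]; rfl)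
      map_add' := fun F G => hcu (by rw [map_add, LinearMap.add_apply, hc, hc, add_smul]) },
    hc, fun r hr0 => by_contra fun h => hv0 (hinj r h v hv ?_)⟩
  · obtain ⟨l, hl, rfl⟩ := hv
    exact hK r₀ l hl
  · rw [hc, show c r = 0 from hr0, zero_smul]

/-- Characters factoring through a finite ring have integral values. -/
theorem mem_integralClosure_of_factors {R H : Type*} [CommRing R] [CommRing H] [Module.Finite ℤ H]
    (e : R →+* H) (χ : R →+* ℂ) (h : ∀ r, e r = 0 → χ r = 0) (r : R) :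
    χ r ∈ integralClosure ℤ ℂ := by
  obtain ⟨q, hq, hq0⟩ := (Algebra.IsIntegral.of_finite ℤ H).isIntegral (e r)
  refine ⟨q, hq, ?_⟩
  have h2 := h (q.eval₂ (Int.castRingHom R) r) (by
    rw [Polynomial.hom_eval₂, ← hq0]
    congr 1
    exact RingHom.ext_int _ _)
  rw [Polynomial.hom_eval₂] at h2
  rw [← h2]
  congr 1
  exact RingHom.ext_int _ _

theorem char_sub_mem {R S : Type*} [CommRing R] [CommRing S] (χ : R →+* S) (m : Ideal S) {x : R}
    {k : ℤ} (ι : ℤ →+* R) (h : χ (x - ι k) ∈ m) : χ x - (k : S) ∈ m := by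
  rwa [map_sub, eq_intCast ι, map_intCast] at h

theorem comp_apply_eq_zero {R S T : Type*} [CommRing R] [CommRing S] [CommRing T] {f : S →+* T}
    {g : R →+* S} {x : R} (h : g x = 0) : f.comp g x = 0 := by
  rw [RingHom.comp_apply, h, map_zero]

section Eigensystem

variable {N ℓ p : ℕ} [Fact ℓ.Prime] [NeZero N] [NeZero (N * ℓ)] [Fact p.Prime] (B : Bez N ℓ)
  (P : Set ℕ) (hPp : ∀ r ∈ P, r.Prime) (hP : ∀ r ∈ P, ¬ r ∣ N * ℓ)

local notation "HH" => CuspForm.heckeAlgebra (N * ℓ) 2 (∅ : Set ℕ)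
local notation "WW" => Module.Dual ℤ (Hpar (Gamma0 (N * ℓ)) ℤ)

theorem push_mapHpar {A A' : Type*} [AddCommGroup A] [AddCommGroup A'] (f : A →+ A')
    (x : Hpar (Gamma0 (N * ℓ)) A) :
    push B (mapHpar f x) = (mapHpar f (push B x).1, mapHpar f (push B x).2) :=
  Prod.ext (tau_mapHpar _ f x) (tau_mapHpar _ f (B.op x))

/-- The polynomials in the operators, in the Hecke algebra. -/
def polyHecke : MvPolynomial P ℤ →+* HH :=
  MvPolynomial.eval₂Hom (Int.castRingHom _) fun r => CuspForms.heckeGen (N * ℓ) r.1 (hPp r.1 r.2)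

theorem polyHecke_X (r : P) :
    polyHecke P hPp (MvPolynomial.X r) =
      (CuspForms.heckeGen (N * ℓ) r.1 (hPp r.1 r.2) : HH) :=
  MvPolynomial.eval₂Hom_X' _ _ _

theorem actA_heckeGen' {A : Type*} [AddCommGroup A] (r : P) (φ : Hpar (Gamma0 (N * ℓ)) A) :
    letI := Fact.mk (hPp r.1 r.2)
    actA (N * ℓ) A (polyHecke P hPp (MvPolynomial.X r)) φ =
      (heckeFam (N * ℓ) r.1).heckePar φ := by
  letI := Fact.mk (hPp r.1 r.2)
  rw [polyHecke_X]
  exact actA_heckeGen (N * ℓ) r.1 φ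

theorem actA_intCast {A : Type*} [AddCommGroup A] (k : ℤ) (φ : Hpar (Gamma0 (N * ℓ)) A) :
    actA (N * ℓ) A (k : HH) φ = k • φ := by
  rw [map_intCast]
  rfl

include hP in
theorem push_stable {A : Type*} [CommRing A] (F : MvPolynomial P ℤ)
    {Φ : Hpar (Gamma0 (N * ℓ)) A} (h : push B Φ = 0) :
    push B (actA (N * ℓ) A (polyHecke P hPp F) Φ) = 0 := by
  induction F using MvPolynomial.induction_on generalizing Φ with
  | C k =>
    rw [show polyHecke P hPp (MvPolynomial.C k) = (k : HH) from MvPolynomial.eval₂Hom_C _ _ k,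
      actA_intCast, map_zsmul, h, smul_zero]
  | add f g hf hg =>
    rw [map_add, map_add]
    show push B (actA (N * ℓ) A (polyHecke P hPp f) Φ + actA (N * ℓ) A (polyHecke P hPp g) Φ) = 0
    rw [map_add, hf h, hg h, add_zero]
  | mul_X f r hf =>
    haveI := Fact.mk (hPp r.1 r.2)
    rw [map_mul, map_mul]
    show push B (actA (N * ℓ) A (polyHecke P hPp f) (actA (N * ℓ) A _ Φ)) = 0
    refine hf ?_
    rw [actA_heckeGen']
    obtain ⟨h1, h2⟩ := Prod.ext_iff.mp h
    rw [push_apply] at h1 h2 ⊢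
    rw [← hecke_tau (hP r.1 r.2), ← B.hecke_op (hP r.1 r.2), ← hecke_tau (hP r.1 r.2)]
    exact Prod.ext ((congrArg _ h1).trans (map_zero _)) ((congrArg _ h2).trans (map_zero _))

variable (a : ℕ → ℤ)

/-- The integral eigensystem on polynomials. -/
def polyEval : MvPolynomial P ℤ →+* ℤ := MvPolynomial.eval₂Hom (RingHom.id ℤ) fun r => a r.1

theorem polyEval_X_sub_C (r : P) :
    polyEval P a (MvPolynomial.X r - MvPolynomial.C (a r.1)) = 0 := by
  rw [map_sub, polyEval, MvPolynomial.eval₂Hom_X', MvPolynomial.eval₂Hom_C, RingHom.id_apply,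
    sub_self]

theorem actA_eigen {y : Hpar (Gamma0 (N * ℓ)) (ZMod p)}
    (hy : ∀ (r : ℕ) [Fact r.Prime], r ∈ P → (heckeFam (N * ℓ) r).heckePar y = a r • y)
    (F : MvPolynomial P ℤ) :
    actA (N * ℓ) (ZMod p) (polyHecke P hPp F) y = polyEval P a F • y := by
  induction F using MvPolynomial.induction_on with
  | C k =>
    rw [show polyHecke P hPp (MvPolynomial.C k) = (k : HH) from MvPolynomial.eval₂Hom_C _ _ k,
      actA_intCast, polyEval, MvPolynomial.eval₂Hom_C]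
    rfl
  | add f g hf hg =>
    rw [map_add, map_add]
    show actA (N * ℓ) (ZMod p) (polyHecke P hPp f) y + actA (N * ℓ) (ZMod p) (polyHecke P hPp g) y = _
    rw [hf, hg, map_add, add_smul]
  | mul_X f r hf =>
    haveI := Fact.mk (hPp r.1 r.2)
    rw [map_mul, map_mul]
    show actA (N * ℓ) (ZMod p) (polyHecke P hPp f) (actA (N * ℓ) (ZMod p) _ y) = _
    rw [actA_heckeGen', hy r.1 r.2, map_zsmul, hf, smul_smul, map_mul,
      show polyEval P a (MvPolynomial.X r) = a r.1 from MvPolynomial.eval₂Hom_X' _ _ _,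
      mul_comm (a r.1)]

/-- The action of the polynomials on complex functionals. -/
def polyAct : MvPolynomial P ℤ →+* Module.End ℂ (WW →ₗ[ℤ] ℂ) :=
  precompAct ((actDual (N * ℓ)).comp (polyHecke P hPp))

theorem polyAct_homEquiv (F : MvPolynomial P ℤ) (l : WW →ₗ[ℤ] ℂ) :
    homEquiv (N * ℓ) ℂ (polyAct P hPp F l) =
      actA (N * ℓ) ℂ (polyHecke P hPp F) (homEquiv (N * ℓ) ℂ l) :=
  (actA_homEquiv (N * ℓ) _ l).symm

/-- The functionals whose classes are killed by both transfers. -/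
def kerPush : Submodule ℂ (WW →ₗ[ℤ] ℂ) where
  carrier := {l | push B (homEquiv (N * ℓ) ℂ l) = 0}
  add_mem' {l l'} hl hl' := by
    simp only [Set.mem_setOf_eq] at hl hl' ⊢
    rw [map_add, map_add, hl, hl', add_zero]
  zero_mem' := by simp only [Set.mem_setOf_eq, map_zero]
  smul_mem' c l hl := by
    simp only [Set.mem_setOf_eq] at hl ⊢
    have e : homEquiv (N * ℓ) ℂ (c • l) = mapHpar (AddMonoidHom.mulLeft c) (homEquiv (N * ℓ) ℂ l) := by
      rw [mapHpar_homEquiv]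
      exact congrArg _ (LinearMap.ext fun w => rfl)
    rw [e, push_mapHpar, hl]
    simp

theorem mem_kerPush (l : WW →ₗ[ℤ] ℂ) : l ∈ kerPush B ↔ push B (homEquiv (N * ℓ) ℂ l) = 0 :=
  Iff.rfl

include hP in
theorem polyAct_mem_kerPush (F : MvPolynomial P ℤ) (l : WW →ₗ[ℤ] ℂ) (hl : l ∈ kerPush B) :
    polyAct P hPp F l ∈ kerPush B := by
  rw [mem_kerPush, polyAct_homEquiv]
  exact push_stable B P hPp hP F hl

theorem polyAct_ne_zero {z : Hpar (Gamma0 (N * ℓ)) ℤ}
    (hred : red (N * ℓ) p z ≠ 0)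
    (heig : ∀ (r : ℕ) [Fact r.Prime], r ∈ P →
      (heckeFam (N * ℓ) r).heckePar (red (N * ℓ) p z) = a r • red (N * ℓ) p z)
    {lz : WW →ₗ[ℤ] ℂ} (hlz : homEquiv (N * ℓ) ℂ lz = mapHpar (Int.castAddHom ℂ) z)
    (F : MvPolynomial P ℤ) (hF : (polyEval P a F : ZMod p) ≠ 0) : polyAct P hPp F lz ≠ 0 := by
  intro h0
  have h1 := polyAct_homEquiv P hPp F lz
  rw [h0, map_zero, hlz, actA_mapHpar] at h1
  have h2 : actA (N * ℓ) ℤ (polyHecke P hPp F) z = 0 := by
    refine Subtype.ext (AddMonoidHom.ext fun γ => ?_)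
    have h3 := DFunLike.congr_fun (congrArg Subtype.val h1.symm) γ
    exact Int.cast_eq_zero.mp h3
  have h4 := actA_mapHpar (N * ℓ) (Int.castAddHom (ZMod p)) (polyHecke P hPp F) z
  rw [h2, map_zero] at h4
  change actA (N * ℓ) (ZMod p) (polyHecke P hPp F) (red (N * ℓ) p z) = 0 at h4
  rw [actA_eigen P hPp a heig] at h4
  exact hred ((zsmul_eq_zero_iff_zmod h4).resolve_left hF)

theorem polyAct_eq_zero {F : MvPolynomial P ℤ} (h : polyHecke (N := N) (ℓ := ℓ) P hPp F = 0) :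
    ∀ l : WW →ₗ[ℤ] ℂ, polyAct (N := N) (ℓ := ℓ) P hPp F l = 0 := by
  intro l
  rw [polyAct]
  refine LinearMap.ext fun w => ?_
  show l (actDual (N * ℓ) (polyHecke P hPp F) w) = 0
  rw [h, map_zero, LinearMap.zero_apply, map_zero]

theorem hecke_of_polyAct (r : P) [Fact (r : ℕ).Prime] {v : WW →ₗ[ℤ] ℂ} {c : ℂ}
    (h : polyAct (N := N) (ℓ := ℓ) P hPp (MvPolynomial.X r) v = c • v) :
    (heckeFam (N * ℓ) r.1).hecke (homEquiv (N * ℓ) ℂ v).1 = c • (homEquiv (N * ℓ) ℂ v).1 := by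
  have h1 : actA (N * ℓ) ℂ (polyHecke P hPp (MvPolynomial.X r)) (homEquiv (N * ℓ) ℂ v) =
      homEquiv (N * ℓ) ℂ (c • v) :=
    (polyAct_homEquiv P hPp _ v).symm.trans (congrArg (homEquiv (N * ℓ) ℂ) h)
  have h2 := (actA_heckeGen' P hPp r (homEquiv (N * ℓ) ℂ v)).symm.trans h1
  exact (congrArg Subtype.val h2).trans (AddMonoidHom.ext fun γ => rfl)

set_option maxHeartbeats 1000000 in
include hPp hP in
/-- A complex eigenclass killed by both transfers, congruent to the given eigensystem. -/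
theorem exists_eigenclass {z : Hpar (Gamma0 (N * ℓ)) ℤ} (hz : push B z = 0)
    (hred : red (N * ℓ) p z ≠ 0)
    (heig : ∀ (r : ℕ) [Fact r.Prime], r ∈ P →
      (heckeFam (N * ℓ) r).heckePar (red (N * ℓ) p z) = a r • red (N * ℓ) p z) :
    ∃ (Φ : Hpar (Gamma0 (N * ℓ)) ℂ) (b : ℕ → integralClosure ℤ ℂ)
      (𝔪 : Ideal (integralClosure ℤ ℂ)),
      Φ ≠ 0 ∧ push B Φ = 0 ∧ 𝔪.IsMaximal ∧ (p : integralClosure ℤ ℂ) ∈ 𝔪 ∧
      ∀ (r : ℕ) [Fact r.Prime], r ∈ P →
        (heckeFam (N * ℓ) r).hecke Φ.1 = (b r : ℂ) • Φ.1 ∧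
          b r - ((a r : ℤ) : integralClosure ℤ ℂ) ∈ 𝔪 := by
  classical
  obtain ⟨lz, hlz⟩ := (homEquiv (N * ℓ) ℂ).surjective (mapHpar (Int.castAddHom ℂ) z)
  have hlzK : lz ∈ kerPush B := by
    rw [mem_kerPush, hlz, push_mapHpar, hz]
    simp
  obtain ⟨v, hvK, hv0, χ, hc, hcne⟩ := exists_compatible_eigen (polyAct P hPp)
    ((Int.castRingHom (ZMod p)).comp (polyEval P a)) (kerPush B)
    (polyAct_mem_kerPush B P hPp hP) hlzK
    (polyAct_ne_zero P hPp a hred heig hlz)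
  have hint : ∀ F, χ F ∈ integralClosure ℤ ℂ :=
    mem_integralClosure_of_factors (polyHecke P hPp) χ fun F h => by
      exact (smul_eq_zero.mp ((hc F).symm.trans (polyAct_eq_zero P hPp h v))).resolve_right hv0
  let χI : MvPolynomial P ℤ →+* integralClosure ℤ ℂ :=
    { toFun := fun F => ⟨χ F, hint F⟩
      map_one' := Subtype.ext (map_one χ)
      map_mul' := fun F G => Subtype.ext (map_mul χ F G)
      map_zero' := Subtype.ext (map_zero χ)
      map_add' := fun F G => Subtype.ext (map_add χ F G) }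
  let ψ : MvPolynomial P ℤ →+* ZMod p := (Int.castRingHom (ZMod p)).comp (polyEval P a)
  have hψ : Function.Surjective ψ := fun x => by
    obtain ⟨k, rfl⟩ := ZMod.intCast_surjective x
    exact ⟨MvPolynomial.C k, by simp [ψ, polyEval]⟩
  have hmax : (RingHom.ker ψ).IsMaximal := RingHom.ker_isMaximal_of_surjective ψ hψ
  letI : Algebra (MvPolynomial P ℤ) (integralClosure ℤ ℂ) := χI.toAlgebra
  haveI : IsScalarTower ℤ (MvPolynomial P ℤ) (integralClosure ℤ ℂ) :=
    IsScalarTower.of_algebraMap_eq' (RingHom.ext_int _ _)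
  haveI : Algebra.IsIntegral ℤ (integralClosure ℤ ℂ) := integralClosure.AlgebraIsIntegral
  haveI : Algebra.IsIntegral (MvPolynomial P ℤ) (integralClosure ℤ ℂ) :=
    Algebra.IsIntegral.tower_top ℤ
  obtain ⟨𝔪, h𝔪, hcomap⟩ := Ideal.exists_ideal_over_maximal_of_isIntegral
    (S := integralClosure ℤ ℂ) (RingHom.ker ψ) fun F hF => by
      rw [RingHom.mem_ker] at hF ⊢
      exact hcne F (congrArg Subtype.val hF)
  have hmem : ∀ F, ψ F = 0 → χI F ∈ 𝔪 := fun F hF => by
    rw [← RingHom.mem_ker, ← hcomap] at hF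
    exact hF
  refine ⟨homEquiv (N * ℓ) ℂ v, fun r => if h : r ∈ P then χI (MvPolynomial.X ⟨r, h⟩) else 0, 𝔪,
    fun h => hv0 ((homEquiv (N * ℓ) ℂ).injective (h.trans (map_zero _).symm)), hvK, h𝔪, ?_,
    fun r _ hr => ⟨?_, ?_⟩⟩
  · have := hmem (p : MvPolynomial P ℤ) (by rw [map_natCast, ZMod.natCast_self])
    rwa [map_natCast] at this
  · simp only [dif_pos hr]
    exact hecke_of_polyAct P hPp ⟨r, hr⟩ (hc _)
  · simp only [dif_pos hr]
    exact char_sub_mem χI 𝔪 MvPolynomial.C (hmem _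
      (comp_apply_eq_zero (f := Int.castRingHom (ZMod p)) (g := polyEval P a)
        (polyEval_X_sub_C P a ⟨r, hr⟩)))

end Eigensystem

end FLTAgent.LevelRaise
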