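import Mathlib

/-!
Cusps as `Option ℚ` with the action of integer matrices, the Farey triangulation, and existence of
potentials on it.
-/

set_option autoImplicit false

noncomputable section

open scoped MatrixGroups

namespace FLTAgent.LevelRaise

local notation "SL2Z" => Matrix.SpecialLinearGroup (Fin 2) ℤ
local notation "M2" => Matrix (Fin 2) (Fin 2) ℤ
local notation "S'" => (ModularGroup.S : SL2Z)
local notation "T'" => (ModularGroup.T : SL2Z)
local notation "R'" => ((ModularGroup.S * ModularGroup.T : SL2Z))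

/-- The points of the projective line over `ℚ`. -/
abbrev Pt : Type := Option ℚ

/-- First coordinate of the normalised vector of a point. -/
def pn : Pt → ℤ
  | none => 1
  | some r => r.num

/-- Second coordinate of the normalised vector of a point. -/
def pd : Pt → ℤ
  | none => 0
  | some r => r.den

theorem pn_some (r : ℚ) : pn (some r) = r.num := rfl

theorem pd_some (r : ℚ) : pd (some r) = r.den := rfl

/-- The point of a vector. -/
def mkPt (a c : ℤ) : Pt := if c = 0 then none else some ((a : ℚ) / c)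

theorem mkPt_pn_pd (p : Pt) : mkPt (pn p) (pd p) = p := by
  cases p with
  | none => simp [mkPt, pd]
  | some r => simp [mkPt, pn, pd, Rat.num_div_den]

theorem mkPt_mul {l : ℤ} (hl : l ≠ 0) (a c : ℤ) : mkPt (l * a) (l * c) = mkPt a c := by
  have hl' : (l : ℚ) ≠ 0 := Int.cast_ne_zero.mpr hl
  by_cases hc : c = 0
  · simp [mkPt, hc]
  · simp [mkPt, hc, hl, mul_div_mul_left _ _ hl']

theorem mkPt_neg (a c : ℤ) : mkPt (-a) (-c) = mkPt a c := by
  simpa using mkPt_mul (l := -1) (by norm_num) a c

theorem exists_scale {a c : ℤ} (h : a ≠ 0 ∨ c ≠ 0) :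
    ∃ l : ℤ, l ≠ 0 ∧ a = l * pn (mkPt a c) ∧ c = l * pd (mkPt a c) := by
  by_cases hc : c = 0
  · subst hc
    exact ⟨a, by simpa using h, by simp [mkPt, pn], by simp [mkPt, pd]⟩
  · obtain ⟨l, h1, h2⟩ := Rat.num_den_mk hc (rfl : Rat.divInt a c = Rat.divInt a c)
    refine ⟨l, fun hl => hc (by rw [h2, hl, zero_mul]), ?_, ?_⟩
    · simpa [mkPt, hc, pn, Rat.divInt_eq_div] using h1
    · simpa [mkPt, hc, pd, Rat.divInt_eq_div] using h2

theorem pn_pd_ne (p : Pt) : pn p ≠ 0 ∨ pd p ≠ 0 := by
  cases p with
  | none => simp [pn]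
  | some r => simp [pd]

/-- The action of an integer matrix. -/
def actPt (M : M2) (p : Pt) : Pt :=
  mkPt (M 0 0 * pn p + M 0 1 * pd p) (M 1 0 * pn p + M 1 1 * pd p)

theorem image_ne {M : M2} (hM : M.det ≠ 0) (p : Pt) :
    M 0 0 * pn p + M 0 1 * pd p ≠ 0 ∨ M 1 0 * pn p + M 1 1 * pd p ≠ 0 := by
  by_contra h
  simp only [not_or, not_not] at h
  obtain ⟨h0, h1⟩ := h
  have e0 : M.det * pn p = 0 := by
    rw [Matrix.det_fin_two]; linear_combination M 1 1 * h0 - M 0 1 * h1
  have e1 : M.det * pd p = 0 := by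
    rw [Matrix.det_fin_two]; linear_combination M 0 0 * h1 - M 1 0 * h0
  rcases pn_pd_ne p with h | h
  · exact h ((mul_eq_zero.mp e0).resolve_left hM)
  · exact h ((mul_eq_zero.mp e1).resolve_left hM)

theorem actPt_actPt (M N : M2) (hN : N.det ≠ 0) (p : Pt) :
    actPt M (actPt N p) = actPt (M * N) p := by
  obtain ⟨l, hl, h1, h2⟩ := exists_scale (image_ne hN p)
  unfold actPt
  simp only [Matrix.mul_apply, Fin.sum_univ_two]
  rw [← mkPt_mul hl]
  congr 1
  · linear_combination -(M 0 0) * h1 - (M 0 1) * h2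
  · linear_combination -(M 1 0) * h1 - (M 1 1) * h2

@[simp] theorem actPt_one (p : Pt) : actPt 1 p = p := by simp [actPt, mkPt_pn_pd]

theorem det_sl_ne (g : SL2Z) : (g : M2).det ≠ 0 := by rw [g.2]; exact one_ne_zero

/-- The base vertex of an element. -/
def vtx (g : SL2Z) : Pt := mkPt (g 1 1) (-(g 1 0))

theorem vtx_eq_act (g : SL2Z) : vtx g = actPt ((g⁻¹ : SL2Z) : M2) none := by
  simp [vtx, actPt, pn, pd, Matrix.SpecialLinearGroup.coe_inv, Matrix.adjugate_fin_two]

theorem act_vtx (γ g : SL2Z) : actPt (γ : M2) (vtx g) = vtx (g * γ⁻¹) := by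
  rw [vtx_eq_act, actPt_actPt _ _ (det_sl_ne _), vtx_eq_act, mul_inv_rev, inv_inv,
    Matrix.SpecialLinearGroup.coe_mul]

theorem vtx_mul (g γ : SL2Z) : vtx (g * γ) = actPt ((γ⁻¹ : SL2Z) : M2) (vtx g) := by
  rw [act_vtx, inv_inv]

theorem vtx_T (g : SL2Z) : vtx (T' * g) = vtx g := by
  simp [vtx, ModularGroup.coe_T, Matrix.mul_apply, Fin.sum_univ_two]

theorem vtx_neg (g : SL2Z) : vtx (-g) = vtx g := by
  simp only [vtx, Matrix.SpecialLinearGroup.coe_neg, Matrix.neg_apply, neg_neg]
  rw [← mkPt_neg]; simp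

theorem vtx_SS (g : SL2Z) : vtx (S' * (S' * g)) = vtx g := by
  rw [← mul_assoc, show S' * S' = -1 from by decide, neg_one_mul, vtx_neg]

theorem vtx_ST (g : SL2Z) : vtx (S' * (T' * g)) = vtx (R' * g) := by rw [mul_assoc]

theorem vtx_RRR (g : SL2Z) : vtx (R' * (R' * (R' * g))) = vtx g := by
  rw [← mul_assoc, ← mul_assoc, show R' * R' * R' = -1 from by decide, neg_one_mul, vtx_neg]

theorem S_mul_one (g : SL2Z) (j : Fin 2) : (S' * g) 1 j = g 0 j := by
  show ((S' * g : SL2Z) : M2) 1 j = _
  rw [Matrix.SpecialLinearGroup.coe_mul, ModularGroup.coe_S]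
  simp [Matrix.mul_apply, Fin.sum_univ_two]

theorem vtx_S_mul (g : SL2Z) : vtx (S' * g) = mkPt (g 0 1) (-(g 0 0)) := by
  simp only [vtx, S_mul_one]

/-- The determinant of two points. -/
def det2 (p r : Pt) : ℤ := pn p * pd r - pd p * pn r

theorem det2_swap (p r : Pt) : det2 r p = -det2 p r := by simp [det2]; ring

/-- Adjacency in the Farey triangulation. -/
def Adj (p r : Pt) : Prop := det2 p r = 1 ∨ det2 p r = -1

theorem Adj.symm {p r : Pt} (h : Adj p r) : Adj r p := by
  unfold Adj at *; rw [det2_swap]; omega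

theorem det2_act {M : M2} (hM : M.det ≠ 0) (p r : Pt) :
    ∃ l m : ℤ, l ≠ 0 ∧ m ≠ 0 ∧
      M.det * det2 p r = l * m * det2 (actPt M p) (actPt M r) := by
  obtain ⟨l, hl, h1, h2⟩ := exists_scale (image_ne hM p)
  obtain ⟨m, hm, h3, h4⟩ := exists_scale (image_ne hM r)
  refine ⟨l, m, hl, hm, ?_⟩
  have key : M.det * det2 p r = (M 0 0 * pn p + M 0 1 * pd p) * (M 1 0 * pn r + M 1 1 * pd r) -
      (M 1 0 * pn p + M 1 1 * pd p) * (M 0 0 * pn r + M 0 1 * pd r) := by
    simp only [det2, Matrix.det_fin_two]; ring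
  have h1' : _ = l * pn (actPt M p) := h1
  have h2' : _ = l * pd (actPt M p) := h2
  have h3' : _ = m * pn (actPt M r) := h3
  have h4' : _ = m * pd (actPt M r) := h4
  rw [key, h1', h2', h3', h4']
  simp only [det2]
  ring

theorem Adj.act {p r : Pt} (h : Adj p r) (g : SL2Z) : Adj (actPt (g : M2) p) (actPt (g : M2) r) := by
  obtain ⟨l, m, hl, hm, e⟩ := det2_act (det_sl_ne g) p r
  rw [g.2, one_mul] at e
  have hu : IsUnit (det2 (actPt (g : M2) p) (actPt (g : M2) r)) := by
    refine isUnit_of_dvd_unit ⟨l * m, ?_⟩ (Int.isUnit_iff.mpr h)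
    rw [e]; ring
  exact Int.isUnit_iff.mp hu

/-- An adjacent pair is an edge of the triangulation. -/
theorem Adj.exists_frame {p r : Pt} (h : Adj p r) :
    ∃ g : SL2Z, vtx g = p ∧ vtx (S' * g) = r := by
  obtain ⟨e, he, hdet⟩ : ∃ e : ℤ, (e = 1 ∨ e = -1) ∧ e * (pn p * pd r - pd p * pn r) = 1 := by
    rcases h with h | h
    · exact ⟨1, Or.inl rfl, by rw [one_mul]; exact h⟩
    · exact ⟨-1, Or.inr rfl, by rw [show pn p * pd r - pd p * pn r = -1 from h]; rfl⟩
  obtain ⟨g, h00, h01, h10, h11⟩ : ∃ g : SL2Z, g 0 0 = e * pd r ∧ g 0 1 = -(e * pn r) ∧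
      g 1 0 = -pd p ∧ g 1 1 = pn p :=
    ⟨⟨!![e * pd r, -(e * pn r); -pd p, pn p], by
      rw [Matrix.det_fin_two_of]; linear_combination hdet⟩, rfl, rfl, rfl, rfl⟩
  refine ⟨g, ?_, ?_⟩
  · rw [vtx, h11, h10, neg_neg, mkPt_pn_pd]
  · rw [vtx_S_mul, h00, h01, mkPt_neg, mkPt_mul (by omega), mkPt_pn_pd]

theorem adj_vtx_S (g : SL2Z) : Adj (vtx g) (vtx (S' * g)) := by
  have h : Adj none (some (0 : ℚ)) := by left; simp [det2, pn, pd]
  have h' := h.act g⁻¹
  rw [show (none : Pt) = vtx 1 by simp [vtx, mkPt], show (some (0 : ℚ)) = vtx S' by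
    simp [vtx, mkPt, ModularGroup.coe_S], act_vtx, act_vtx, inv_inv, one_mul] at h'
  exact h'

theorem eq_or_neg_of_vtx_eq {g g' : SL2Z} (h1 : vtx g = vtx g')
    (h2 : vtx (S' * g) = vtx (S' * g')) : g' = g ∨ g' = -g := by
  set k : SL2Z := g' * g⁻¹ with hk
  have hg' : g' = k * g := by rw [hk, inv_mul_cancel_right]
  have e1 : vtx k = vtx 1 := by
    have := congrArg (actPt (g : M2)) h1.symm
    rwa [act_vtx, act_vtx, mul_inv_cancel] at this
  have e2 : vtx (S' * k) = vtx S' := by
    have := congrArg (actPt (g : M2)) h2.symm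
    rwa [act_vtx, act_vtx, mul_assoc, mul_inv_cancel_right] at this
  have k10 : k 1 0 = 0 := by
    by_contra hne
    simp [vtx, mkPt, hne] at e1
  have k01 : k 0 1 = 0 := by
    rw [vtx_S_mul, show S' = S' * 1 from (mul_one _).symm, vtx_S_mul] at e2
    simp [mkPt] at e2
    have hk00 : k 0 0 ≠ 0 := fun h0 => by
      have := k.2
      rw [Matrix.det_fin_two, h0, k10] at this
      simp at this
    simpa [hk00] using e2
  have hd := k.2
  rw [Matrix.det_fin_two, k10, mul_zero, sub_zero] at hd
  rcases Int.eq_one_or_neg_one_of_mul_eq_one' hd with ⟨a, b⟩ | ⟨a, b⟩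
  · left
    rw [hg', show k = 1 from Subtype.ext (by
      ext i j; fin_cases i <;> fin_cases j <;> simp [k10, k01, a, b]), one_mul]
  · right
    rw [hg', show k = -1 from Subtype.ext (by
      ext i j; fin_cases i <;> fin_cases j <;> simp [k10, k01, a, b]), neg_one_mul]

theorem eq_or_eq_of_adj_inf_zero {c : Pt} (h1 : Adj (vtx 1) c) (h2 : Adj (vtx S') c) :
    c = some 1 ∨ c = some (-1) := by
  rw [show vtx 1 = none by simp [vtx, mkPt]] at h1
  rw [show vtx S' = some (0 : ℚ) by simp [vtx, mkPt, ModularGroup.coe_S]] at h2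
  simp only [Adj, det2, pn, pd] at h1 h2
  cases c with
  | none => simp [pd] at h1
  | some r =>
    simp only [pn, pd, Rat.num_zero, Rat.den_zero, Nat.cast_one] at h1 h2
    have hd : r.den = 1 := by omega
    have hn : r.num = 1 ∨ r.num = -1 := by omega
    rcases hn with hn | hn
    · left; rw [← Rat.num_div_den r, hn, hd]; norm_num
    · right; rw [← Rat.num_div_den r, hn, hd]; norm_num

/-- A triple of pairwise adjacent points is a triangle, up to a transposition. -/
theorem exists_triangle {a b c : Pt} (hab : Adj a b) (hbc : Adj b c) (hac : Adj a c) :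
    ∃ g : SL2Z, (vtx g = a ∧ vtx (R' * g) = b ∨ vtx g = b ∧ vtx (R' * g) = a) ∧
      vtx (R' * (R' * g)) = c := by
  obtain ⟨g, rfl, rfl⟩ := hab.exists_frame
  have h1 := hac.act g
  have h2 := hbc.act g
  rw [act_vtx, mul_inv_cancel] at h1
  rw [act_vtx, mul_assoc, mul_inv_cancel, mul_one] at h2
  have hR : ∀ k : SL2Z, vtx (R' * (R' * (T'⁻¹ * k))) = actPt ((k⁻¹ : SL2Z) : M2) (some 1) := by
    intro k
    have e : vtx (S' * (T' * S')) = some 1 := by
      simp [vtx, mkPt, ModularGroup.coe_S, ModularGroup.coe_T, Matrix.mul_apply, Fin.sum_univ_two]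
    rw [← e, ← vtx_mul]
    simp only [mul_assoc, mul_inv_cancel_left]
  rcases eq_or_eq_of_adj_inf_zero h1 h2 with hc | hc
  · refine ⟨T'⁻¹ * g, Or.inl ⟨?_, ?_⟩, ?_⟩
    · conv_rhs => rw [← mul_inv_cancel_left T' g, vtx_T]
    · rw [mul_assoc, mul_inv_cancel_left]
    · rw [hR, ← hc, actPt_actPt _ _ (det_sl_ne _), ← Matrix.SpecialLinearGroup.coe_mul]
      simp
  · refine ⟨T'⁻¹ * (S' * g), Or.inr ⟨?_, ?_⟩, ?_⟩
    · conv_rhs => rw [← mul_inv_cancel_left T' (S' * g), vtx_T]
    · rw [mul_assoc, mul_inv_cancel_left, vtx_SS]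
    · have hS : actPt ((S'⁻¹ : SL2Z) : M2) (some (1 : ℚ)) = some (-1) := by
        simp [actPt, mkPt, pn, pd, Matrix.SpecialLinearGroup.coe_inv, ModularGroup.coe_S,
          Matrix.adjugate_fin_two]
      rw [hR, mul_inv_rev, Matrix.SpecialLinearGroup.coe_mul, ← actPt_actPt _ _ (det_sl_ne _), hS,
        ← hc, actPt_actPt _ _ (det_sl_ne _), ← Matrix.SpecialLinearGroup.coe_mul]
      simp

/-- Height of a point. -/
def ht (p : Pt) : ℕ := (pd p).natAbs

/-- Above height one a point has two neighbours of smaller height, themselves adjacent. -/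
theorem exists_parents {v : Pt} (hv : 2 ≤ ht v) :
    ∃ P Q : Pt, Adj P v ∧ Adj P Q ∧ Adj Q v ∧ ht P < ht v ∧ ht Q < ht v ∧
      ∀ u, Adj u v → ht u ≤ ht v → u = P ∨ u = Q := by
  cases v with
  | none => simp [ht, pd] at hv
  | some r =>
    set n := r.num
    set s : ℤ := (r.den : ℤ)
    have hs : 2 ≤ s := by simp [ht, pd] at hv; omega
    have hco : IsCoprime n s := Int.isCoprime_iff_gcd_eq_one.mpr r.reduced
    obtain ⟨x, y, hxy⟩ := hco
    set c := x % s
    set a := -y - n * (x / s)
    have hc : n * c - s * a = 1 := by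
      simp only [c, a, Int.emod_def]; linear_combination hxy
    have hc0 : 0 ≤ c := Int.emod_nonneg _ (by omega)
    have hcs : c < s := Int.emod_lt_of_pos _ (by omega)
    have hc1 : c ≠ 0 := by
      intro h0
      rw [h0] at hc
      have : IsUnit s := IsUnit.of_mul_eq_one (-a) (by linear_combination hc)
      rcases Int.isUnit_iff.mp this with h | h <;> omega
    have mk_eq : ∀ a c : ℤ, 0 < c → IsCoprime a c → pn (mkPt a c) = a ∧ pd (mkPt a c) = c := by
      intro a c hcpos hac
      obtain ⟨l, hl, e1, e2⟩ := exists_scale (Or.inr (ne_of_gt hcpos) : a ≠ 0 ∨ c ≠ 0)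
      have : IsUnit l := hac.isUnit_of_dvd' ⟨_, e1⟩ ⟨_, e2⟩
      have hp : 0 ≤ pd (mkPt a c) := by cases mkPt a c <;> simp [pd]
      rcases Int.isUnit_iff.mp this with rfl | rfl
      · exact ⟨by linarith, by linarith⟩
      · exact absurd e2 (by linarith)
    obtain ⟨hP1, hP2⟩ := mk_eq a c (by omega) ⟨-s, n, by linear_combination hc⟩
    obtain ⟨hQ1, hQ2⟩ := mk_eq (n - a) (s - c) (by omega) ⟨s, -n, by linear_combination hc⟩
    refine ⟨mkPt a c, mkPt (n - a) (s - c), ?_, ?_, ?_, ?_, ?_, fun u hu hle => ?_⟩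
    · right; rw [det2, hP1, hP2, pn_some, pd_some]; linear_combination -hc
    · right; simp only [det2, hP1, hP2, hQ1, hQ2]; linear_combination -hc
    · left; rw [det2, hQ1, hQ2, pn_some, pd_some]; linear_combination hc
    · rw [ht, ht, hP2, pd_some]; omega
    · rw [ht, ht, hQ2, pd_some]; omega
    · have hu' := mkPt_pn_pd u
      set A := pn u
      set C := pd u
      have hC : 0 ≤ C := by simp only [C]; cases u <;> simp [pd]
      have hCs : C ≤ s := by rw [ht, ht, pd_some] at hle; omega
      rw [Adj, det2, pn_some, pd_some] at hu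
      rcases hu with hu | hu
      · -- `A s - C n = 1`
        have h1 : s ∣ n * (C + c) := ⟨A + a, by linear_combination hc - hu⟩
        obtain ⟨k, hk⟩ := (IsCoprime.symm ⟨x, y, hxy⟩).dvd_of_dvd_mul_left h1
        have h2 : A + a = n * k := by
          refine mul_left_cancel₀ (show s ≠ 0 by omega) ?_
          linear_combination hu - hc + n * hk
        have hk1 : k = 1 := by
          have hcpos : 0 < c := by omega
          have : 0 < k := by nlinarith
          have : k < 2 := by nlinarith
          omega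
        subst hk1
        right; rw [← hu', show A = n - a by linarith, show C = s - c by linarith]
      · have h1 : s ∣ n * (C - c) := ⟨A - a, by linear_combination -hc - hu⟩
        obtain ⟨k, hk⟩ := (IsCoprime.symm ⟨x, y, hxy⟩).dvd_of_dvd_mul_left h1
        have h2 : A - a = n * k := by
          refine mul_left_cancel₀ (show s ≠ 0 by omega) ?_
          linear_combination hu + hc + n * hk
        have hk1 : k = 0 := by
          by_contra hne
          rcases lt_or_gt_of_ne hne with hlt | hgt
          · nlinarith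
          · have : k = 1 := by nlinarith
            subst this
            have hC2 : C ≠ s := fun hCeq => by
              rw [hCeq] at hk; omega
            omega
        subst hk1
        left; rw [← hu', show A = a by linarith, show C = c by linarith]

theorem eq_none_of_ht_zero {p : Pt} (h : ht p = 0) : p = none := by
  cases p with
  | none => rfl
  | some r => simp [ht, pd] at h

theorem adj_none_of_ht_one {p : Pt} (h : ht p = 1) : Adj none p := by
  cases p with
  | none => simp [ht, pd] at h
  | some r => left; simp [ht, pd] at h; simp [det2, pn, pd, h]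

variable {A : Type*} [AddCommGroup A]

open Classical in
/-- A potential built by descending along parents. -/
def farPot (d : Pt → Pt → A) (v : Pt) : A :=
  if h : 2 ≤ ht v then farPot d (exists_parents h).choose + d (exists_parents h).choose v
  else if ht v = 1 then d none v else 0
termination_by ht v
decreasing_by exact (exists_parents h).choose_spec.choose_spec.2.2.2.1

theorem farPot_small (d : Pt → Pt → A) {v : Pt} (h : ht v = 1) : farPot d v = d none v := by
  rw [farPot, dif_neg (by omega), if_pos h]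

theorem farPot_none (d : Pt → Pt → A) : farPot d none = 0 := by
  rw [farPot, dif_neg (by simp [ht, pd]), if_neg (by simp [ht, pd])]

/-- Differences on edges with vanishing sums on triangles come from a potential. -/
theorem farPot_spec (d : Pt → Pt → A) (hanti : ∀ a b, Adj a b → d b a = -d a b)
    (htri : ∀ a b c, Adj a b → Adj b c → Adj a c → d a b + d b c + d c a = 0) :
    ∀ a b, Adj a b → farPot d b - farPot d a = d a b := by
  classical
  suffices H : ∀ n v, ht v = n → ∀ u, Adj u v → ht u ≤ n → farPot d v - farPot d u = d u v by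
    intro a b hab
    rcases le_total (ht a) (ht b) with h | h
    · exact H _ b rfl a hab h
    · have := H _ a rfl b hab.symm h
      rw [hanti a b hab] at this
      rw [← neg_sub, this, neg_neg]
  intro n
  induction n using Nat.strong_induction_on with
  | _ n ih =>
    intro v hv u huv hle
    subst hv
    rcases lt_or_ge (ht v) 2 with hsmall | hbig
    · interval_cases hh : ht v
      · obtain rfl := eq_none_of_ht_zero hh
        obtain rfl := eq_none_of_ht_zero (Nat.le_zero.mp hle)
        simp [Adj, det2, pn, pd] at huv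
      · rcases Nat.le_one_iff_eq_zero_or_eq_one.mp hle with h | h
        · obtain rfl := eq_none_of_ht_zero h
          rw [farPot_none, farPot_small d hh, sub_zero]
        · have h1 := adj_none_of_ht_one h
          have h2 := adj_none_of_ht_one hh
          rw [farPot_small d hh, farPot_small d h]
          have := htri none u v h1 huv h2
          rw [hanti _ _ h2] at this
          rw [← sub_eq_zero, ← neg_eq_zero, ← this]
          abel
    · rw [farPot, dif_pos hbig]
      set P := (exists_parents hbig).choose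
      obtain ⟨Q, hPv, hPQ, hQv, hP, hQ, hu⟩ := (exists_parents hbig).choose_spec
      rcases hu u huv hle with rfl | rfl
      · exact add_sub_cancel_left _ _
      · have hedge : farPot d u - farPot d P = d P u := by
          rcases le_total (ht P) (ht u) with h | h
          · exact ih _ hQ u rfl P hPQ h
          · have := ih _ hP P rfl u hPQ.symm h
            rw [hanti _ _ hPQ] at this
            rw [← neg_sub, this, neg_neg]
        have := htri P u v hPQ huv hPv
        rw [hanti _ _ hPv] at this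
        rw [← sub_eq_zero, ← neg_eq_zero, ← this, ← hedge]
        abel

omit [AddCommGroup A] in
/-- A function constant along edges is constant. -/
theorem eq_of_edges {f : Pt → A} (h : ∀ a b, Adj a b → f a = f b) (p : Pt) : f p = f none := by
  induction hn : ht p using Nat.strong_induction_on generalizing p with
  | _ n ih =>
    subst hn
    rcases lt_or_ge (ht p) 2 with hsmall | hbig
    · interval_cases hh : ht p
      · rw [eq_none_of_ht_zero hh]
      · exact (h _ _ (adj_none_of_ht_one hh)).symm
    · obtain ⟨P, Q, hPv, -, -, hP, -⟩ := exists_parents hbig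
      rw [← h _ _ hPv]
      exact ih _ hP P rfl

end FLTAgent.LevelRaise
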