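import Fermat.Agent.LevelMatch.Residual
import Fermat.Agent.LocalEC.VarChange

/-!
An irreducible mod `p` representation of a curve is not congruent to the Eisenstein system.
-/

set_option autoImplicit false
set_option synthInstance.maxHeartbeats 400000

noncomputable section

open scoped Classical WeierstrassCurve.Affine TensorProduct
open WeierstrassCurve WeierstrassCurve.Affine WeierstrassCurve.Affine.Point Polynomial

namespace FLTAgent.LevelRaise

local notation "QQb" => AlgebraicClosure ℚ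
local notation "GG" => (AlgebraicClosure ℚ ≃ₐ[ℚ] AlgebraicClosure ℚ)

variable {k : Type} [Field k] {p : ℕ} [hp : Fact p.Prime]

/-- Diagonal matrices as endomorphisms. -/
def diagEnd (a b : k) : Module.End k (Fin 2 → k) := Matrix.toLinAlgEquiv' (Matrix.diagonal ![a, b])

theorem diagEnd_mul (a b c d : k) : diagEnd a b * diagEnd c d = diagEnd (a * c) (b * d) := by
  rw [diagEnd, diagEnd, diagEnd, ← map_mul, Matrix.diagonal_mul_diagonal]
  congr 2
  ext i
  fin_cases i <;> rfl

theorem diagEnd_one : diagEnd (1 : k) 1 = 1 := by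
  rw [diagEnd, show Matrix.diagonal ![(1 : k), 1] = 1 from ?_, map_one]
  ext i j
  fin_cases i <;> fin_cases j <;> rfl

theorem charpoly_diagEnd (a b : k) :
    LinearMap.charpoly (diagEnd a b) = X ^ 2 - C (a + b) * X + C (a * b) := by
  rw [← LinearMap.charpoly_toMatrix (diagEnd a b) (Pi.basisFun k (Fin 2))]
  rw [LinearMap.toMatrix_eq_toMatrix', diagEnd, show LinearMap.toMatrix'
    (Matrix.toLinAlgEquiv' (Matrix.diagonal ![a, b])) = Matrix.diagonal ![a, b] from
      LinearMap.toMatrix'_toLin' _, Matrix.charpoly_fin_two]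
  simp [Matrix.trace_fin_two, Matrix.det_fin_two]

/-- The split representation with characters `1` and the determinant. -/
def splitRep (ρ : ResidualGaloisRep k) : ResidualGaloisRep k where
  V := Fin 2 → k
  finrank_eq := by simp
  ρ :=
    { toFun := fun σ => diagEnd 1 (LinearMap.det (ρ.ρ σ))
      map_one' := by simp [diagEnd_one]
      map_mul' := fun σ τ => by rw [diagEnd_mul, one_mul, map_mul, map_mul] }
  factorsThroughFiniteLevel := by
    obtain ⟨L, hL, h⟩ := ρ.factorsThroughFiniteLevel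
    exact ⟨L, hL, fun σ hσ => by
      show diagEnd 1 (LinearMap.det (ρ.ρ σ)) = 1
      rw [h σ hσ, map_one, diagEnd_one]⟩

theorem splitRep_not_absolutelyIrreducible (ρ : ResidualGaloisRep k) :
    ¬ (splitRep ρ).IsAbsolutelyIrreducible := by
  intro h
  set K := AlgebraicClosure k
  let R := (splitRep ρ).baseChange K
  let e : R.V := (1 : K) ⊗ₜ[k] (Pi.single 0 1 : Fin 2 → k)
  have hfix : ∀ σ, R.ρ σ e = e := fun σ => by
    show ((diagEnd 1 (LinearMap.det (ρ.ρ σ))).baseChange K) ((1 : K) ⊗ₜ[k] (Pi.single 0 1)) = _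
    rw [LinearMap.baseChange_tmul]
    congr 1
    ext i
    fin_cases i <;> simp [diagEnd, Matrix.toLinAlgEquiv'_apply, Matrix.mulVec, dotProduct]
  have he : e ≠ 0 := by
    intro h0
    have hb := (Module.Basis.baseChange K (Pi.basisFun k (Fin 2))).ne_zero 0
    apply hb
    rw [Module.Basis.baseChange_apply, Pi.basisFun_apply]
    exact h0
  rcases h (K ∙ e) (fun σ x hx => by
    obtain ⟨c, rfl⟩ := Submodule.mem_span_singleton.mp hx
    rw [map_smul, hfix]
    exact Submodule.smul_mem _ c (Submodule.mem_span_singleton_self e)) with hb | ht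
  · exact he (Submodule.span_singleton_eq_bot.mp hb)
  · have h1 := finrank_span_singleton (K := K) he
    rw [ht, finrank_top, R.finrank_eq] at h1
    exact absurd h1 (by norm_num)

/-- Outside any finite set there is a prime where the trace is not Eisenstein. -/
theorem exists_prime_ne_one_add {W : WeierstrassCurve ℤ} (hW : W.Δ ≠ 0) (hp2 : p ≠ 2)
    (hirr : (LevelMatch.resW W hW p).IsIrreducible) (S : Finset ℕ) :
    ∃ r : ℕ, r.Prime ∧ r ∉ S ∧ r ≠ p ∧ W.IsGoodPrimeFor r ∧
      (W.apOfModel r : ZMod p) ≠ 1 + (r : ZMod p) := by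
  by_contra hcon
  push Not at hcon
  set R₀ := LevelMatch.resW W hW p
  have hR := LevelMatch.charpoly_eq_resW hW (RingHom.id (ZMod p)) (splitRep R₀) S
    fun ℓ hℓ hℓS hgood hℓp A hA τ hτ => by
      haveI : Fact ℓ.Prime := ⟨hℓ⟩
      rw [hcon ℓ hℓ hℓS hℓp hgood]
      show LinearMap.charpoly (diagEnd 1 (LinearMap.det (R₀.ρ τ))) = _
      rw [charpoly_diagEnd, show LinearMap.det (R₀.ρ τ) = (ℓ : ZMod p) from
        (FrobTrace.trace_det_frobenius hgood hℓp.symm hA hτ).2, one_mul]
  have h2 : (2 : ZMod p) ≠ 0 := fun h => hp2 (by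
    have h' : ((2 : ℕ) : ZMod p) = 0 := by exact_mod_cast h
    exact ((Nat.prime_dvd_prime_iff_eq hp.out Nat.prime_two).mp
      ((ZMod.natCast_eq_zero_iff 2 p).mp h')))
  have hcc1 : complexConjugation ≠ 1 := fun h1 => by
    obtain ⟨i, hi⟩ := IsAlgClosed.exists_eq_mul_self (-1 : QQb)
    have h2 := complexEmbedding_complexConjugation i
    rw [h1, AlgEquiv.one_apply] at h2
    obtain ⟨x, hx⟩ := Complex.conj_eq_iff_real.mp h2.symm
    have h3 := congrArg complexEmbedding hi
    rw [map_mul, map_neg, map_one, hx] at h3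
    have h4 : ((x * x : ℝ) : ℂ) = ((-1 : ℝ) : ℂ) := by push_cast; exact h3.symm
    linarith [Complex.ofReal_inj.mp h4, mul_self_nonneg x]
  exact splitRep_not_absolutelyIrreducible R₀ (LevelMatch.isAbsolutelyIrreducible_of_charpoly h2 R₀
    hirr complexConjugation complexConjugation_mul_self
    (LevelMatch.det_resW_involution hW hp2 complexConjugation_mul_self hcc1) (RingHom.id _) _ hR)

section Transfer

variable {E : WeierstrassCurve ℚ} [E.IsElliptic] {W : WeierstrassCurve ℤ}

theorem discr_ne_zero_of_model (hM : W.IsIntegralModelOf E) : W.Δ ≠ 0 := by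
  obtain ⟨C, hC⟩ := hM
  intro h0
  have h1 := congrArg WeierstrassCurve.Δ hC
  rw [WeierstrassCurve.variableChange_Δ, WeierstrassCurve.map_Δ, h0, _root_.map_zero] at h1
  exact mul_ne_zero (pow_ne_zero _ (Units.ne_zero _)) E.isUnit_Δ.ne_zero h1

/-- The change of variables over the algebraic closure. -/
def modelChange (C : VariableChange ℚ) (hC : C • E = W.map (Int.castRingHom ℚ)) :
    LocalEC.PointChange (E⁄QQb).toAffine ((W.map (Int.castRingHom ℚ))⁄QQb).toAffine where
  u := algebraMap ℚ QQb C.u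
  r := algebraMap ℚ QQb C.r
  s := algebraMap ℚ QQb C.s
  t := algebraMap ℚ QQb C.t
  hu := (_root_.map_ne_zero _).mpr C.u.ne_zero
  h₁ := by
    rw [← hC]
    show algebraMap ℚ QQb C.u * algebraMap ℚ QQb (C • E).a₁ =
      algebraMap ℚ QQb E.a₁ + 2 * algebraMap ℚ QQb C.s
    rw [← map_ofNat (algebraMap ℚ QQb) 2, ← map_mul, ← map_mul, ← map_add,
      WeierstrassCurve.variableChange_a₁, Units.val_inv_eq_inv_val]
    refine congrArg _ ?_
    field_simp [C.u.ne_zero]
  h₂ := by
    rw [← hC]
    show algebraMap ℚ QQb C.u ^ 2 * algebraMap ℚ QQb (C • E).a₂ =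
      algebraMap ℚ QQb E.a₂ - algebraMap ℚ QQb C.s * algebraMap ℚ QQb E.a₁ +
        3 * algebraMap ℚ QQb C.r - algebraMap ℚ QQb C.s ^ 2
    rw [← map_ofNat (algebraMap ℚ QQb) 3]
    simp only [← map_mul, ← map_add, ← map_sub, ← map_pow]
    rw [WeierstrassCurve.variableChange_a₂, Units.val_inv_eq_inv_val]
    refine congrArg _ ?_
    field_simp [C.u.ne_zero]
  h₃ := by
    rw [← hC]
    show algebraMap ℚ QQb C.u ^ 3 * algebraMap ℚ QQb (C • E).a₃ =
      algebraMap ℚ QQb E.a₃ + algebraMap ℚ QQb C.r * algebraMap ℚ QQb E.a₁ +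
        2 * algebraMap ℚ QQb C.t
    rw [← map_ofNat (algebraMap ℚ QQb) 2]
    simp only [← map_mul, ← map_add, ← map_sub, ← map_pow]
    rw [WeierstrassCurve.variableChange_a₃, Units.val_inv_eq_inv_val]
    refine congrArg _ ?_
    field_simp [C.u.ne_zero]
  h₄ := by
    rw [← hC]
    show algebraMap ℚ QQb C.u ^ 4 * algebraMap ℚ QQb (C • E).a₄ =
      algebraMap ℚ QQb E.a₄ - algebraMap ℚ QQb C.s * algebraMap ℚ QQb E.a₃ +
        2 * algebraMap ℚ QQb C.r * algebraMap ℚ QQb E.a₂ -
        (algebraMap ℚ QQb C.t + algebraMap ℚ QQb C.r * algebraMap ℚ QQb C.s) *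
          algebraMap ℚ QQb E.a₁ +
        3 * algebraMap ℚ QQb C.r ^ 2 - 2 * algebraMap ℚ QQb C.s * algebraMap ℚ QQb C.t
    rw [← map_ofNat (algebraMap ℚ QQb) 2, ← map_ofNat (algebraMap ℚ QQb) 3]
    simp only [← map_mul, ← map_add, ← map_sub, ← map_pow]
    rw [WeierstrassCurve.variableChange_a₄, Units.val_inv_eq_inv_val]
    refine congrArg _ ?_
    field_simp [C.u.ne_zero]
  h₆ := by
    rw [← hC]
    show algebraMap ℚ QQb C.u ^ 6 * algebraMap ℚ QQb (C • E).a₆ =
      algebraMap ℚ QQb E.a₆ + algebraMap ℚ QQb C.r * algebraMap ℚ QQb E.a₄ +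
        algebraMap ℚ QQb C.r ^ 2 * algebraMap ℚ QQb E.a₂ + algebraMap ℚ QQb C.r ^ 3 -
        algebraMap ℚ QQb C.t * algebraMap ℚ QQb E.a₃ - algebraMap ℚ QQb C.t ^ 2 -
        algebraMap ℚ QQb C.r * algebraMap ℚ QQb C.t * algebraMap ℚ QQb E.a₁
    simp only [← map_mul, ← map_add, ← map_sub, ← map_pow]
    rw [WeierstrassCurve.variableChange_a₆, Units.val_inv_eq_inv_val]
    refine congrArg _ ?_
    field_simp [C.u.ne_zero]

theorem pointMap_galois (C : VariableChange ℚ) (hC : C • E = W.map (Int.castRingHom ℚ)) (σ : GG)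
    (P : ((W.map (Int.castRingHom ℚ))⁄QQb).Point) :
    (modelChange C hC).pointMap (σ • P) = σ • (modelChange C hC).pointMap P := by
  rcases P with _ | ⟨x, y, h⟩
  · rfl
  rw [algEquiv_smul_def, algEquiv_smul_def, Point.map_some, (modelChange C hC).pointMap_some,
    (modelChange C hC).pointMap_some, Point.map_some, Point.some.injEq]
  simp [LocalEC.PointChange.X, LocalEC.PointChange.Y, modelChange]

/-- Irreducibility passes to an integral model. -/
theorem resW_irreducible (hM : W.IsIntegralModelOf E)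
    (hirr : GaloisRepIsIrreducible (K := QQb) ℚ E p) :
    (LevelMatch.resW W (discr_ne_zero_of_model hM) p).IsIrreducible := by
  obtain ⟨C, hC⟩ := id hM
  haveI : WeierstrassCurve.IsElliptic (W.map (Int.castRingHom ℚ)) := ⟨by
    rw [WeierstrassCurve.map_Δ]
    exact isUnit_iff_ne_zero.mpr (by simpa using discr_ne_zero_of_model hM)⟩
  set T := Submodule.torsionBy ℤ ((W.map (Int.castRingHom ℚ))⁄QQb).Point p
  set T' := Submodule.torsionBy ℤ (E⁄QQb).Point p
  let f : T →+ T' :=
    AddMonoidHom.mk' (fun P => ⟨(modelChange C hC).pointMap P.1, by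
      rw [Submodule.mem_torsionBy_iff, ← map_zsmul, (Submodule.mem_torsionBy_iff _ _).mp P.2,
        _root_.map_zero]⟩) fun P Q => Subtype.ext (map_add _ _ _)
  have hinj : Function.Injective f := fun P Q h =>
    Subtype.ext ((modelChange C hC).pointMap_injective (congrArg Subtype.val h))
  haveI : Finite T' := Torsion.finite_torsionBy_rat E hp.out.ne_zero
  have hbij : Function.Bijective f := (Nat.bijective_iff_injective_and_card f).mpr ⟨hinj, by
    rw [Torsion.card_torsionBy_rat _ hp.out.ne_zero, Torsion.card_torsionBy_rat E hp.out.ne_zero]⟩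
  let g := f.toZModLinearMap p
  intro N hN
  have hst : IsGaloisStable ℚ (N.map g) := by
    rintro σ _ ⟨P, hP, rfl⟩
    exact ⟨σ • P, hN σ P hP, Subtype.ext (pointMap_galois C hC σ P.1)⟩
  refine (hirr.2 _ hst).imp (fun h => ?_) fun h => ?_
  · exact Submodule.map_injective_of_injective (f := g) hinj (h.trans (Submodule.map_bot g).symm)
  · refine Submodule.map_injective_of_injective (f := g) hinj (h.trans ?_)
    exact ((Submodule.map_top g).trans (LinearMap.range_eq_top.mpr hbij.2)).symm

end Transfer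

end FLTAgent.LevelRaise
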