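import Fermat.Agent.LevelRaise.Eigen
import Fermat.Agent.LevelRaise.NotEisenstein
import Fermat.Prelude.Def_FreyPackage_LevelRaising

/-!
Raising the level at a prime.
-/

set_option autoImplicit false
set_option synthInstance.maxHeartbeats 400000

noncomputable section

open scoped MatrixGroups
open CongruenceSubgroup FLTAgent.PeriodHecke

namespace FLTAgent.LevelRaise

variable {N ℓ : ℕ} [Fact ℓ.Prime] [NeZero N] [NeZero (N * ℓ)] (B : Bez N ℓ)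

theorem heckeU_of_push_eq_zero {A : Type*} [AddCommGroup A] {Φ : Hpar (Gamma0 (N * ℓ)) A}
    (h : push B Φ = 0) :
    (heckeFam (N * ℓ) ℓ).heckePar Φ = -B.op Φ ∧
      (heckeFam (N * ℓ) ℓ).heckePar (B.op Φ) = -Φ := by
  obtain ⟨h1, h2⟩ := Prod.ext_iff.mp h
  simp only [push_apply, Prod.fst_zero, Prod.snd_zero] at h1 h2
  have e1 := B.res_tau_op Φ
  rw [h2, map_zero] at e1
  have e2 := B.res_tau_op (B.op Φ)
  rw [B.op_op, h1, map_zero] at e2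
  exact ⟨eq_neg_of_add_eq_zero_right e1.symm, eq_neg_of_add_eq_zero_right e2.symm⟩

/-- An eigenclass killed by both transfers gives one with `U = ±1`. -/
theorem exists_signed_eigenclass {Φ : Hpar (Gamma0 (N * ℓ)) ℂ} (h0 : Φ ≠ 0) (h : push B Φ = 0)
    (P : Set ℕ) (hP : ∀ r ∈ P, ¬ r ∣ N * ℓ) (b : ℕ → ℂ)
    (hb : ∀ (r : ℕ) [Fact r.Prime], r ∈ P → (heckeFam (N * ℓ) r).hecke Φ.1 = b r • Φ.1) :
    ∃ (Ψ : Hpar (Gamma0 (N * ℓ)) ℂ) (u : ℂ), Ψ ≠ 0 ∧ u ^ 2 = 1 ∧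
      (heckeFam (N * ℓ) ℓ).hecke Ψ.1 = u • Ψ.1 ∧
      ∀ (r : ℕ) [Fact r.Prime], r ∈ P → (heckeFam (N * ℓ) r).hecke Ψ.1 = b r • Ψ.1 := by
  obtain ⟨hU, hUW⟩ := heckeU_of_push_eq_zero B h
  have hW : ∀ (r : ℕ) [Fact r.Prime], r ∈ P →
      (heckeFam (N * ℓ) r).hecke (B.op Φ).1 = b r • (B.op Φ).1 := fun r _ hr => by
    have h1 := congrArg Subtype.val (B.hecke_op (hP r hr) Φ)
    refine h1.trans (AddMonoidHom.ext fun γ => ?_)
    exact DFunLike.congr_fun (hb r hr) (Additive.ofMul (B.c γ.toMul))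
  by_cases hc : Φ + B.op Φ = 0
  · refine ⟨Φ - B.op Φ, 1, fun hd => h0 ?_, one_pow 2, ?_, fun r _ hr => ?_⟩
    · have h2 : (2 : ℕ) • Φ = 0 := by
        rw [two_nsmul]
        calc Φ + Φ = (Φ + B.op Φ) + (Φ - B.op Φ) := by abel
          _ = 0 := by rw [hc, hd, add_zero]
      refine Subtype.ext (AddMonoidHom.ext fun γ => ?_)
      have h3 := DFunLike.congr_fun (congrArg Subtype.val h2) γ
      simpa [two_nsmul, ← two_mul] using h3
    · rw [one_smul]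
      have h4 : (heckeFam (N * ℓ) ℓ).heckePar (Φ - B.op Φ) = Φ - B.op Φ := by
        rw [map_sub, hU, hUW]; abel
      exact congrArg Subtype.val h4
    · rw [AddSubgroup.coe_sub, map_sub, hb r hr, hW r hr, smul_sub]
  · refine ⟨Φ + B.op Φ, -1, hc, neg_one_sq, ?_, fun r _ hr => ?_⟩
    · have h4 : (heckeFam (N * ℓ) ℓ).heckePar (Φ + B.op Φ) = -(Φ + B.op Φ) := by
        rw [map_add, hU, hUW]; abel
      rw [neg_one_smul]
      exact congrArg Subtype.val h4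
    · rw [AddSubgroup.coe_add, map_add, hb r hr, hW r hr, smul_add]

section Residual

variable {p : ℕ} [Fact p.Prime] {f : CuspForm (Gamma0 N) 2}

/-- The integral character of an eigenform. -/
def eigenCharI (hf : f.IsNormalizedEigenform) :
    CuspForm.heckeAlgebra N 2 (∅ : Set ℕ) →+* integralClosure ℤ ℂ where
  toFun t := ⟨CuspForms.eigenChar hf t,
    ((Algebra.IsIntegral.of_finite ℤ (CuspForm.heckeAlgebra N 2 (∅ : Set ℕ))).isIntegral t).map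
      (CuspForms.eigenChar hf).toIntAlgHom⟩
  map_one' := Subtype.ext (map_one _)
  map_mul' s t := Subtype.ext (map_mul _ s t)
  map_zero' := Subtype.ext (map_zero _)
  map_add' s t := Subtype.ext (map_add _ s t)

theorem eigenCharI_heckeGen (hf : f.IsNormalizedEigenform) (r : ℕ) (hr : r.Prime)
    {a : integralClosure ℤ ℂ} (ha : (a : ℂ) = ModularFormClass.qCoeff f r) :
    eigenCharI hf (CuspForms.heckeGen N r hr) = a :=
  Subtype.ext ((CuspForms.eigenChar_heckeGen hf r hr).trans ha.symm)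

theorem quot_eq_of_sub_mem {R S : Type*} [CommRing R] [CommRing S] (χ : R →+* S) {m : Ideal S}
    {x : R} {k : ℤ} (h : χ x - (k : S) ∈ m) : ((Ideal.Quotient.mk m).comp χ) (x - (k : R)) = 0 := by
  rw [RingHom.comp_apply, Ideal.Quotient.eq_zero_iff_mem, map_sub, map_intCast]
  exact h

theorem heckePar_eq_of_killed {φ : Hpar (Gamma0 N) (ZMod p)} {r : ℕ} [Fact r.Prime] {k : ℤ}
    (h : actA N (ZMod p) (CuspForms.heckeGen N r Fact.out - (k : CuspForm.heckeAlgebra N 2 _)) φ = 0) :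
    (heckeFam N r).heckePar φ = k • φ := by
  rw [map_sub] at h
  have h' : actA N (ZMod p) (CuspForms.heckeGen N r Fact.out) φ -
      actA N (ZMod p) (k : CuspForm.heckeAlgebra N 2 _) φ = 0 := h
  rw [sub_eq_zero, actA_heckeGen] at h'
  refine h'.trans ?_
  rw [map_intCast]
  rfl

/-- The classes modulo `p` of the residual eigensystem of a form. -/
theorem exists_residual_class (hf : f.IsNormalizedEigenform) (𝔪 : Ideal (integralClosure ℤ ℂ))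
    [𝔪.IsMaximal] (hpm : (p : integralClosure ℤ ℂ) ∈ 𝔪) :
    ∃ φ : Hpar (Gamma0 N) (ZMod p), φ ≠ 0 ∧ ∀ (r : ℕ) [Fact r.Prime] (k : ℤ),
      (∃ a : integralClosure ℤ ℂ, (a : ℂ) = ModularFormClass.qCoeff f r ∧
        a - (k : integralClosure ℤ ℂ) ∈ 𝔪) → (heckeFam N r).heckePar φ = k • φ := by
  letI := Ideal.Quotient.field 𝔪
  haveI : CharP (integralClosure ℤ ℂ ⧸ 𝔪) p := by
    refine (CharP.charP_iff_prime_eq_zero (Fact.out : p.Prime)).2 ?_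
    rw [← map_natCast (Ideal.Quotient.mk 𝔪)]
    exact Ideal.Quotient.eq_zero_iff_mem.2 hpm
  obtain ⟨φ, hne, hφ⟩ := exists_Hpar_zmod_killed_ker N p
    ((Ideal.Quotient.mk 𝔪).comp (eigenCharI hf))
  refine ⟨φ, hne, fun r _ k ⟨a, ha, hak⟩ => heckePar_eq_of_killed (hφ _ ?_)⟩
  exact quot_eq_of_sub_mem (eigenCharI hf) (by rw [eigenCharI_heckeGen hf r Fact.out ha]; exact hak)

theorem exists_sign (f : CuspForm (Gamma0 N) 2) (𝔪 : Ideal (integralClosure ℤ ℂ)) [𝔪.IsPrime]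
    (hLR : ∃ a : integralClosure ℤ ℂ, (a : ℂ) = ModularFormClass.qCoeff f ℓ ∧
      a ^ 2 - ((ℓ : integralClosure ℤ ℂ) + 1) ^ 2 ∈ 𝔪) :
    ∃ ε : ℤ, ε * ε = 1 ∧ ∃ a : integralClosure ℤ ℂ, (a : ℂ) = ModularFormClass.qCoeff f ℓ ∧
      a - ((ε * (ℓ + 1) : ℤ) : integralClosure ℤ ℂ) ∈ 𝔪 := by
  obtain ⟨a, ha, h⟩ := hLR
  rw [sq_sub_sq] at h
  rcases ‹𝔪.IsPrime›.mem_or_mem h with h | h
  · refine ⟨-1, rfl, a, ha, ?_⟩
    push_cast
    rwa [neg_one_mul, sub_neg_eq_add]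
  · refine ⟨1, rfl, a, ha, ?_⟩
    push_cast
    rwa [one_mul]

include B in
/-- Level raising. -/
theorem exists_newAt_congruent (hℓp : ℓ ≠ p) (hp2 : p ≠ 2) (hf : f.IsNormalizedEigenform)
    (𝔪 : Ideal (integralClosure ℤ ℂ)) [𝔪.IsMaximal] (hpm : (p : integralClosure ℤ ℂ) ∈ 𝔪)
    (P : Set ℕ) (hPp : ∀ r ∈ P, r.Prime) (hP : ∀ r ∈ P, ¬ r ∣ N * ℓ) (a : ℕ → ℤ)
    (hcong : ∀ r ∈ P, ∃ x : integralClosure ℤ ℂ, (x : ℂ) = ModularFormClass.qCoeff f r ∧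
      x - (a r : integralClosure ℤ ℂ) ∈ 𝔪)
    (hLR : ∃ x : integralClosure ℤ ℂ, (x : ℂ) = ModularFormClass.qCoeff f ℓ ∧
      x ^ 2 - ((ℓ : integralClosure ℤ ℂ) + 1) ^ 2 ∈ 𝔪)
    {r₀ : ℕ} (hr₀P : r₀ ∈ P) (hr₀ : (a r₀ : ZMod p) ≠ 1 + (r₀ : ZMod p)) :
    ∃ (g : CuspForm (Gamma0 (N * ℓ)) 2) (𝔪' : Ideal (integralClosure ℤ ℂ)),
      g.IsNormalizedEigenform ∧ 𝔪'.IsMaximal ∧ (p : integralClosure ℤ ℂ) ∈ 𝔪' ∧
      (∀ r ∈ P, ∃ x : integralClosure ℤ ℂ, (x : ℂ) = ModularFormClass.qCoeff g r ∧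
        x - (a r : integralClosure ℤ ℂ) ∈ 𝔪') ∧
      g.IsNewAt ℓ := by
  classical
  haveI := Fact.mk (hPp r₀ hr₀P)
  obtain ⟨φ, hne, hφ⟩ := exists_residual_class (p := p) hf 𝔪 hpm
  obtain ⟨ε, hε, hℓ⟩ := exists_sign f 𝔪 hLR
  obtain ⟨z, hz, hred, heig⟩ := exists_lattice_vector B hp2 hne P hP a
    (fun r _ hr => hφ r (a r) (hcong r hr)) hε (hφ ℓ _ hℓ) hr₀P hr₀
  obtain ⟨Φ, b, 𝔪', hΦ, hpush, h𝔪, hp', hb⟩ := exists_eigenclass B P hPp hP a hz hred heig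
  obtain ⟨Ψ, u, hΨ, hu, hUℓ, hTr⟩ := exists_signed_eigenclass B hΦ hpush P hP (fun r => (b r : ℂ))
    fun r _ hr => (hb r hr).1
  have hℓP : ℓ ∉ P := fun h => hP ℓ h (dvd_mul_left ℓ N)
  obtain ⟨g, hg, hgP⟩ := exists_normalized_of_eigenclass (insert ℓ P)
    (fun r => if r = ℓ then u else (b r : ℂ)) hΨ fun r _ hr => by
      by_cases hrℓ : r = ℓ
      · subst hrℓ
        rw [if_pos rfl]
        exact hUℓ
      · rw [if_neg hrℓ]
        exact hTr r ((Set.mem_insert_iff.mp hr).resolve_left hrℓ)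
  refine ⟨g, 𝔪', hg, h𝔪, hp', fun r hr => ⟨b r, ?_, ?_⟩, ?_⟩
  · rw [hgP r (hPp r hr) (Set.mem_insert_of_mem _ hr), if_neg (fun e : r = ℓ => hℓP (e ▸ hr))]
  · haveI := Fact.mk (hPp r hr)
    exact (hb r hr).2
  · show ModularFormClass.qCoeff g ℓ ^ 2 = 1
    rw [hgP ℓ Fact.out (Set.mem_insert _ _), if_pos rfl]
    exact hu

end Residual

end FLTAgent.LevelRaise
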