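import Fermat.Agent.LevelRaise.Triangles

/-!
The intersection pairing is invariant under matrices of positive determinant normalising `Γ₀(M)`.
-/

set_option autoImplicit false

noncomputable section

open scoped MatrixGroups
open CongruenceSubgroup FLTAgent.PeriodHecke

namespace FLTAgent.LevelRaise

local notation "SL2Z" => Matrix.SpecialLinearGroup (Fin 2) ℤ
local notation "M2" => Matrix (Fin 2) (Fin 2) ℤ
local notation "S'" => (ModularGroup.S : SL2Z)
local notation "T'" => (ModularGroup.T : SL2Z)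
local notation "R'" => ((ModularGroup.S * ModularGroup.T : SL2Z))

section Twist

variable {M₁ M₂ : ℕ} {A B : Type*} [AddCommGroup A] [AddCommGroup B]
  (c : Gamma0 M₁ →* Gamma0 M₂) {W : M2} (hW : W.det ≠ 0)
  (hc : ∀ γ, W * mat γ = mat (c γ) * W)

include hW hc in
theorem trace_conj (γ : Gamma0 M₁) : (mat (c γ)).trace = (mat γ).trace := by
  have h' := congrArg (fun X => (X * Matrix.adjugate W).trace) (hc γ)
  simp only [Matrix.mul_assoc, Matrix.mul_adjugate, Matrix.mul_smul, mul_one, Matrix.trace_smul]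
    at h'
  rw [Matrix.trace_mul_comm, Matrix.mul_assoc, Matrix.adjugate_mul, Matrix.mul_smul, mul_one,
    Matrix.trace_smul] at h'
  exact (mul_left_cancel₀ hW h').symm

/-- Composition with a homomorphism given by conjugation by an integer matrix. -/
def twist : Hpar (Gamma0 M₂) A →+ Hpar (Gamma0 M₁) A where
  toFun φ := ⟨φ.1.comp c.toAdditive, fun γ hγ => φ.2 (c γ) (by
    rw [trace_conj c hW hc]; exact hγ)⟩
  map_zero' := rfl
  map_add' _ _ := rfl

theorem twist_apply (φ : Hpar (Gamma0 M₂) A) (γ : Gamma0 M₁) :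
    (twist c hW hc φ).1 (Additive.ofMul γ) = φ.1 (Additive.ofMul (c γ)) := rfl

theorem twist_mapHpar (f : A →+ B) (φ : Hpar (Gamma0 M₂) A) :
    twist c hW hc (mapHpar f φ) = mapHpar f (twist c hW hc φ) := rfl

end Twist

variable {M : ℕ}

local notation "Γ₀" => Gamma0 M

/-- A function on cusps with the periods of a homomorphism. -/
def IsPeriod (φ : Additive Γ₀ →+ ℚ) (F : Pt → ℚ) : Prop :=
  ∀ (γ : Γ₀) (a : Pt), F (actPt (mat γ) a) = F a - φ (Additive.ofMul γ)

theorem actPt_mat_mul (γ δ : Γ₀) (a : Pt) :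
    actPt (mat γ) (actPt (mat δ) a) = actPt (mat (γ * δ)) a := by
  rw [actPt_actPt _ _ (det_mat_ne δ), mat_mul]

theorem actPt_mat_inv (γ : Γ₀) (a : Pt) : actPt (mat γ⁻¹) (actPt (mat γ) a) = a := by
  rw [actPt_mat_mul, inv_mul_cancel, mat_one, actPt_one]

/-- An element fixing a cusp is parabolic. -/
theorem trace_sq_of_fixed {γ : Γ₀} {a : Pt} (h : actPt (mat γ) a = a) :
    (mat γ).trace ^ 2 ≤ 4 := by
  obtain ⟨l, -, h1, h2⟩ := exists_scale (image_ne (det_mat_ne γ) a)
  have e1 : mat γ 0 0 * pn a + mat γ 0 1 * pd a = l * pn a := by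
    rw [show mkPt _ _ = a from h] at h1; exact h1
  have e2 : mat γ 1 0 * pn a + mat γ 1 1 * pd a = l * pd a := by
    rw [show mkPt _ _ = a from h] at h2; exact h2
  have hd := mat_det γ
  rw [Matrix.det_fin_two] at hd
  have hchar : l * l - (mat γ).trace * l + 1 = 0 := by
    rw [Matrix.trace_fin_two]
    rcases pn_pd_ne a with hne | hne
    · refine (mul_eq_zero.mp (?_ : (l * l - (mat γ 0 0 + mat γ 1 1) * l + 1) * pn a = 0)).resolve_right hne
      linear_combination (mat γ 1 1 - l) * e1 - (mat γ 0 1) * e2 - pn a * hd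
    · refine (mul_eq_zero.mp (?_ : (l * l - (mat γ 0 0 + mat γ 1 1) * l + 1) * pd a = 0)).resolve_right hne
      linear_combination (mat γ 0 0 - l) * e2 - (mat γ 1 0) * e1 - pd a * hd
  have hu : IsUnit l := IsUnit.of_mul_eq_one ((mat γ).trace - l) (by linear_combination -hchar)
  rcases Int.isUnit_iff.mp hu with rfl | rfl
  · rw [show (mat γ).trace = 2 by linarith]; norm_num
  · rw [show (mat γ).trace = -2 by linarith]; norm_num

/-- Periods exist. -/
theorem exists_period (φ : Hpar Γ₀ ℚ) : ∃ F : Pt → ℚ, IsPeriod φ.1 F := by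
  classical
  let rel : Setoid Pt :=
    { r := fun a b => ∃ γ : Γ₀, actPt (mat γ) a = b
      iseqv :=
        { refl := fun a => ⟨1, by rw [mat_one, actPt_one]⟩
          symm := fun ⟨γ, h⟩ => ⟨γ⁻¹, by rw [← h, actPt_mat_inv]⟩
          trans := fun ⟨γ, h⟩ ⟨δ, h'⟩ => ⟨δ * γ, by rw [← actPt_mat_mul, h, h']⟩ } }
  let rep : Pt → Pt := fun a => (Quotient.mk rel a).out
  have hrep : ∀ a, ∃ γ : Γ₀, actPt (mat γ) (rep a) = a := fun a => Quotient.mk_out (s := rel) a
  choose g hg using hrep
  refine ⟨fun a => -φ.1 (Additive.ofMul (g a)), fun γ a => ?_⟩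
  have hr : rep (actPt (mat γ) a) = rep a :=
    congrArg Quotient.out (Quotient.sound (s := rel) ⟨γ⁻¹, actPt_mat_inv γ a⟩)
  have hfix : actPt (mat ((g (actPt (mat γ) a))⁻¹ * (γ * g a))) (rep a) = rep a := by
    rw [← actPt_mat_mul, ← actPt_mat_mul, hg]
    conv_rhs => rw [← hr]
    rw [← actPt_mat_inv (g (actPt (mat γ) a)) (rep (actPt (mat γ) a)), hg]
  have h0 := φ.2 _ (trace_sq_of_fixed hfix)
  rw [ofMul_mul, ofMul_inv, map_add, map_neg, ofMul_mul, map_add] at h0
  show -φ.1 (Additive.ofMul (g (actPt (mat γ) a))) = -φ.1 (Additive.ofMul (g a)) - _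
  linarith

/-- The area form of two period functions. -/
def area (F G : Pt → ℚ) (a b c : Pt) : ℚ :=
  (F b - F a) * (G c - G a) - (F c - F a) * (G b - G a)

theorem isInvCoc_area {φ ψ : Additive Γ₀ →+ ℚ} {F G : Pt → ℚ} (hF : IsPeriod φ F)
    (hG : IsPeriod ψ G) : IsInvCoc M (area F G) where
  coc a b c d := by simp only [area]; ring
  left a b := by simp only [area]; ring
  right a b := by simp only [area]; ring
  outer a b := by simp only [area]; ring
  swap a b c := by simp only [area]; ring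
  inv γ a b c := by simp only [area, hF γ, hG γ]; ring

/-- The values of a period function at the vertices, in terms of the cocycle. -/
theorem period_vtx {φ : Additive Γ₀ →+ ℚ} {F : Pt → ℚ} (hF : IsPeriod φ F) (k : SL2Z)
    (x : Cos M) :
    F (vtx (k * x.out)) = F (vtx (k • x).out) + cosetCoc φ k x := by
  let δ : Γ₀ := ⟨_, ES.cocycle_mem k x⟩
  have e : k * x.out = 1 * ((k • x).out * (δ : SL2Z)) := by simp [δ, mul_assoc]
  rw [e, vtx_coset, hF, one_mul, ofMul_inv, map_neg, sub_neg_eq_add]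
  rfl

variable [NeZero M]

theorem total_area {φ ψ : Hpar Γ₀ ℚ} {F G : Pt → ℚ} (hF : IsPeriod φ.1 F)
    (hG : IsPeriod ψ.1 G) : total M (area F G) = -6 * pair φ ψ := by
  classical
  obtain ⟨f, hf, hf'⟩ := isData_datum φ
  obtain ⟨g, hg, hg'⟩ := isData_datum ψ
  set h := datum φ
  set k := datum ψ
  set Q : Cos M → ℚ := fun x => F (vtx x.out)
  set Q' : Cos M → ℚ := fun x => G (vtx x.out)
  have hpot : ∀ (χ : Hpar Γ₀ ℚ) (F : Pt → ℚ) (f h : Cos M → ℚ), IsPeriod χ.1 F →
      (∀ x, cosetCoc χ.1 S' x = f x - f (S' • x)) →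
      (∀ x, cosetCoc χ.1 R' x = (f + h) x - (f + h) (R' • x)) →
      IsPot (fun x => f x - F (vtx x.out)) h := by
    intro χ F f h hF hf hg x
    have h0 := period_vtx hF T' x
    rw [vtx_T] at h0
    have h1 := cosetCoc_mul χ.1 S' T' x
    rw [hf, hg] at h1
    simp only [Pi.add_apply, ← R_smul] at h1
    linear_combination -h1 + h0
  have hP := hpot φ F f h hF hf hf'
  have hP' := hpot ψ G g k hG hg hg'
  rw [pair_eq ⟨f, hf, hf'⟩ hP ⟨g, hg, hg'⟩]
  set P : Cos M → ℚ := fun x => f x - F (vtx x.out)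
  set P' : Cos M → ℚ := fun x => g x - G (vtx x.out)
  set U : Cos M → ℚ := fun x => P x + h x
  set V : Cos M → ℚ := fun x => P' x + k x
  have hRRR : ∀ x : Cos M, R' • R' • R' • x = x := fun x => by
    rw [smul_smul, smul_smul, show R' * R' * R' = -1 from by decide, neg_smul_cos]
  have hdiff : ∀ (χ : Hpar Γ₀ ℚ) (F : Pt → ℚ) (f h : Cos M → ℚ), IsPeriod χ.1 F →
      (∀ x, cosetCoc χ.1 R' x = (f + h) x - (f + h) (R' • x)) → ∀ x : Cos M,
      F (vtx (R' * x.out)) - F (vtx x.out) =
          (f x - F (vtx x.out) + h x) - (f (R' • x) - F (vtx (R' • x).out) + h (R' • x)) ∧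
        F (vtx (R' * (R' * x.out))) - F (vtx x.out) = (f x - F (vtx x.out) + h x) -
          (f (R' • R' • x) - F (vtx (R' • R' • x).out) + h (R' • R' • x)) := by
    intro χ F f h hF hg x
    constructor
    · rw [period_vtx hF R' x, hg]; simp only [Pi.add_apply]; ring
    · rw [← mul_assoc, period_vtx hF (R' * R') x, cosetCoc_mul, hg, hg, mul_smul]
      simp only [Pi.add_apply]; ring
  have htri : ∀ x, triVal (area F G) x = (U x - U (R' • x)) * (V x - V (R' • R' • x)) -
      (U x - U (R' • R' • x)) * (V x - V (R' • x)) := fun x => by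
    simp only [triVal, area, (hdiff φ F f h hF hf' x).1, (hdiff φ F f h hF hf' x).2,
      (hdiff ψ G g k hG hg' x).1, (hdiff ψ G g k hG hg' x).2]
    rfl
  have hs : ∀ A B : Cos M → ℚ, ∑ x, A (R' • x) * B (R' • x) = ∑ x, A x * B x :=
    fun A B => sum_smul_cos R' (fun x => A x * B x)
  set a := ∑ x, U x * V (R' • x) with ha
  set b := ∑ x, U x * V (R' • R' • x) with hb
  have t1 : ∑ x, U (R' • x) * V x = b := by
    rw [hb, ← hs U (fun y => V (R' • R' • y))]; simp only [hRRR]
  have t2 : ∑ x, U (R' • x) * V (R' • R' • x) = a := hs U (fun y => V (R' • y))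
  have t3 : ∑ x, U (R' • R' • x) * V x = a := by
    rw [ha, ← hs U (fun y => V (R' • y)), ← hs (fun y => U (R' • y)) (fun y => V (R' • R' • y))]
    simp only [hRRR]
  have t4 : ∑ x, U (R' • R' • x) * V (R' • x) = b := by
    rw [hs (fun y => U (R' • y)) V, t1]
  have t5 : ∑ x, U (R' • x) * V (R' • x) = ∑ x, U x * V x := hs U V
  have htotal : total M (area F G) = 3 * a - 3 * b := by
    simp only [total, htri, sub_mul, mul_sub, Finset.sum_sub_distrib, t1, t2, t3, t4, ← ha, ← hb]
    ring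
  -- the pairing
  set d : Cos M → ℚ := fun y => P y - P (S' • y)
  have hdT : ∀ x, d (T' • x) = U x - U (R' • x) := fun x => by
    simp only [d, U, ← R_smul]; linear_combination hP x
  have hdR : ∀ x, d (R' • x) = -(U x - U (R' • x)) := fun x => by
    rw [← hdT]; simp only [d, R_smul, S_smul_S_smul]; ring
  have eV : ∀ x, P' (T' • x) - P' (R' • x) = V x - V (R' • x) := fun x => by
    simp only [V]; linear_combination hP' x
  have f1 : pairVal P k = ∑ x, d (R' • x) * V (R' • x) - ∑ y, d y * P' y := by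
    rw [← sum_smul_cos R' (fun y => d y * P' y), ← Finset.sum_sub_distrib, pairVal,
      ← sum_smul_cos R' (fun y => (P y - P (S' • y)) * k y)]
    exact Finset.sum_congr rfl fun x _ => by simp only [d, V]; ring
  have f2 : 2 * ∑ y, d y * P' y = ∑ x, (U x - U (R' • x)) * (V x - V (R' • x)) := by
    have a1 := sum_smul_cos T' (fun y => d y * P' y)
    have a2 := sum_smul_cos R' (fun y => d y * P' y)
    simp only [hdT] at a1
    simp only [hdR, neg_mul, Finset.sum_neg_distrib] at a2
    simp only [← eV, mul_sub, Finset.sum_sub_distrib]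
    linarith
  simp only [hdR] at f1
  simp only [sub_mul, mul_sub, neg_mul, Finset.sum_sub_distrib, Finset.sum_neg_distrib,
    t1, t5, ← ha] at f1 f2
  rw [htotal]
  linarith

/-- Invariance, rational coefficients. -/
theorem pair_twist_rat (c : Γ₀ →* Γ₀) {W : M2} (hW : 0 < W.det)
    (hc : ∀ γ, W * mat γ = mat (c γ) * W) (φ ψ : Hpar Γ₀ ℚ) :
    pair (twist c hW.ne' hc φ) (twist c hW.ne' hc ψ) = pair φ ψ := by
  obtain ⟨F, hF⟩ := exists_period φ
  obtain ⟨G, hG⟩ := exists_period ψ
  have hper : ∀ (χ : Hpar Γ₀ ℚ) (F : Pt → ℚ), IsPeriod χ.1 F →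
      IsPeriod (twist c hW.ne' hc χ).1 (fun a => F (actPt W a)) := fun χ F hF γ a => by
    show F (actPt W (actPt (mat γ) a)) = _
    rw [actPt_actPt _ _ (det_mat_ne γ), hc, ← actPt_actPt _ _ hW.ne', hF]
    rfl
  have h1 := total_area (hper φ F hF) (hper ψ G hG)
  have h2 := total_area hF hG
  have h3 := total_comp c hW hc (isInvCoc_area hF hG)
  have h4 : (fun a b d => area F G (actPt W a) (actPt W b) (actPt W d)) =
      area (fun a => F (actPt W a)) (fun a => G (actPt W a)) := rfl
  rw [h4, h1, h2] at h3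
  linarith

/-- Invariance, integer coefficients. -/
theorem pair_twist_int (c : Γ₀ →* Γ₀) {W : M2} (hW : 0 < W.det)
    (hc : ∀ γ, W * mat γ = mat (c γ) * W) (φ ψ : Hpar Γ₀ ℤ) :
    pair (twist c hW.ne' hc φ) (twist c hW.ne' hc ψ) = pair φ ψ := by
  let ι : ℤ →+* ℚ := Int.castRingHom ℚ
  refine Int.cast_injective (α := ℚ) ?_
  have h := pair_twist_rat c hW hc (mapHpar ι.toAddMonoidHom φ) (mapHpar ι.toAddMonoidHom ψ)
  rwa [twist_mapHpar, twist_mapHpar, pair_map, pair_map] at h

variable {A : Type*} [CommRing A]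

/-- Scaling an integral homomorphism. -/
def scalePar (φ : Hpar Γ₀ ℤ) (a : A) : Hpar Γ₀ A :=
  mapHpar ((AddMonoidHom.mulRight a).comp (Int.castAddHom A)) φ

omit [NeZero M] in
theorem coe_scalePar (φ : Hpar Γ₀ ℤ) (a : A) :
    (scalePar φ a).1 = ((AddMonoidHom.mulRight a).comp (Int.castAddHom A)).comp φ.1 := rfl

theorem exists_sum_scalePar (φ : Hpar Γ₀ A) :
    ∃ a : Cos M → A, φ = ∑ x, scalePar (basicHom M x) (a x) := by
  obtain ⟨a, ha⟩ := exists_coeff M φ.2
  refine ⟨a, Subtype.ext (ha.trans ?_)⟩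
  rw [AddSubgroup.val_finsetSum]
  refine Finset.sum_congr (by ext; simp) fun x _ => AddMonoidHom.ext fun γ => ?_
  simp [scalePar, scaleHom]

theorem pair_scalePar (φ ψ : Hpar Γ₀ ℤ) (a b : A) :
    pair (scalePar φ a) (scalePar ψ b) = a * b * (pair φ ψ : ℤ) := by
  have hd : ∀ (χ : Hpar Γ₀ ℤ) (r : A) (h : Cos M → ℤ), IsData χ.1 h →
      IsData (scalePar χ r).1 (r • fun x => (h x : A)) := fun χ r h hh => by
    have := hh.map ((AddMonoidHom.mulRight r).comp (Int.castAddHom A))
    rw [coe_scalePar]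
    convert this using 1
    funext x
    simp [mul_comm]
  rw [pair_eq (P := a • fun x => ((potential φ x : ℤ) : A)) (hd φ a _ (isData_datum φ)) ?_
    (hd ψ b _ (isData_datum ψ)), pairVal_smul_left, pairVal_smul_right]
  · rw [show (fun x => ((potential φ x : ℤ) : A)) = Int.castRingHom A ∘ potential φ from rfl,
      show (fun x => ((datum ψ x : ℤ) : A)) = Int.castRingHom A ∘ datum ψ from rfl, pairVal_map]
    simp [pair, mul_assoc]
  · intro x
    simp only [Pi.smul_apply, smul_eq_mul, ← mul_sub, ← Int.cast_sub, isPot_potential φ x]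

/-- The pairing is invariant under matrices of positive determinant normalising the group. -/
theorem pair_twist (c : Γ₀ →* Γ₀) {W : M2} (hW : 0 < W.det)
    (hc : ∀ γ, W * mat γ = mat (c γ) * W) (φ ψ : Hpar Γ₀ A) :
    pair (twist c hW.ne' hc φ) (twist c hW.ne' hc ψ) = pair φ ψ := by
  obtain ⟨a, rfl⟩ := exists_sum_scalePar φ
  obtain ⟨b, rfl⟩ := exists_sum_scalePar ψ
  simp only [← pairHom_apply, map_sum, AddMonoidHom.finsetSum_apply]
  refine Finset.sum_congr rfl fun x _ => Finset.sum_congr rfl fun y _ => ?_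
  simp only [pairHom_apply, scalePar, twist_mapHpar]
  rw [← scalePar, ← scalePar, pair_scalePar, pair_twist_int c hW hc]
  exact (pair_scalePar _ _ _ _).symm

end FLTAgent.LevelRaise
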