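import Fermat.Agent.LevelRaise.Mennicke

/-!
A compatible pair is invariant under all of `SL₂(ℚ)` on deep congruence subgroups, and its symbol
is invariant under squares.
-/

set_option autoImplicit false

noncomputable section

open scoped MatrixGroups
open CongruenceSubgroup FLTAgent.PeriodHecke

namespace FLTAgent.LevelRaise

local notation "SL2Z" => Matrix.SpecialLinearGroup (Fin 2) ℤ
local notation "SLQ" => Matrix.SpecialLinearGroup (Fin 2) ℚ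

/-- Conjugation by a fixed rational matrix preserves congruence subgroups up to deepening. -/
theorem conj_cong (g : SLQ) {K : ℕ} (hK : K ≠ 0) :
    ∃ K' : ℕ, K' ≠ 0 ∧ K ∣ K' ∧ ∀ γ, Cg K' γ → ∃ γ', Cg K γ' ∧ g * ιQ γ * g⁻¹ = ιQ γ' := by
  set s : ℕ := (g 0 0).den * (g 0 1).den * (g 1 0).den * (g 1 1).den with hs
  have hs0 : s ≠ 0 := by positivity
  have hint : ∀ i j, ∃ z : ℤ, (s : ℚ) * g i j = z := by
    intro i j
    obtain ⟨k, hk⟩ : (g i j).den ∣ s := by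
      rw [hs]; fin_cases i <;> fin_cases j
      · exact dvd_mul_of_dvd_left (dvd_mul_of_dvd_left (dvd_mul_right _ _) _) _
      · exact dvd_mul_of_dvd_left (dvd_mul_of_dvd_left (dvd_mul_left _ _) _) _
      · exact dvd_mul_of_dvd_left (dvd_mul_left _ _) _
      · exact dvd_mul_left _ _
    refine ⟨(g i j).num * k, ?_⟩
    have := Rat.mul_den_eq_num (g i j)
    rw [hk]; push_cast; linear_combination (k : ℚ) * this
  choose G hG using hint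
  refine ⟨K * s ^ 2, Nat.mul_ne_zero hK (pow_ne_zero _ hs0), dvd_mul_right _ _, fun γ hγ => ?_⟩
  obtain ⟨⟨ea, hea⟩, ⟨eb, heb⟩, ⟨ec, hec⟩, ⟨ed, hed⟩⟩ := hγ
  push_cast at hea heb hec hed
  set A : ℤ := (G 0 0 * ea + G 0 1 * ec) * G 1 1 - (G 0 0 * eb + G 0 1 * ed) * G 1 0
  set B : ℤ := -(G 0 0 * ea + G 0 1 * ec) * G 0 1 + (G 0 0 * eb + G 0 1 * ed) * G 0 0
  set C : ℤ := (G 1 0 * ea + G 1 1 * ec) * G 1 1 - (G 1 0 * eb + G 1 1 * ed) * G 1 0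
  set D : ℤ := -(G 1 0 * ea + G 1 1 * ec) * G 0 1 + (G 1 0 * eb + G 1 1 * ed) * G 0 0
  obtain ⟨i00, i01, i10, i11⟩ := slq_inv g
  have hd := g.2
  rw [Matrix.det_fin_two] at hd
  have hea' := congrArg (fun z : ℤ => (z : ℚ)) hea
  have heb' := congrArg (fun z : ℤ => (z : ℚ)) heb
  have hec' := congrArg (fun z : ℤ => (z : ℚ)) hec
  have hed' := congrArg (fun z : ℤ => (z : ℚ)) hed
  push_cast at hea' heb' hec' hed'
  set h := g * ιQ γ * g⁻¹ with hh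
  have key : h 0 0 = ((1 + K * A : ℤ) : ℚ) ∧ h 0 1 = ((K * B : ℤ) : ℚ) ∧
      h 1 0 = ((K * C : ℤ) : ℚ) ∧ h 1 1 = ((1 + K * D : ℤ) : ℚ) := by
    rw [sub_eq_iff_eq_add] at hea' hed'
    simp only [hh, slq_mul, ιQ_apply, i00, i01, i10, i11, A, B, C, D, hea', heb', hec', hed']
    push_cast
    simp only [← hG]
    refine ⟨?_, ?_, ?_, ?_⟩
    · linear_combination hd
    · ring
    · ring
    · linear_combination hd
  obtain ⟨k00, k01, k10, k11⟩ := key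
  have hdet : (1 + K * A) * (1 + K * D) - (K * B) * (K * C) = 1 := by
    apply Int.cast_injective (α := ℚ)
    have := h.2
    rw [Matrix.det_fin_two, k00, k01, k10, k11] at this
    push_cast at this ⊢
    linear_combination this
  obtain ⟨γ', g00, g01, g10, g11⟩ : ∃ γ' : SL2Z, γ' 0 0 = 1 + K * A ∧ γ' 0 1 = K * B ∧
      γ' 1 0 = K * C ∧ γ' 1 1 = 1 + K * D :=
    ⟨⟨!![1 + K * A, K * B; K * C, 1 + K * D], by rw [Matrix.det_fin_two_of]; exact hdet⟩,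
      rfl, rfl, rfl, rfl⟩
  refine ⟨γ', ⟨?_, ?_, ?_, ?_⟩, slq_ext ?_ ?_ ?_ ?_⟩
  · simp [g00]
  · simp [g01]
  · simp [g10]
  · simp [g11]
  · rw [ιQ_apply, g00, k00]
  · rw [ιQ_apply, g01, k01]
  · rw [ιQ_apply, g10, k10]
  · rw [ιQ_apply, g11, k11]

/-- Killing the congruence subgroup and unipotents kills `Γ₁`. -/
theorem eq_zero_of_generators {A : Type*} [AddCommGroup A] {K M : ℕ} (hKM : K ∣ M) (hM : M ≠ 0)
    (f : SL2Z → A) (hmul : ∀ γ δ : SL2Z, (K : ℤ) ∣ γ 1 0 → (K : ℤ) ∣ γ 1 1 - 1 → (K : ℤ) ∣ δ 1 0 →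
      (K : ℤ) ∣ δ 1 1 - 1 → f (γ * δ) = f γ + f δ)
    (hU : ∀ x, f (Uz x) = 0) (hL : ∀ x, (K : ℤ) ∣ x → f (Lz x) = 0)
    (hC : ∀ γ, Cg M γ → f γ = 0) {γ : SL2Z} (hc : (K : ℤ) ∣ γ 1 0) (hd : (K : ℤ) ∣ γ 1 1 - 1) :
    f γ = 0 := by
  have hKM' : (K : ℤ) ∣ (M : ℤ) := Int.natCast_dvd_natCast.mpr hKM
  have hclosed : ∀ γ δ : SL2Z, (K : ℤ) ∣ γ 1 0 → (K : ℤ) ∣ γ 1 1 - 1 → (K : ℤ) ∣ δ 1 0 →
      (K : ℤ) ∣ δ 1 1 - 1 → (K : ℤ) ∣ (γ * δ) 1 0 ∧ (K : ℤ) ∣ (γ * δ) 1 1 - 1 := by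
    intro γ δ h1 h2 h3 h4
    rw [sl2_mul, sl2_mul]
    refine ⟨dvd_add (h1.mul_right _) (h3.mul_left _), ?_⟩
    rw [show γ 1 0 * δ 0 1 + γ 1 1 * δ 1 1 - 1 =
      γ 1 0 * δ 0 1 + ((γ 1 1 - 1) * δ 1 1 + (δ 1 1 - 1)) by ring]
    exact dvd_add (h1.mul_right _) (dvd_add (h2.mul_right _) h4)
  -- make the upper left entry a unit modulo `M`
  have hco : IsCoprime (γ 0 0) (γ 0 1 * (K : ℤ)) := by
    have h := sl2_det γ
    obtain ⟨c, hc'⟩ := hc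
    refine IsCoprime.mul_right ⟨γ 1 1, -γ 1 0, by linear_combination h⟩
      ⟨γ 1 1, -(γ 0 1 * c), by rw [hc'] at h; linear_combination h⟩
  obtain ⟨j, hj⟩ : ∃ j : ℤ, IsCoprime (γ 0 0 + γ 0 1 * K * j) (M : ℤ) := by
    by_cases hz : γ 0 1 * (K : ℤ) = 0
    · rw [hz, isCoprime_zero_right, Int.isUnit_iff] at hco
      refine ⟨0, ?_⟩
      rcases hco with h | h <;> simp [h, isCoprime_one_left, IsCoprime.neg_left]
    · set B := (γ 0 1 * (K : ℤ)).natAbs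
      obtain ⟨a, ha, hap, haeq⟩ := exists_prime_class (B := B) (Int.natAbs_ne_zero.mpr hz)
        (x := γ 0 0) (by
          rw [Int.natCast_natAbs]
          rcases abs_choice (γ 0 1 * (K : ℤ)) with h | h <;> rw [h]
          · exact hco
          · exact hco.neg_right) M
      obtain ⟨j, hj⟩ := (Int.dvd_natAbs_self).trans haeq
      refine ⟨j, ?_⟩
      rw [show γ 0 0 + γ 0 1 * K * j = (a : ℤ) by linear_combination -hj,
        Int.isCoprime_iff_gcd_eq_one]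
      exact (hap.coprime_iff_not_dvd.mpr fun h => by
        have := Nat.le_of_dvd (Nat.pos_of_ne_zero hM) h; omega)
  set γ₁ := γ * Lz (K * j)
  have hL1 : (K : ℤ) ∣ (Lz (K * j)) 1 0 ∧ (K : ℤ) ∣ (Lz (K * j)) 1 1 - 1 := ⟨by simp, by simp⟩
  have hγ₁ := hclosed γ (Lz (K * j)) hc hd hL1.1 hL1.2
  have h00 : γ₁ 0 0 = γ 0 0 + γ 0 1 * K * j := by rw [sl2_mul]; simp; ring
  obtain ⟨v, w, hvw⟩ := hj
  -- `v` inverts the entry modulo `M`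
  have hv : (K : ℤ) ∣ v - 1 := by
    have h1 : (K : ℤ) ∣ γ₁ 0 0 - 1 := by
      have h := sl2_det γ₁
      have : γ₁ 0 0 - 1 = -(γ₁ 0 0 * (γ₁ 1 1 - 1)) + γ₁ 0 1 * γ₁ 1 0 := by linear_combination h
      rw [this]
      exact dvd_add (hγ₁.2.mul_left _).neg_right (hγ₁.1.mul_left _)
    rw [show v - 1 = -(v * (γ₁ 0 0 - 1)) - w * M by rw [h00]; linear_combination hvw]
    exact dvd_sub (h1.mul_left _).neg_right (hKM'.mul_left _)
  set a := γ₁ 0 0 with ha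
  rw [← h00] at hvw
  set y := v - 1
  set P := Lz (-(y * v)) * Uz (-a) * Lz y * Uz 1
  set γ₂ := Lz (-(γ₁ 1 0 * v)) * γ₁ * Uz (-(γ₁ 0 1 * v))
  set R := γ₂ * P⁻¹
  have hM0 : (v : ZMod M) * (a : ZMod M) = 1 := by
    have := congrArg (fun z : ℤ => (z : ZMod M)) hvw
    simpa using this
  have hdetM : (γ₁ 0 0 : ZMod M) * γ₁ 1 1 - γ₁ 0 1 * γ₁ 1 0 = 1 := by
    have := congrArg (fun z : ℤ => (z : ZMod M)) (sl2_det γ₁)
    simpa using this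
  have hred : (Matrix.SpecialLinearGroup.map (Int.castRingHom (ZMod M))) γ₂ =
      Matrix.SpecialLinearGroup.map (Int.castRingHom (ZMod M)) P := by
    apply Subtype.ext
    ext i j
    fin_cases i <;> fin_cases j <;>
      simp [γ₂, P, y, ← ha, Matrix.SpecialLinearGroup.coe_mul, Matrix.mul_apply, Fin.sum_univ_two]
    · linear_combination hM0
    · linear_combination (1 - (γ₁ 0 1 : ZMod M)) * hM0
    · linear_combination (-(γ₁ 1 0 : ZMod M) - ((v : ZMod M) - 1) ^ 2) * hM0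
    · linear_combination (v : ZMod M) * hdetM + ((γ₁ 1 0 : ZMod M) * (γ₁ 0 1 : ZMod M) * v -
        (γ₁ 1 1 : ZMod M) - (v : ZMod M) * ((v : ZMod M) - 1)) * hM0
  have hR : Cg M R := by
    have e : Matrix.SpecialLinearGroup.map (Int.castRingHom (ZMod M)) R = 1 := by
      rw [map_mul, map_inv, hred, mul_inv_cancel]
    have h : ∀ i j, ((R i j : ℤ) : ZMod M) = (1 : Matrix (Fin 2) (Fin 2) (ZMod M)) i j :=
      fun i j => congrArg (fun g : Matrix.SpecialLinearGroup (Fin 2) (ZMod M) => g i j) e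
    refine ⟨?_, ?_, ?_, ?_⟩ <;> rw [← ZMod.intCast_zmod_eq_zero_iff_dvd] <;> push_cast
    · rw [h]; simp
    · rw [h]; simp
    · rw [h]; simp
    · rw [h]; simp
  have hl : ∀ x, (K : ℤ) ∣ x → (K : ℤ) ∣ (Lz x) 1 0 ∧ (K : ℤ) ∣ (Lz x) 1 1 - 1 := fun x hx =>
    ⟨by simpa using hx, by simp⟩
  have hu : ∀ x, (K : ℤ) ∣ (Uz x) 1 0 ∧ (K : ℤ) ∣ (Uz x) 1 1 - 1 := fun x => ⟨by simp, by simp⟩
  have hy' : (K : ℤ) ∣ -(y * v) := (hv.mul_right _).neg_right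
  have hc1 : (K : ℤ) ∣ -(γ₁ 1 0 * v) := (hγ₁.1.mul_right _).neg_right
  have hP1 := hclosed _ _ (hl _ hy').1 (hl _ hy').2 (hu (-a)).1 (hu (-a)).2
  have hP2 := hclosed _ _ hP1.1 hP1.2 (hl _ hv).1 (hl _ hv).2
  have hP3 := hclosed _ _ hP2.1 hP2.2 (hu 1).1 (hu 1).2
  have hP : f P = 0 := by
    rw [show P = Lz (-(y * v)) * Uz (-a) * Lz y * Uz 1 from rfl,
      hmul _ _ hP2.1 hP2.2 (hu 1).1 (hu 1).2, hmul _ _ hP1.1 hP1.2 (hl _ hv).1 (hl _ hv).2,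
      hmul _ _ (hl _ hy').1 (hl _ hy').2 (hu _).1 (hu _).2, hL _ hy', hL _ hv, hU, hU]
    simp
  have hR1 : (K : ℤ) ∣ R 1 0 ∧ (K : ℤ) ∣ R 1 1 - 1 := ⟨hKM'.trans hR.2.2.1, hKM'.trans hR.2.2.2⟩
  have h2 : f γ₂ = 0 := by
    rw [show γ₂ = R * P by simp [R], hmul _ _ hR1.1 hR1.2 hP3.1 hP3.2, hC R hR, hP, add_zero]
  have hcl := hclosed _ _ (hl _ hc1).1 (hl _ hc1).2 hγ₁.1 hγ₁.2
  rw [show γ₂ = Lz (-(γ₁ 1 0 * v)) * γ₁ * Uz (-(γ₁ 0 1 * v)) from rfl,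
    hmul _ _ hcl.1 hcl.2 (hu _).1 (hu _).2, hmul _ _ (hl _ hc1).1 (hl _ hc1).2 hγ₁.1 hγ₁.2,
    hL _ hc1, hU, zero_add, add_zero,
    hmul _ _ hc hd hL1.1 hL1.2, hL _ (dvd_mul_right _ _), add_zero] at h2
  exact h2

namespace CompatPair

variable {N q p : ℕ} [Fact q.Prime] [NeZero N] (P : CompatPair N q p) (hqN : ¬ q ∣ N)

/-- Invariance under a rational matrix on a deep congruence subgroup. -/
def InvAt (g : SLQ) : Prop :=
  ∃ K : ℕ, K ≠ 0 ∧ N ∣ K ∧ ∀ γ, Cg K γ →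
    g * ιQ γ * g⁻¹ ∈ P.grp hqN ∧ P.Phi hqN (g * ιQ γ * g⁻¹) = P.Phi hqN (ιQ γ)

theorem Cg_mem {K : ℕ} (hNK : N ∣ K) {γ : SL2Z} (h : Cg K γ) : ιQ γ ∈ P.grp hqN :=
  P.ιQ_mem hqN ((Int.natCast_dvd_natCast.mpr hNK).trans h.2.2.1)

theorem invAt_of_mem {g : SLQ} (hg : g ∈ P.grp hqN) : P.InvAt hqN g :=
  ⟨N, NeZero.ne N, dvd_rfl, fun γ hγ =>
    ⟨mul_mem (mul_mem hg (P.Cg_mem hqN dvd_rfl hγ)) (inv_mem hg),
      P.Phi_conj hqN hg (P.Cg_mem hqN dvd_rfl hγ)⟩⟩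

theorem InvAt.mul {g h : SLQ} (hg : P.InvAt hqN g) (hh : P.InvAt hqN h) : P.InvAt hqN (g * h) := by
  obtain ⟨K₁, hK₁, hN₁, H₁⟩ := hg
  obtain ⟨K₂, hK₂, hN₂, H₂⟩ := hh
  obtain ⟨K', hK', hd', H'⟩ := conj_cong h (Nat.mul_ne_zero hK₁ hK₂)
  refine ⟨K', hK', hN₁.trans ((dvd_mul_right _ _).trans hd'), fun γ hγ => ?_⟩
  obtain ⟨γ', hγ', he⟩ := H' γ hγ
  have e : g * h * ιQ γ * (g * h)⁻¹ = g * ιQ γ' * g⁻¹ := by rw [← he]; group
  obtain ⟨m, hm⟩ := H₁ γ' (hγ'.mono (dvd_mul_right _ _))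
  obtain ⟨m', hm'⟩ := H₂ γ (hγ.mono ((dvd_mul_left _ _).trans hd'))
  rw [e]
  refine ⟨m, hm.trans ?_⟩
  rw [← he, hm']

theorem InvAt.inv {g : SLQ} (hg : P.InvAt hqN g) : P.InvAt hqN g⁻¹ := by
  obtain ⟨K, hK, hN, H⟩ := hg
  obtain ⟨K', hK', hd', H'⟩ := conj_cong g⁻¹ hK
  refine ⟨K', hK', hN.trans hd', fun γ hγ => ?_⟩
  obtain ⟨γ', hγ', he⟩ := H' γ hγ
  obtain ⟨m, hm⟩ := H γ' hγ'
  have e : g * ιQ γ' * g⁻¹ = ιQ γ := by rw [← he]; group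
  rw [e] at hm
  rw [he]
  exact ⟨P.Cg_mem hqN hN hγ', hm.symm⟩

variable [Fact p.Prime]

theorem invAt_Ur (x : ℚ) : P.InvAt hqN (Ur x) := by
  set s : ℕ := x.den * (q ^ 2 - 1) * 2 with hs_def
  have hq2 : (1 : ℕ) < q ^ 2 := Nat.one_lt_pow two_ne_zero (Fact.out : q.Prime).one_lt
  have hs : s ≠ 0 := Nat.mul_ne_zero (Nat.mul_ne_zero x.den_nz (by omega)) two_ne_zero
  have h2 : 2 ≤ N * s ^ 2 := by
    have h4 : 2 ≤ s := by
      have : 1 ≤ x.den * (q ^ 2 - 1) := Nat.one_le_iff_ne_zero.mpr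
        (Nat.mul_ne_zero x.den_nz (by omega))
      omega
    have : 1 ≤ N := Nat.one_le_iff_ne_zero.mpr (NeZero.ne N)
    nlinarith
  set y : ℚ := x / ((q : ℚ) ^ 2 - 1) with hy_def
  have hq2' : (q : ℚ) ^ 2 - 1 ≠ 0 := by
    have : (1 : ℚ) < (q : ℚ) ^ 2 := by exact_mod_cast hq2
    linarith
  have hsy : InR q ((s : ℚ) * y) := by
    rw [show (s : ℚ) * y = ((x.num * 2 : ℤ) : ℚ) by
      rw [hs_def, hy_def]
      push_cast [Nat.cast_sub hq2.le]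
      have := Rat.mul_den_eq_num x
      field_simp
      linear_combination this]
    exact InR.int _
  set K := N * s ^ 2
  obtain ⟨K', hK', hd', H'⟩ := conj_cong (Ur (-y)) (K := K)
    (Nat.mul_ne_zero (NeZero.ne N) (pow_ne_zero _ hs))
  refine ⟨K', hK', (dvd_mul_right _ _).trans hd', fun γ hγ => ?_⟩
  obtain ⟨γ', hγ', he⟩ := H' γ hγ
  have hy' : InR q ((s : ℚ) * (y * (q : ℚ) ^ (2 : ℤ))) := by
    rw [← mul_assoc]; exact hsy.mul (InR.zpow (Fact.out : q.Prime).ne_zero _)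
  have hxy : y * (q : ℚ) ^ (2 : ℤ) = x + y := by
    rw [hy_def, zpow_ofNat]; field_simp; ring
  have e1 : conjU (y * (q : ℚ) ^ (2 : ℤ)) γ' = Ur x * ιQ γ * (Ur x)⁻¹ := by
    rw [hxy, conjU, ← he, Ur_add, ← Ur_inv]; group
  have e2 : conjU y γ' = ιQ γ := by rw [conjU, ← he, ← Ur_inv]; group
  have := P.xi_invariant hqN hs h2 hγ'.lev hsy
  rw [xi, xi, e1, e2] at this
  exact ⟨e1 ▸ P.conjU_mem hqN hs hy' hγ'.lev, this⟩

theorem invAt_Lr (x : ℚ) : P.InvAt hqN (Lr x) := by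
  have hN : (N : ℚ) ≠ 0 := Nat.cast_ne_zero.mpr (NeZero.ne N)
  set J := Ur (-(1 / (N : ℚ))) * Lr N * Ur (-(1 / (N : ℚ)))
  have hL : P.InvAt hqN (Lr N) := by
    refine P.invAt_of_mem hqN ?_
    simpa using (P.Lr_mem_and hqN (y := 1) InR.one).1
  have hJ : P.InvAt hqN J :=
    ((P.invAt_Ur hqN _).mul P hqN hL).mul P hqN (P.invAt_Ur hqN _)
  have e : Lr x = J * Ur (-x / (N : ℚ) ^ 2) * J⁻¹ := by
    rw [eq_mul_inv_iff_mul_eq]
    refine slq_ext ?_ ?_ ?_ ?_ <;> simp [slq_mul, J] <;> field_simp <;> ring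
  rw [e]
  exact (hJ.mul P hqN (P.invAt_Ur hqN _)).mul P hqN (hJ.inv P hqN)

theorem invAt_Dr (t : ℚˣ) : P.InvAt hqN (Dr t) := by
  have ht := t.ne_zero
  have e : Dr t = Ur t * Lr (-(1 / (t : ℚ))) * Ur t * (Ur 1 * Lr (-1) * Ur 1)⁻¹ := by
    rw [eq_mul_inv_iff_mul_eq]
    refine slq_ext ?_ ?_ ?_ ?_ <;> simp [slq_mul] <;> field_simp
  have hU := P.invAt_Ur hqN
  have hL := P.invAt_Lr hqN
  rw [e]
  exact (((hU _).mul P hqN (hL _)).mul P hqN (hU _)).mul P hqN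
    ((((hU _).mul P hqN (hL _)).mul P hqN (hU _)).inv P hqN)

omit [Fact q.Prime] [Fact p.Prime] [NeZero N] in
theorem pow_lower {K : ℕ} {γ : SL2Z} (hc : (K : ℤ) ∣ γ 1 0) (n : ℕ) :
    (K : ℤ) ∣ (γ ^ n) 1 0 ∧ (K : ℤ) ∣ (γ ^ n) 1 1 - γ 1 1 ^ n := by
  induction n with
  | zero => simp
  | succ n ih =>
    rw [pow_succ γ, sl2_mul, sl2_mul]
    refine ⟨dvd_add (ih.1.mul_right _) (hc.mul_left _), ?_⟩
    rw [show (γ ^ n) 1 0 * γ 0 1 + (γ ^ n) 1 1 * γ 1 1 - γ 1 1 ^ (n + 1) =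
      (γ ^ n) 1 0 * γ 0 1 + ((γ ^ n) 1 1 - γ 1 1 ^ n) * γ 1 1 by ring]
    exact dvd_add (ih.1.mul_right _) (ih.2.mul_right _)

/-- The symbol does not change when the lower left entry is divided by the square of a prime. -/
theorem symbol_div_sq {t : ℕ} (ht : t.Prime) (htN : ¬ t ∣ N) (htp : ¬ p ∣ t) (ht1 : ¬ p ∣ t - 1)
    {γ γ' : SL2Z} (hd : (N : ℤ) ∣ γ 1 1 - 1) (hN : (N : ℤ) ∣ γ' 1 0)
    (h00 : γ' 0 0 = γ 0 0) (h01 : γ' 0 1 = γ 0 1 * (t : ℤ) ^ 2)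
    (h10 : γ 1 0 = (t : ℤ) ^ 2 * γ' 1 0) (h11 : γ' 1 1 = γ 1 1) :
    P.Phi hqN (ιQ γ) = P.Phi hqN (ιQ γ') := by
  classical
  set tu : ℚˣ := Units.mk0 (t : ℚ) (Nat.cast_ne_zero.mpr ht.ne_zero)
  set K : ℕ := N * t ^ 2
  let Dom : SL2Z → Prop := fun δ => (N : ℤ) ∣ δ 1 1 - 1 ∧ (K : ℤ) ∣ δ 1 0
  let f : SL2Z → ZMod p := fun δ =>
    P.Phi hqN (ιQ δ) - P.Phi hqN (Dr tu * ιQ δ * (Dr tu)⁻¹)
  have ht0 : (t : ℚ) ≠ 0 := Nat.cast_ne_zero.mpr ht.ne_zero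
  have hNK : (N : ℤ) ∣ (K : ℤ) := Int.natCast_dvd_natCast.mpr (dvd_mul_right _ _)
  have hmem : ∀ δ : SL2Z, (K : ℤ) ∣ δ 1 0 →
      ιQ δ ∈ P.grp hqN ∧ Dr tu * ιQ δ * (Dr tu)⁻¹ ∈ P.grp hqN := by
    intro δ hδ
    refine ⟨P.ιQ_mem hqN (hNK.trans hδ), ?_⟩
    obtain ⟨c, hc⟩ := hδ
    have hdet := sl2_det δ
    set δ' : SL2Z := ⟨!![δ 0 0, δ 0 1 * (t : ℤ) ^ 2; N * c, δ 1 1], by
      rw [Matrix.det_fin_two_of]
      rw [hc] at hdet
      simp only [K] at hdet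
      push_cast at hdet
      linear_combination hdet⟩
    have e : Dr tu * ιQ δ * (Dr tu)⁻¹ = ιQ δ' := by
      rw [mul_inv_eq_iff_eq_mul]
      refine slq_ext ?_ ?_ ?_ ?_ <;> simp only [slq_mul, ιQ_apply] <;>
        simp [δ', tu, hc, K] <;> field_simp
    rw [e]
    exact P.ιQ_mem hqN (by simp [δ'])
  have hmul : ∀ δ ε : SL2Z, (K : ℤ) ∣ δ 1 0 → (K : ℤ) ∣ ε 1 0 → f (δ * ε) = f δ + f ε := by
    intro δ ε h1 h2
    obtain ⟨a, b⟩ := hmem δ h1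
    obtain ⟨c, d⟩ := hmem ε h2
    simp only [f, map_mul]
    rw [show Dr tu * (ιQ δ * ιQ ε) * (Dr tu)⁻¹ =
        (Dr tu * ιQ δ * (Dr tu)⁻¹) * (Dr tu * ιQ ε * (Dr tu)⁻¹) by group,
      P.Phi_mul hqN a c, P.Phi_mul hqN b d]
    ring
  obtain ⟨M, hM, hNM, hMinv⟩ := P.invAt_Dr hqN tu
  have hzero : ∀ δ : SL2Z, (K : ℤ) ∣ δ 1 0 → (K : ℤ) ∣ δ 1 1 - 1 → f δ = 0 := by
    intro δ h1 h2
    refine eq_zero_of_generators (K := K) (M := K * M) (dvd_mul_right _ _)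
      (Nat.mul_ne_zero (Nat.mul_ne_zero (NeZero.ne N) (pow_ne_zero _ ht.ne_zero)) hM) f
      (fun a b h1 _ h3 _ => hmul a b h1 h3) ?_ ?_ ?_ h1 h2
    · intro x
      simp only [f, ιQ_Uz, Dr_conj_Ur]
      rw [(P.Ur_mem_and hqN (InR.int x)).2,
        (P.Ur_mem_and hqN (y := (tu : ℚ) ^ 2 * x) (by
          have h := InR.int (q := q) ((t : ℤ) ^ 2 * x)
          push_cast at h
          simpa [tu] using h)).2, sub_zero]
    · intro x hx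
      obtain ⟨m, hm⟩ := hx
      simp only [f, ιQ_Lz, Dr_conj_Lr]
      have e1 : (x : ℚ) = (N : ℚ) * ((t ^ 2 * m : ℤ) : ℚ) := by
        rw [hm]; simp only [K]; push_cast; ring
      have e2 : (x : ℚ) / (tu : ℚ) ^ 2 = (N : ℚ) * (m : ℚ) := by
        rw [e1]; simp [tu]; field_simp
      rw [e2, e1, (P.Lr_mem_and hqN (InR.int _)).2, (P.Lr_mem_and hqN (InR.int m)).2, sub_zero]
    · intro δ hδ
      simp only [f, (hMinv δ (hδ.mono (dvd_mul_left _ _))).2, sub_self]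
  have hKγ : (K : ℤ) ∣ γ 1 0 := by
    rw [h10]; simp only [K]; push_cast
    rw [mul_comm (N : ℤ)]
    exact mul_dvd_mul_left _ hN
  -- a power of `γ` lies in the smaller group
  set n := t * (t - 1)
  have htN' : IsCoprime (N : ℤ) ((t : ℤ) ^ 2) := by
    refine IsCoprime.pow_right (Int.isCoprime_iff_gcd_eq_one.mpr ?_)
    exact (Nat.Coprime.symm ((Nat.Prime.coprime_iff_not_dvd ht).mpr htN))
  have hdn : (K : ℤ) ∣ γ 1 1 ^ n - 1 := by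
    simp only [K]
    push_cast
    refine htN'.mul_dvd ?_ ?_
    · simpa using hd.trans (sub_dvd_pow_sub_pow (γ 1 1) 1 n) |>.trans (by simp)
    · haveI : NeZero (t ^ 2) := ⟨pow_ne_zero _ ht.ne_zero⟩
      have hu : IsUnit ((γ 1 1 : ℤ) : ZMod (t ^ 2)) := by
        have hdet := congrArg (fun z : ℤ => (z : ZMod (t ^ 2))) (sl2_det γ)
        have h0 : ((γ 1 0 : ℤ) : ZMod (t ^ 2)) = 0 := by
          rw [h10]
          push_cast
          rw [show ((t : ZMod (t ^ 2)) ^ 2) = 0 by rw [← Nat.cast_pow]; exact ZMod.natCast_self _,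
            zero_mul]
        simp only [Int.cast_sub, Int.cast_mul, h0, mul_zero, sub_zero, Int.cast_one] at hdet
        exact IsUnit.of_mul_eq_one _ (by rw [mul_comm]; exact hdet)
      have h1 := ZMod.pow_totient hu.unit
      rw [Nat.totient_prime_pow ht two_pos] at h1
      have h2 := congrArg Units.val h1
      rw [Units.val_pow_eq_pow_val, IsUnit.unit_spec, Units.val_one] at h2
      rw [show ((t : ℤ) ^ 2) = ((t ^ 2 : ℕ) : ℤ) by push_cast; ring,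
        ← ZMod.intCast_zmod_eq_zero_iff_dvd]
      push_cast
      rw [sub_eq_zero, ← h2]
      congr 1
      simp [n]
  have hfpow : ∀ m : ℕ, f (γ ^ m) = m * f γ := by
    intro m
    induction m with
    | zero =>
      simp only [f, pow_zero, map_one, mul_one, mul_inv_cancel, sub_self, Nat.cast_zero, zero_mul]
    | succ m ih => rw [pow_succ, hmul _ _ (pow_lower hKγ m).1 hKγ, ih]; push_cast; ring
  have hfn := hfpow n
  obtain ⟨p1, p2⟩ := pow_lower (K := K) hKγ n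
  rw [hzero _ p1 (by simpa using dvd_add p2 hdn)] at hfn
  have hn0 : ((n : ℕ) : ZMod p) ≠ 0 := by
    rw [Ne, ZMod.natCast_eq_zero_iff]
    exact fun h => ((Fact.out : p.Prime).dvd_mul.mp h).elim htp ht1
  have h0 := (mul_eq_zero.mp hfn.symm).resolve_left hn0
  have e : Dr tu * ιQ γ * (Dr tu)⁻¹ = ιQ γ' := by
    rw [mul_inv_eq_iff_eq_mul]
    refine slq_ext ?_ ?_ ?_ ?_ <;> simp only [slq_mul, ιQ_apply] <;>
      simp [tu, h00, h01, h10, h11] <;> field_simp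
  simp only [f, e, sub_eq_zero] at h0
  exact h0

end CompatPair

end FLTAgent.LevelRaise
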