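import Fermat.Agent.LevelRaise.RationalGroup

/-!
Invariance of a compatible pair under all rational unipotent and diagonal matrices, on deep
congruence subgroups (after Serre's proof of centrality).
-/

set_option autoImplicit false

noncomputable section

open scoped MatrixGroups
open CongruenceSubgroup FLTAgent.PeriodHecke

namespace FLTAgent.LevelRaise

local notation "SL2Z" => Matrix.SpecialLinearGroup (Fin 2) ℤ
local notation "SLQ" => Matrix.SpecialLinearGroup (Fin 2) ℚ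

theorem sl2_mul (g h : SL2Z) (i j : Fin 2) :
    (g * h) i j = g i 0 * h 0 j + g i 1 * h 1 j := by
  simp [Matrix.SpecialLinearGroup.coe_mul, Matrix.mul_apply, Fin.sum_univ_two]

theorem sl2_det (g : SL2Z) : g 0 0 * g 1 1 - g 0 1 * g 1 0 = 1 := by
  have := g.2
  rwa [Matrix.det_fin_two] at this

/-- Integral upper unipotent matrix. -/
def Uz (x : ℤ) : SL2Z := ⟨!![1, x; 0, 1], by simp [Matrix.det_fin_two_of]⟩

/-- Integral lower unipotent matrix. -/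
def Lz (x : ℤ) : SL2Z := ⟨!![1, 0; x, 1], by simp [Matrix.det_fin_two_of]⟩

@[simp] theorem Uz_apply (x : ℤ) : (Uz x).1 = !![1, x; 0, 1] := rfl
@[simp] theorem Lz_apply (x : ℤ) : (Lz x).1 = !![1, 0; x, 1] := rfl

theorem ιQ_Uz (x : ℤ) : ιQ (Uz x) = Ur x := by
  refine slq_ext ?_ ?_ ?_ ?_ <;> rw [ιQ_apply] <;> simp

theorem ιQ_Lz (x : ℤ) : ιQ (Lz x) = Lr x := by
  refine slq_ext ?_ ?_ ?_ ?_ <;> rw [ιQ_apply] <;> simp

theorem Lr_pow (x : ℚ) (n : ℕ) : Lr x ^ n = Lr (n * x) := by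
  induction n with
  | zero => simp [Lr_zero]
  | succ n ih => rw [pow_succ, ih, ← Lr_add]; congr 1; push_cast; ring

/-- Scalar modulo `K`. -/
def Lev (K : ℕ) (γ : SL2Z) : Prop :=
  (K : ℤ) ∣ γ 0 1 ∧ (K : ℤ) ∣ γ 1 0 ∧ (K : ℤ) ∣ γ 1 1 - γ 0 0

/-- Congruent to one modulo `K`. -/
def Cg (K : ℕ) (γ : SL2Z) : Prop :=
  (K : ℤ) ∣ γ 0 0 - 1 ∧ (K : ℤ) ∣ γ 0 1 ∧ (K : ℤ) ∣ γ 1 0 ∧ (K : ℤ) ∣ γ 1 1 - 1

theorem Cg.lev {K : ℕ} {γ : SL2Z} (h : Cg K γ) : Lev K γ :=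
  ⟨h.2.1, h.2.2.1, by simpa using dvd_sub h.2.2.2 h.1⟩

theorem Cg.mono {K K' : ℕ} (hKK : K ∣ K') {γ : SL2Z} (h : Cg K' γ) : Cg K γ := by
  have : (K : ℤ) ∣ (K' : ℤ) := Int.natCast_dvd_natCast.mpr hKK
  exact ⟨this.trans h.1, this.trans h.2.1, this.trans h.2.2.1, this.trans h.2.2.2⟩

theorem Lev.mul {K : ℕ} {γ δ : SL2Z} (hγ : Lev K γ) (hδ : Lev K δ) : Lev K (γ * δ) := by
  obtain ⟨⟨b, hb⟩, ⟨c, hc⟩, ⟨e, he⟩⟩ := hγ
  obtain ⟨⟨b', hb'⟩, ⟨c', hc'⟩, ⟨e', he'⟩⟩ := hδ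
  refine ⟨⟨γ 0 0 * b' + b * δ 1 1, by rw [sl2_mul, hb', hb]; ring⟩,
    ⟨c * δ 0 0 + γ 1 1 * c', by rw [sl2_mul, hc, hc']; ring⟩, ⟨c * K * b' + e * δ 1 1 + γ 0 0 * e' - b * (K * c'), ?_⟩⟩
  simp only [sl2_mul, hb, hb', hc, hc', eq_add_of_sub_eq he, eq_add_of_sub_eq he']
  ring

theorem Lev.neg {K : ℕ} {γ : SL2Z} (h : Lev K γ) : Lev K (-γ) := by
  obtain ⟨h1, h2, h3⟩ := h
  refine ⟨?_, ?_, ?_⟩ <;> simp only [Matrix.SpecialLinearGroup.coe_neg, Matrix.neg_apply]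
  · exact h1.neg_right
  · exact h2.neg_right
  · rw [show -γ 1 1 - -γ 0 0 = -(γ 1 1 - γ 0 0) by ring]; exact h3.neg_right

theorem Lev.Uz {K : ℕ} {x : ℤ} (hx : (K : ℤ) ∣ x) : Lev K (Uz x) :=
  ⟨by simpa using hx, by simp, by simp⟩

theorem Lev.Lz {K : ℕ} {x : ℤ} (hx : (K : ℤ) ∣ x) : Lev K (Lz x) :=
  ⟨by simp, by simpa using hx, by simp⟩

/-- Primes in a progression avoiding a given residue structure. -/
theorem exists_prime_class {B : ℕ} (hB : B ≠ 0) {x : ℤ} (hx : IsCoprime x (B : ℤ)) (bound : ℕ) :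
    ∃ a : ℕ, bound < a ∧ a.Prime ∧ (B : ℤ) ∣ (a : ℤ) - x := by
  haveI : NeZero B := ⟨hB⟩
  have hu : IsUnit ((x : ℤ) : ZMod B) := by
    obtain ⟨u, v, huv⟩ := hx
    refine IsUnit.of_mul_eq_one (u : ZMod B) ?_
    have := congrArg (fun z : ℤ => (z : ZMod B)) huv
    simp only [Int.cast_add, Int.cast_mul, Int.cast_natCast, ZMod.natCast_self, mul_zero, add_zero,
      Int.cast_one] at this
    rw [mul_comm]; exact this
  obtain ⟨a, ha, hprime, haeq⟩ := Nat.forall_exists_prime_gt_and_eq_mod hu bound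
  refine ⟨a, ha, hprime, ?_⟩
  rw [← ZMod.intCast_zmod_eq_zero_iff_dvd, Int.cast_sub, Int.cast_natCast, haeq, sub_self]

/-- In every class up to sign there are primes `a` with `(a - 1) / 2` prime to a given prime. -/
theorem exists_prime_half {B : ℕ} (hB : B ≠ 0) {a₀ : ℤ} (ha₀ : IsCoprime a₀ (B : ℤ)) {r : ℕ}
    (hr : r.Prime) (bound : ℕ) :
    ∃ a : ℕ, bound < a ∧ a.Prime ∧ ((B : ℤ) ∣ (a : ℤ) - a₀ ∨ (B : ℤ) ∣ (a : ℤ) + a₀) ∧
      ¬ (r : ℤ) ∣ ((a - 1) / 2 : ℕ) := by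
  have hZ : Prime (r : ℤ) := Nat.prime_iff_prime_int.mp hr
  rcases hr.eq_two_or_odd' with rfl | hodd
  · -- `a ≡ 3 (mod 4)`
    suffices ∃ (M : ℕ) (x : ℤ), M ≠ 0 ∧ IsCoprime x (M : ℤ) ∧ B ∣ M ∧ 4 ∣ M ∧ x % 4 = 3 ∧
        ((B : ℤ) ∣ x - a₀ ∨ (B : ℤ) ∣ x + a₀) by
      obtain ⟨M, x, hM, hx, hBM, h4, hx4, hsgn⟩ := this
      obtain ⟨a, ha, hap, hax⟩ := exists_prime_class hM hx (max bound 2)
      refine ⟨a, lt_of_le_of_lt (le_max_left _ _) ha, hap, ?_, ?_⟩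
      · have hb : (B : ℤ) ∣ (a : ℤ) - x := (Int.natCast_dvd_natCast.mpr hBM).trans hax
        rcases hsgn with h | h
        · left; simpa using dvd_add hb h
        · right
          have := dvd_add hb h
          rwa [show (a : ℤ) - x + (x + a₀) = a + a₀ by ring] at this
      · have h4' : (4 : ℤ) ∣ (a : ℤ) - x := (Int.natCast_dvd_natCast.mpr h4).trans hax
        omega
    have hcop2 : ∀ x : ℤ, x % 2 = 1 → IsCoprime x 4 := fun x hx => by
      rw [show (4 : ℤ) = 2 ^ 2 by norm_num]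
      exact IsCoprime.pow_right ((Int.prime_two.coprime_iff_not_dvd).mpr (by omega)).symm
    by_cases h2 : (2 : ℤ) ∣ (B : ℤ)
    · have ha2 : a₀ % 2 = 1 := by
        have : ¬ (2 : ℤ) ∣ a₀ := fun h => Int.prime_two.not_isUnit (ha₀.isUnit_of_dvd' h h2)
        omega
      by_cases h4 : (4 : ℤ) ∣ (B : ℤ)
      · refine ⟨B, if a₀ % 4 = 3 then a₀ else -a₀, hB, ?_, dvd_rfl, by exact_mod_cast h4, ?_, ?_⟩
        · split <;> [exact ha₀; exact ha₀.neg_left]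
        · split <;> omega
        · split <;> [left; right] <;> simp
      · refine ⟨2 * B, if a₀ % 4 = 3 then a₀ else a₀ + B, by omega, ?_, dvd_mul_left _ _, by omega,
          by split <;> omega, ?_⟩
        · push_cast
          refine IsCoprime.mul_right ?_ ?_
          · refine ((Int.prime_two.coprime_iff_not_dvd).mpr ?_).symm
            split <;> omega
          · split
            · exact ha₀
            · simpa using ha₀.add_mul_right_left 1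
        · left; split <;> simp
    · obtain ⟨u, v, huv⟩ := (hcop2 (B : ℤ) (by omega)).symm
      -- `u * 4 + v * B = 1`
      refine ⟨4 * B, a₀ + B * (v * (3 - a₀)), by omega, ?_, dvd_mul_left _ _, dvd_mul_right _ _,
        ?_, Or.inl ⟨v * (3 - a₀), by ring⟩⟩
      · push_cast
        refine IsCoprime.mul_right (hcop2 _ ?_) (by simpa [mul_comm] using ha₀.add_mul_left_left (v * (3 - a₀)))
        have : a₀ + B * (v * (3 - a₀)) = 3 + 4 * (u * (a₀ - 3)) := by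
          linear_combination (3 - a₀) * huv
        omega
      · have : a₀ + B * (v * (3 - a₀)) = 3 + 4 * (u * (a₀ - 3)) := by
          linear_combination (3 - a₀) * huv
        omega
  · -- `a ≢ 1 (mod r)`
    suffices ∃ (M : ℕ) (x : ℤ), M ≠ 0 ∧ IsCoprime x (M : ℤ) ∧ B ∣ M ∧ r ∣ M ∧ ¬ (r : ℤ) ∣ x - 1 ∧
        ((B : ℤ) ∣ x - a₀ ∨ (B : ℤ) ∣ x + a₀) by
      obtain ⟨M, x, hM, hx, hBM, hrM, hxr, hsgn⟩ := this
      obtain ⟨a, ha, hap, hax⟩ := exists_prime_class hM hx (max bound 2)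
      refine ⟨a, lt_of_le_of_lt (le_max_left _ _) ha, hap, ?_, ?_⟩
      · have hb : (B : ℤ) ∣ (a : ℤ) - x := (Int.natCast_dvd_natCast.mpr hBM).trans hax
        rcases hsgn with h | h
        · left; simpa using dvd_add hb h
        · right
          have := dvd_add hb h
          rwa [show (a : ℤ) - x + (x + a₀) = a + a₀ by ring] at this
      · intro hdvd
        apply hxr
        have h1 : (r : ℤ) ∣ (a : ℤ) - x := (Int.natCast_dvd_natCast.mpr hrM).trans hax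
        have hodd' : a % 2 = 1 := by
          rcases hap.eq_two_or_odd with h | h
          · omega
          · exact h
        have h2 : (r : ℤ) ∣ (a : ℤ) - 1 := by
          have e : (a : ℤ) - 1 = ((a - 1) / 2 : ℕ) * 2 := by omega
          rw [e]; exact hdvd.mul_right 2
        simpa using dvd_sub h2 h1
    have hr2 : ¬ (r : ℤ) ∣ 2 := by
      intro h
      have := Nat.le_of_dvd two_pos (by exact_mod_cast h : r ∣ 2)
      have := hr.two_le
      obtain ⟨k, hk⟩ := hodd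
      omega
    by_cases hrB : r ∣ B
    · by_cases h1 : (r : ℤ) ∣ a₀ - 1
      · refine ⟨B, -a₀, hB, ha₀.neg_left, dvd_rfl, hrB, fun h => hr2 ?_, Or.inr (by simp)⟩
        have := dvd_add h1 h
        simpa using this.neg_right
      · exact ⟨B, a₀, hB, ha₀, dvd_rfl, hrB, h1, Or.inl (by simp)⟩
    · have hrB' : ¬ (r : ℤ) ∣ (B : ℤ) := fun h => hrB (by exact_mod_cast h)
      obtain ⟨u, v, huv⟩ := (hZ.coprime_iff_not_dvd.mpr hrB')
      -- `u * r + v * B = 1`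
      have e : a₀ + B * (v * (-1 - a₀)) = -1 + (r : ℤ) * (u * (a₀ + 1)) := by
        linear_combination (-1 - a₀) * huv
      refine ⟨r * B, a₀ + B * (v * (-1 - a₀)), Nat.mul_ne_zero hr.ne_zero hB, ?_, dvd_mul_left _ _,
        dvd_mul_right _ _, fun h => hr2 ?_, Or.inl ⟨v * (-1 - a₀), by ring⟩⟩
      · push_cast
        refine IsCoprime.mul_right ?_ (by simpa [mul_comm] using ha₀.add_mul_left_left (v * (-1 - a₀)))
        rw [e]
        exact ⟨-1, u * (a₀ + 1), by ring⟩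
      · rw [e] at h
        have h' : (r : ℤ) ∣ (r : ℤ) * (u * (a₀ + 1)) := dvd_mul_right _ _
        have := dvd_sub h' h
        rwa [show (r : ℤ) * (u * (a₀ + 1)) - (-1 + r * (u * (a₀ + 1)) - 1) = 2 by ring] at this

namespace CompatPair

variable {N q p : ℕ} [Fact q.Prime] [NeZero N] (P : CompatPair N q p) (hqN : ¬ q ∣ N)

omit [Fact q.Prime] [NeZero N] in
theorem exists_gamma0 {γ : SL2Z} (h : (N : ℤ) ∣ γ 1 0) : ∃ δ : Gamma0 N, (δ : SL2Z) = γ :=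
  ⟨⟨γ, Gamma0_mem.mpr ((ZMod.intCast_zmod_eq_zero_iff_dvd _ _).mpr h)⟩, rfl⟩

theorem ιQ_mem {γ : SL2Z} (h : (N : ℤ) ∣ γ 1 0) : ιQ γ ∈ P.grp hqN := by
  obtain ⟨δ, rfl⟩ := exists_gamma0 h
  exact P.gamma0_mem hqN δ

theorem Phi_parabolic {γ : SL2Z} (h : (N : ℤ) ∣ γ 1 0)
    (ht : (γ.1).trace ^ 2 ≤ 4) : P.Phi hqN (ιQ γ) = 0 := by
  obtain ⟨δ, rfl⟩ := exists_gamma0 h
  rw [Phi_gamma0]
  exact P.φ.2 δ ht

theorem neg_one_mem : ιQ (-1) ∈ P.grp hqN ∧ P.Phi hqN (ιQ (-1)) = 0 :=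
  ⟨P.ιQ_mem hqN (by simp), P.Phi_parabolic hqN (by simp) (by
    simp [Matrix.trace_fin_two])⟩

/-- The conjugate by a rational unipotent. -/
def conjU (y : ℚ) (γ : SL2Z) : SLQ := Ur y * ιQ γ * (Ur y)⁻¹

variable {s : ℕ}

theorem conjU_mem (hs : s ≠ 0) {y : ℚ} (hy : InR q ((s : ℚ) * y)) {γ : SL2Z}
    (hγ : Lev (N * s ^ 2) γ) : conjU y γ ∈ P.grp hqN := by
  obtain ⟨⟨b, hb⟩, ⟨c, hc⟩, ⟨e, he⟩⟩ := hγ
  push_cast at hb hc he
  have hN : (N : ℚ) ≠ 0 := Nat.cast_ne_zero.mpr (NeZero.ne N)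
  have hcQ := congrArg (fun z : ℤ => (z : ℚ)) hc
  have heQ := congrArg (fun z : ℤ => (z : ℚ)) he
  push_cast at hcQ heQ
  have hi : ∀ z : ℤ, InR q (z : ℚ) := InR.int
  refine P.mem_grp hqN ?_ ?_ ?_ ?_
  · have e1 : conjU y γ 0 0 = (γ 0 0 : ℚ) + ((s : ℚ) * y) * ((N * s * c : ℤ) : ℚ) := by
      simp only [conjU, Ur_inv, slq_mul, ιQ_apply]
      simp [hcQ]; ring
    rw [e1]; exact (hi _).add (hy.mul (hi _))
  · have e1 : conjU y γ 0 1 = (γ 0 1 : ℚ) + ((s : ℚ) * y) * ((N * s * e : ℤ) : ℚ) -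
        ((s : ℚ) * y) * ((s : ℚ) * y) * ((N * c : ℤ) : ℚ) := by
      simp only [conjU, Ur_inv, slq_mul, ιQ_apply]
      simp [hcQ]
      linear_combination y * heQ
    rw [e1]; exact ((hi _).add (hy.mul (hi _))).sub ((hy.mul hy).mul (hi _))
  · have e1 : conjU y γ 1 0 / N = ((s ^ 2 * c : ℤ) : ℚ) := by
      simp only [conjU, Ur_inv, slq_mul, ιQ_apply]
      simp [hcQ]; field_simp
    rw [e1]; exact hi _
  · have e1 : conjU y γ 1 1 = (γ 1 1 : ℚ) - ((s : ℚ) * y) * ((N * s * c : ℤ) : ℚ) := by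
      simp only [conjU, Ur_inv, slq_mul, ιQ_apply]
      simp [hcQ]; ring
    rw [e1]; exact (hi _).sub (hy.mul (hi _))

/-- The conjugated homomorphism. -/
def xi (y : ℚ) (γ : SL2Z) : ZMod p := P.Phi hqN (conjU y γ)

theorem xi_mul (hs : s ≠ 0) {y : ℚ} (hy : InR q ((s : ℚ) * y)) {γ δ : SL2Z}
    (hγ : Lev (N * s ^ 2) γ) (hδ : Lev (N * s ^ 2) δ) :
    P.xi hqN y (γ * δ) = P.xi hqN y γ + P.xi hqN y δ := by
  rw [xi, xi, xi, ← P.Phi_mul hqN (P.conjU_mem hqN hs hy hγ) (P.conjU_mem hqN hs hy hδ)]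
  congr 1
  simp only [conjU, map_mul]
  group

theorem xi_neg (hs : s ≠ 0) {y : ℚ} (hy : InR q ((s : ℚ) * y)) {γ : SL2Z}
    (hγ : Lev (N * s ^ 2) γ) : P.xi hqN y (-γ) = P.xi hqN y γ := by
  have h1 : Lev (N * s ^ 2) (-1 : SL2Z) := by
    refine Lev.neg (γ := 1) ⟨?_, ?_, ?_⟩ <;> simp
  rw [← neg_one_mul γ, P.xi_mul hqN hs hy h1 hγ, add_eq_right, xi]
  have e : conjU y (-1) = ιQ (-1) := by
    have : ιQ (-1) = -1 := by
      refine slq_ext ?_ ?_ ?_ ?_ <;> rw [ιQ_apply] <;> simp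
    rw [conjU, this]; simp
  rw [e]; exact (P.neg_one_mem hqN).2

theorem xi_Uz {y : ℚ} (x : ℤ) : P.xi hqN y (Uz x) = 0 := by
  rw [xi, conjU, ιQ_Uz, ← Ur_add, Ur_inv, ← Ur_add, show y + (x : ℚ) + -y = x by ring]
  exact (P.Ur_mem_and hqN (InR.int x)).2

variable [Fact p.Prime]

/-- Conjugates of lower unipotents are killed: a diagonal element fixing their cusp scales them. -/
theorem xi_Lz (hs : s ≠ 0) {y : ℚ} (hy : InR q ((s : ℚ) * y)) {x : ℤ}
    (hx : ((N * s ^ 2 : ℕ) : ℤ) ∣ x) : P.xi hqN y (Lz x) = 0 := by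
  obtain ⟨n, z, hz⟩ := id hy
  obtain ⟨m, hm⟩ := id hx
  have hq : q.Prime := Fact.out
  have hq0 : (q : ℚ) ≠ 0 := qQ_ne
  obtain ⟨a, s', hs', hss⟩ := Nat.exists_eq_pow_mul_and_not_dvd hs q hq.ne_one
  have hs'0 : s' ≠ 0 := fun h => hs' (h ▸ dvd_zero q)
  set j : ℕ := s'.totient * n
  have hjn : n ≤ j := Nat.le_mul_of_pos_left n (Nat.totient_pos.mpr (Nat.pos_of_ne_zero hs'0))
  obtain ⟨e, he⟩ : (s' : ℤ) ∣ (q : ℤ) ^ (2 * j) - 1 := by
    have h : q ^ (2 * j) ≡ 1 [MOD s'] := by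
      rw [show 2 * j = s'.totient * (2 * n) by simp only [j]; ring, pow_mul]
      simpa using (Nat.ModEq.pow_totient ((hq.coprime_iff_not_dvd).mpr hs')).pow (2 * n)
    have h' := (Int.natCast_modEq_iff.mpr h).symm.dvd
    push_cast at h'
    exact h'
  set D := Dr (uq (q := q) ^ (j : ℤ))
  have hD : D ∈ P.grp hqN := P.Dq_zpow_mem hqN _
  set w : ℚ := ((q : ℚ) ^ (2 * j) - 1) * y
  have hw : InR q w := by
    refine ⟨n + a, e * z, ?_⟩
    have he' := congrArg (fun z : ℤ => (z : ℚ)) he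
    push_cast at he'
    simp only [w]
    rw [he', pow_add]
    push_cast
    rw [← hz, hss]
    push_cast
    ring
  set h := D⁻¹ * Ur w
  have hh : h ∈ P.grp hqN := mul_mem (inv_mem hD) (P.Ur_mem_and hqN hw).1
  have hDU : D * Ur y * D⁻¹ = Ur ((q : ℚ) ^ (2 * j) * y) := by
    simp only [D]
    rw [Dr_conj_Ur]
    congr 1
    simp [uq, ← pow_mul, mul_comm 2 j]
  have hDL : D⁻¹ * Lr x * D = Lr ((q : ℚ) ^ (2 * j) * x) := by
    simp only [D]
    rw [← Dr_inv]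
    conv_lhs => rw [show Dr (uq (q := q) ^ (j : ℤ)) = (Dr (uq (q := q) ^ (j : ℤ))⁻¹)⁻¹ by
      rw [← Dr_inv, inv_inv]]
    rw [Dr_conj_Lr]
    congr 1
    simp [uq, ← pow_mul, mul_comm 2 j]
    field_simp
  have hhy : h = Ur y * D⁻¹ * (Ur y)⁻¹ := by
    have e1 : Ur w = D * Ur y * D⁻¹ * (Ur y)⁻¹ := by
      rw [hDU, Ur_inv, ← Ur_add]
      congr 1
      simp only [w]
      ring
    simp only [h]
    rw [e1]
    group
  set x' : ℤ := (q : ℤ) ^ (2 * j) * x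
  set A' : ℤ := N * s * m * z * (q : ℤ) ^ (2 * j - n)
  set B' : ℤ := N * m * z ^ 2 * (q : ℤ) ^ (2 * j - 2 * n)
  have hp1 : (q : ℤ) ^ (2 * j - n) * (q : ℤ) ^ n = (q : ℤ) ^ (2 * j) := by
    rw [← pow_add]; congr 1; omega
  have hp2 : (q : ℤ) ^ (2 * j - 2 * n) * ((q : ℤ) ^ n) ^ 2 = (q : ℤ) ^ (2 * j) := by
    rw [← pow_mul, ← pow_add]; congr 1; omega
  set g : SL2Z := ⟨!![1 + A', -B'; x', 1 - A'], by
    rw [Matrix.det_fin_two_of]
    simp only [A', B', x', hm]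
    push_cast
    have hp3 : ((q : ℤ) ^ (2 * j - n)) ^ 2 = (q : ℤ) ^ (2 * j - 2 * n) * (q : ℤ) ^ (2 * j) := by
      rw [← pow_mul, ← pow_add]; congr 1; omega
    linear_combination -((N : ℤ) ^ 2 * (s : ℤ) ^ 2 * m ^ 2 * z ^ 2) * hp3⟩
  have hp1' := congrArg (fun t : ℤ => (t : ℚ)) hp1
  have hp2' := congrArg (fun t : ℤ => (t : ℚ)) hp2
  push_cast at hp1' hp2'
  have hxQ := congrArg (fun t : ℤ => (t : ℚ)) hm
  push_cast at hxQ
  have hg : h * conjU y (Lz x) * h⁻¹ = ιQ g := by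
    have hA : (A' : ℚ) = y * ((q : ℚ) ^ (2 * j) * x) := by
      simp only [A']
      push_cast
      rw [← hz, hxQ, ← hp1']
      ring
    have hB : (B' : ℚ) = y ^ 2 * ((q : ℚ) ^ (2 * j) * x) := by
      simp only [B']
      push_cast
      rw [← hz, hxQ, ← hp2']
      ring
    have e2 : h * conjU y (Lz x) * h⁻¹ = Ur y * Lr ((q : ℚ) ^ (2 * j) * x) * (Ur y)⁻¹ := by
      rw [← hDL, hhy, conjU, ιQ_Lz]
      group
    rw [e2, Ur_inv]
    refine slq_ext ?_ ?_ ?_ ?_ <;> rw [ιQ_apply] <;> simp [slq_mul, g, hA, hB, x'] <;> ring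
  have hgN : (N : ℤ) ∣ g 1 0 := by
    simp only [g]
    simp [x', hm]
    exact Dvd.dvd.mul_left (Dvd.dvd.mul_right (dvd_mul_right _ _) _) _
  have hgΦ : P.Phi hqN (ιQ g) = 0 :=
    P.Phi_parabolic hqN hgN (by simp [g, Matrix.trace_fin_two])
  rw [← hg, P.Phi_conj hqN hh (P.conjU_mem hqN hs hy (Lev.Lz hx))] at hgΦ
  exact hgΦ

/-- A prime upper left entry gives a period. -/
theorem xi_period_prime (hs : s ≠ 0) {γ : SL2Z} (hγ : Lev (N * s ^ 2) γ) {a : ℕ} (ha : a.Prime)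
    (haq : a ≠ q) (ha2 : a ≠ 2) (h00 : γ 0 0 = (a : ℤ)) {y : ℚ} (hy : InR q ((s : ℚ) * y)) :
    P.xi hqN (y * (q : ℚ) ^ (2 * (((a - 1) / 2 : ℕ) : ℤ))) γ = P.xi hqN y γ := by
  set e : ℕ := (a - 1) / 2
  haveI : Fact a.Prime := ⟨ha⟩
  have hae : 2 * e = a - 1 := by
    have := ha.eq_two_or_odd.resolve_left ha2
    omega
  obtain ⟨w, hw⟩ : (a : ℤ) ∣ (q : ℤ) ^ (2 * e) - 1 := by
    rw [← ZMod.intCast_zmod_eq_zero_iff_dvd, Int.cast_sub, Int.cast_pow, Int.cast_one,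
      Int.cast_natCast, hae, ZMod.pow_card_sub_one_eq_one, sub_self]
    intro h0
    rw [ZMod.natCast_eq_zero_iff] at h0
    exact haq ((Nat.prime_dvd_prime_iff_eq ha Fact.out).mp h0)
  have hb := hγ.1
  have hc := hγ.2.1
  set i : ℤ := γ 0 1 * w
  set t : ℤ := γ 1 0 * w
  have hLi : Lev (N * s ^ 2) (Uz i) := Lev.Uz (hb.mul_right _)
  have hLt : Lev (N * s ^ 2) (Lz t) := Lev.Lz (hc.mul_right _)
  set D := Dr (uq (q := q) ^ (e : ℤ))
  have hD : D ∈ P.grp hqN := P.Dq_zpow_mem hqN _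
  have hq0 : (q : ℚ) ≠ 0 := qQ_ne
  have hw' := congrArg (fun z : ℤ => (z : ℚ)) hw
  push_cast at hw'
  have hid : D * ιQ (Lz t * γ) * D⁻¹ = ιQ (γ * Uz i) := by
    rw [mul_inv_eq_iff_eq_mul]
    have h00' : (γ 0 0 : ℚ) = a := by rw [h00]; simp
    refine slq_ext ?_ ?_ ?_ ?_ <;> simp only [slq_mul, ιQ_apply, sl2_mul] <;>
      simp [D, uq, i, t, h00'] <;> field_simp <;> simp only [← pow_mul] at * <;>
      ring_nf at hw' ⊢ <;> first
        | linear_combination (γ 0 1 : ℚ) * hw'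
        | linear_combination (γ 1 0 : ℚ) * hw'
        | linear_combination -(γ 1 0 : ℚ) * hw'
        | linear_combination -(γ 0 1 : ℚ) * hw'
  have hy' : InR q ((s : ℚ) * (y * (q : ℚ) ^ (-(2 * (e : ℤ))))) := by
    rw [← mul_assoc]; exact hy.mul (InR.zpow (Fact.out : q.Prime).ne_zero _)
  have key : ∀ y : ℚ, InR q ((s : ℚ) * y) →
      P.xi hqN (y * (q : ℚ) ^ (-(2 * (e : ℤ)))) γ = P.xi hqN y γ := by
    intro y hy
    have hy' : InR q ((s : ℚ) * (y * (q : ℚ) ^ (-(2 * (e : ℤ))))) := by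
      rw [← mul_assoc]; exact hy.mul (InR.zpow (Fact.out : q.Prime).ne_zero _)
    have e1 : conjU y (γ * Uz i) = D * conjU (y * (q : ℚ) ^ (-(2 * (e : ℤ)))) (Lz t * γ) * D⁻¹ := by
      have : D * Ur (y * (q : ℚ) ^ (-(2 * (e : ℤ)))) * D⁻¹ = Ur y := by
        rw [Dr_conj_Ur]
        congr 1
        simp [uq, zpow_neg]
        rw [mul_comm (2 : ℤ), zpow_mul]
        simp only [zpow_natCast]
        field_simp
      rw [conjU, conjU, ← hid, ← this]
      group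
    have h1 := P.xi_mul hqN hs hy hγ hLi
    rw [P.xi_Uz hqN, add_zero] at h1
    have h2 := P.xi_mul hqN hs hy' hLt hγ
    rw [P.xi_Lz hqN hs hy' (hc.mul_right _), zero_add] at h2
    rw [← h1, ← h2, xi, xi, e1, P.Phi_conj hqN hD (P.conjU_mem hqN hs hy' (hLt.mul hγ))]
  have hy2 : InR q ((s : ℚ) * (y * (q : ℚ) ^ (2 * (e : ℤ)))) := by
    rw [← mul_assoc]; exact hy.mul (InR.zpow (Fact.out : q.Prime).ne_zero _)
  have := key _ hy2
  rw [mul_assoc, ← zpow_add₀ hq0, add_neg_cancel, zpow_zero, mul_one] at this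
  exact this.symm

/-- The conjugated homomorphisms are invariant under `diag(q, 1/q)`. -/
theorem xi_invariant (hs : s ≠ 0) (h2 : 2 ≤ N * s ^ 2) {γ : SL2Z} (hγ : Lev (N * s ^ 2) γ) {y : ℚ}
    (hy : InR q ((s : ℚ) * y)) :
    P.xi hqN (y * (q : ℚ) ^ (2 : ℤ)) γ = P.xi hqN y γ := by
  -- make the upper right entry nonzero
  wlog hb : γ 0 1 ≠ 0 generalizing γ
  · simp only [not_not] at hb
    have hK : Lev (N * s ^ 2) (Uz ((N * s ^ 2 : ℕ) : ℤ)) := Lev.Uz dvd_rfl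
    have ha : γ 0 0 ≠ 0 := fun h0 => by
      have := sl2_det γ
      rw [h0, hb] at this
      simp at this
    have hy2 : InR q ((s : ℚ) * (y * (q : ℚ) ^ (2 : ℤ))) := by
      rw [← mul_assoc]; exact hy.mul (InR.zpow (Fact.out : q.Prime).ne_zero _)
    have := this (hγ.mul hK) (by
      rw [sl2_mul, hb]
      simp
      exact ⟨ha, NeZero.ne N, hs⟩)
    rwa [P.xi_mul hqN hs hy hγ hK, P.xi_mul hqN hs hy2 hγ hK, P.xi_Uz hqN, P.xi_Uz hqN, add_zero,
      add_zero] at this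
  set K := N * s ^ 2
  set B := (γ 0 1).natAbs * K with hBdef
  have hB : B ≠ 0 := Nat.mul_ne_zero (Int.natAbs_ne_zero.mpr hb) (by omega)
  have ha₀ : IsCoprime (γ 0 0) (B : ℤ) := by
    have hd := sl2_det γ
    have h1 : IsCoprime (γ 0 0) (γ 0 1) := ⟨γ 1 1, -γ 1 0, by linear_combination hd⟩
    obtain ⟨b', hb'⟩ := hγ.1
    have h2 : IsCoprime (γ 0 0) (K : ℤ) :=
      (h1.of_isCoprime_of_dvd_right (hb' ▸ dvd_mul_right (K : ℤ) b'))
    rw [hBdef, Nat.cast_mul, Int.natCast_natAbs]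
    refine IsCoprime.mul_right ?_ h2
    rcases abs_choice (γ 0 1) with h | h <;> rw [h]
    · exact h1
    · exact h1.neg_right
  let E : AddSubgroup ℤ :=
    { carrier := {e | ∀ y : ℚ, InR q ((s : ℚ) * y) →
        P.xi hqN (y * (q : ℚ) ^ (2 * e)) γ = P.xi hqN y γ}
      zero_mem' := fun y _ => by simp
      add_mem' := fun {e f} he hf y hy => by
        have hy' : InR q ((s : ℚ) * (y * (q : ℚ) ^ (2 * f))) := by
          rw [← mul_assoc]; exact hy.mul (InR.zpow (Fact.out : q.Prime).ne_zero _)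
        rw [← hf y hy, ← he _ hy', mul_assoc, ← zpow_add₀ (qQ_ne (q := q))]
        congr 3; ring
      neg_mem' := fun {e} he y hy => by
        have hy' : InR q ((s : ℚ) * (y * (q : ℚ) ^ (2 * -e))) := by
          rw [← mul_assoc]; exact hy.mul (InR.zpow (Fact.out : q.Prime).ne_zero _)
        have h := he _ hy'
        rw [mul_assoc, ← zpow_add₀ (qQ_ne (q := q))] at h
        rw [show 2 * -e + 2 * e = (0 : ℤ) by ring, zpow_zero, mul_one] at h
        exact h.symm }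
  have hmem : ∀ a : ℕ, a.Prime → a ≠ q → a ≠ 2 →
      ((B : ℤ) ∣ (a : ℤ) - γ 0 0 ∨ (B : ℤ) ∣ (a : ℤ) + γ 0 0) → (((a - 1) / 2 : ℕ) : ℤ) ∈ E := by
    intro a hap haq ha2 hclass y hy
    have hBK : (γ 0 1 * K : ℤ) ∣ (B : ℤ) := by
      rw [hBdef, Nat.cast_mul]
      exact mul_dvd_mul_right (Int.dvd_natAbs_self) _
    have hy' : InR q ((s : ℚ) * (y * (q : ℚ) ^ (2 * (((a - 1) / 2 : ℕ) : ℤ)))) := by
      rw [← mul_assoc]; exact hy.mul (InR.zpow (Fact.out : q.Prime).ne_zero _)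
    rcases hclass with h | h
    · obtain ⟨j, hj⟩ := hBK.trans h
      have hL : Lev K (Lz (K * j)) := Lev.Lz (dvd_mul_right _ _)
      have h00 : (γ * Lz (K * j)) 0 0 = (a : ℤ) := by
        rw [sl2_mul]; simp; linear_combination -hj
      have := P.xi_period_prime hqN hs (hγ.mul hL) hap haq ha2 h00 hy
      rwa [P.xi_mul hqN hs hy' hγ hL, P.xi_mul hqN hs hy hγ hL,
        P.xi_Lz hqN hs hy' (dvd_mul_right _ _), P.xi_Lz hqN hs hy (dvd_mul_right _ _),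
        add_zero, add_zero] at this
    · obtain ⟨j, hj⟩ := hBK.trans h
      have hL : Lev K (Lz (-(K * j))) := Lev.Lz (dvd_mul_right _ _).neg_right
      have h00 : ((-γ) * Lz (-(K * j))) 0 0 = (a : ℤ) := by
        rw [sl2_mul]; simp; linear_combination -hj
      have := P.xi_period_prime hqN hs (hγ.neg.mul hL) hap haq ha2 h00 hy
      rwa [P.xi_mul hqN hs hy' hγ.neg hL, P.xi_mul hqN hs hy hγ.neg hL,
        P.xi_Lz hqN hs hy' (dvd_mul_right _ _).neg_right,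
        P.xi_Lz hqN hs hy (dvd_mul_right _ _).neg_right,
        add_zero, add_zero, P.xi_neg hqN hs hy' hγ, P.xi_neg hqN hs hy hγ] at this
  obtain ⟨g, hg⟩ := Int.subgroup_cyclic E
  have hone : (1 : ℤ) ∈ E := by
    by_cases hg1 : g.natAbs = 1
    · rcases Int.natAbs_eq g with h | h <;> rw [hg1] at h
      · rw [hg, h]; exact AddSubgroup.subset_closure rfl
      · rw [hg, h]
        simpa using neg_mem (AddSubgroup.subset_closure (k := ({-1} : Set ℤ)) rfl)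
    · obtain ⟨r, hr, hrg⟩ := Nat.exists_prime_and_dvd hg1
      obtain ⟨a, ha, hap, hclass, hnd⟩ := exists_prime_half hB ha₀ hr (max q 2)
      have h := hmem a hap (by omega) (by omega) hclass
      rw [hg, AddSubgroup.mem_closure_singleton] at h
      obtain ⟨k, hk⟩ := h
      refine absurd ?_ hnd
      rw [← hk, smul_eq_mul]
      exact (Int.natCast_dvd.mpr hrg).mul_left k
  simpa using hone y hy

end CompatPair

end FLTAgent.LevelRaise
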