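import Fermat.Agent.ES.Primitive
import Fermat.Agent.PeriodHecke.Lattice

/-!
The intersection pairing of parabolic homomorphisms of `Γ₀(M)`, computed from coset data.
-/

set_option autoImplicit false

noncomputable section

open scoped MatrixGroups
open CongruenceSubgroup FLTAgent.PeriodHecke

namespace FLTAgent.LevelRaise

local notation "SL2Z" => Matrix.SpecialLinearGroup (Fin 2) ℤ
local notation "S'" => (ModularGroup.S : SL2Z)
local notation "T'" => (ModularGroup.T : SL2Z)
local notation "R'" => ((ModularGroup.S * ModularGroup.T : SL2Z))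

/-- The cosets of `Γ₀(M)`. -/
abbrev Cos (M : ℕ) : Type := SL2Z ⧸ Gamma0 M

instance instFintypeCos (M : ℕ) [NeZero M] : Fintype (Cos M) := Fintype.ofFinite _

variable {M : ℕ} [NeZero M] {A B : Type*} [CommRing A] [CommRing B]

local notation "XX" => Cos M

omit [NeZero M] in
theorem neg_smul_cos (x : XX) : (-1 : SL2Z) • x = x :=
  ES.neg_one_smul_coset (ES.Gamma0_neg_one_mem (N := M)) x

omit [NeZero M] in
theorem S_smul_S_smul (x : XX) : S' • S' • x = x := by
  rw [smul_smul, show S' * S' = -1 from by decide, neg_smul_cos]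

omit [NeZero M] in
theorem S_inv_smul (x : XX) : S'⁻¹ • x = S' • x := by
  rw [inv_smul_eq_iff, S_smul_S_smul]

omit [NeZero M] in
theorem R_smul (x : XX) : R' • x = S' • T' • x := by rw [smul_smul]

theorem sum_smul_cos {β : Type*} [AddCommMonoid β] (g : SL2Z) (f : XX → β) :
    ∑ x, f (g • x) = ∑ x, f x :=
  Equiv.sum_comp (MulAction.toPerm g) f

/-- A potential for data along the orbits of `T`. -/
def IsPot (P h : XX → A) : Prop := ∀ x, P (T' • x) - P x = h x - h (R' • x)

/-- The pairing of a potential with data. -/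
def pairVal (P k : XX → A) : A := ∑ x, (P x - P (S' • x)) * k x

theorem pairVal_add_left (P Q k : XX → A) : pairVal (P + Q) k = pairVal P k + pairVal Q k := by
  simp only [pairVal, Pi.add_apply, ← Finset.sum_add_distrib]
  exact Finset.sum_congr rfl fun x _ => by ring

theorem pairVal_add_right (P k l : XX → A) : pairVal P (k + l) = pairVal P k + pairVal P l := by
  simp only [pairVal, Pi.add_apply, mul_add, Finset.sum_add_distrib]

theorem pairVal_smul_left (a : A) (P k : XX → A) : pairVal (a • P) k = a * pairVal P k := by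
  simp only [pairVal, Pi.smul_apply, smul_eq_mul, Finset.mul_sum]
  exact Finset.sum_congr rfl fun x _ => by ring

theorem pairVal_smul_right (a : A) (P k : XX → A) : pairVal P (a • k) = a * pairVal P k := by
  simp only [pairVal, Pi.smul_apply, smul_eq_mul, Finset.mul_sum]
  exact Finset.sum_congr rfl fun x _ => by ring

theorem pairVal_map (f : A →+* B) (P k : XX → A) :
    pairVal (f ∘ P) (f ∘ k) = f (pairVal P k) := by
  simp [pairVal]

theorem pairVal_eq_sum_sub (P k : XX → A) :
    pairVal P k = ∑ x, P x * (k x - k (S' • x)) := by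
  simp only [pairVal, sub_mul, mul_sub, Finset.sum_sub_distrib]
  congr 1
  rw [← sum_smul_cos S' (fun x => P x * k (S' • x))]
  exact Finset.sum_congr rfl fun x _ => by rw [S_smul_S_smul]

theorem eq_of_T_invariant {P : XX → A} (hP : ∀ x, P (T' • x) = P x) {x y : XX}
    (h : cuspOf x = cuspOf y) : P x = P y := by
  have h' : (act (Gamma0 M) T').SameCycle x y := Quotient.exact h
  obtain ⟨k, hk⟩ := h'.exists_nat_pow_eq
  rw [← hk]
  clear hk
  induction k with
  | zero => simp
  | succ j ih => rw [pow_succ', Equiv.Perm.mul_apply, MulAction.toPerm_apply, hP, ih]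

theorem pairVal_eq_zero_of_invariant {P k : XX → A} (hP : ∀ x, P (T' • x) = P x)
    (hk : bdry k = 0) : pairVal P k = 0 := by
  classical
  let := Fintype.ofFinite (CuspClass (Gamma0 M))
  rw [pairVal_eq_sum_sub, ← Finset.sum_fiberwise Finset.univ cuspOf]
  refine Finset.sum_eq_zero fun q _ => ?_
  obtain ⟨x, rfl⟩ := Quotient.exists_rep q
  have h0 := congrFun hk (cuspOf x)
  rw [Pi.zero_apply] at h0
  unfold bdry at h0
  calc ∑ y ∈ Finset.univ.filter (fun y => cuspOf y = cuspOf x), P y * (k y - k (S' • y))
      = ∑ y ∈ Finset.univ.filter (fun y => cuspOf y = cuspOf x), P x * (k y - k (S' • y)) :=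
        Finset.sum_congr rfl fun y hy => by
          rw [eq_of_T_invariant hP (Finset.mem_filter.mp hy).2]
    _ = 0 := by
      rw [← Finset.mul_sum]
      convert mul_zero (P x)

theorem pairVal_of_S_invariant (P : XX → A) {a : XX → A} (ha : ∀ x, a (S' • x) = a x) :
    pairVal P a = 0 := by
  rw [pairVal_eq_sum_sub]
  simp [ha]

theorem pairVal_of_R_invariant {P h b : XX → A} (hP : IsPot P h) (hb : ∀ x, b (R' • x) = b x) :
    pairVal P b = 0 := by
  rw [pairVal_eq_sum_sub]
  have hS : ∀ x, b (S' • T' • x) = b x := fun x => by rw [← R_smul, hb]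
  simp only [mul_sub, Finset.sum_sub_distrib]
  rw [← sum_smul_cos T' (fun x => P x * b (S' • x))]
  simp only [hS]
  rw [← Finset.sum_sub_distrib]
  calc ∑ x, (P x * b x - P (T' • x) * b x)
      = ∑ x, -((h x - h (R' • x)) * b x) := Finset.sum_congr rfl fun x _ => by rw [← hP x]; ring
    _ = 0 := by
      rw [Finset.sum_neg_distrib, neg_eq_zero]
      simp only [sub_mul, Finset.sum_sub_distrib]
      rw [sub_eq_zero, ← sum_smul_cos R' (fun x => h x * b x)]
      simp only [hb]

omit [NeZero M] in
theorem isData_zero_iff {h : XX → A} (hd : IsData (0 : Additive (Gamma0 M) →+ A) h) :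
    ∃ a b : XX → A, h = a + b ∧ (∀ x, a (S' • x) = a x) ∧ ∀ x, b (R' • x) = b x := by
  obtain ⟨f, hf, hg⟩ := hd
  refine ⟨-f, f + h, by abel, fun x => ?_, fun x => ?_⟩
  · have := hf x
    simp only [cosetCoc, AddMonoidHom.zero_apply] at this
    simp only [Pi.neg_apply, sub_eq_zero.mp this.symm]
  · have := hg x
    simp only [cosetCoc, AddMonoidHom.zero_apply] at this
    exact (sub_eq_zero.mp this.symm).symm

theorem bdry_of_data {φ : Hpar (Gamma0 M) A} {h : XX → A} (hd : IsData φ.1 h) : bdry h = 0 :=
  bdry_data φ.2 hd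

theorem exists_pot {φ : Additive (Gamma0 M) →+ A} (hφ : φ ∈ Hpar (Gamma0 M) A) {h : XX → A}
    (hd : IsData φ h) : ∃ P, IsPot P h := by
  classical
  obtain ⟨f, hf, hg⟩ := hd
  obtain ⟨Q, hQ⟩ := exists_coboundary (act (Gamma0 M) T') _
    (orbit_sum_eq_zero hφ (g := T') (by decide))
  refine ⟨f - Q, fun x => ?_⟩
  have h1 := cosetCoc_mul φ S' T' x
  rw [hf, hg, hQ] at h1
  simp only [Pi.add_apply, Pi.sub_apply, MulAction.toPerm_apply] at h1 ⊢
  rw [← R_smul] at h1
  linear_combination -h1

/-- Chosen data. -/
def datum (φ : Hpar (Gamma0 M) A) : XX → A := (exists_data φ.2).choose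

theorem isData_datum (φ : Hpar (Gamma0 M) A) : IsData φ.1 (datum φ) :=
  (exists_data φ.2).choose_spec

/-- A chosen potential. -/
def potential (φ : Hpar (Gamma0 M) A) : XX → A := (exists_pot φ.2 (isData_datum φ)).choose

theorem isPot_potential (φ : Hpar (Gamma0 M) A) : IsPot (potential φ) (datum φ) :=
  (exists_pot φ.2 (isData_datum φ)).choose_spec

/-- The intersection pairing. -/
def pair (φ ψ : Hpar (Gamma0 M) A) : A := pairVal (potential φ) (datum ψ)

/-- The pairing is computed by any data and potential. -/
theorem pair_eq {φ ψ : Hpar (Gamma0 M) A} {P h k : XX → A} (hh : IsData φ.1 h) (hP : IsPot P h)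
    (hk : IsData ψ.1 k) : pair φ ψ = pairVal P k := by
  have hbk := bdry_of_data hk
  -- change the data of the second argument
  have hdd : IsData (0 : Additive (Gamma0 M) →+ A) (datum ψ + -k) := by
    simpa using (isData_datum ψ).add hk.neg
  obtain ⟨a, b, hab, ha, hb⟩ := isData_zero_iff hdd
  have e1 : pair φ ψ = pairVal (potential φ) k := by
    rw [pair, show datum ψ = k + (a + b) by rw [← hab]; abel, pairVal_add_right, pairVal_add_right,
      pairVal_of_S_invariant _ ha, pairVal_of_R_invariant (isPot_potential φ) hb, add_zero,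
      add_zero]
  -- change the data and the potential of the first argument
  have hdd' : IsData (0 : Additive (Gamma0 M) →+ A) (datum φ + -h) := by
    simpa using (isData_datum φ).add hh.neg
  obtain ⟨a', b', hab', ha', hb'⟩ := isData_zero_iff hdd'
  have hC : ∀ x, (potential φ - (P + -a')) (T' • x) = (potential φ - (P + -a')) x := by
    intro x
    have h1 := isPot_potential φ x
    have h2 := hP x
    have h3 : ∀ y, datum φ y = h y + (a' y + b' y) := fun y => by
      have := congrFun hab' y
      simp only [Pi.add_apply, Pi.neg_apply] at this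
      linear_combination this
    have h4 : a' (R' • x) = a' (T' • x) := by rw [R_smul, ha']
    rw [h3, h3, hb', h4] at h1
    simp only [Pi.sub_apply, Pi.add_apply, Pi.neg_apply]
    linear_combination h1 - h2
  have e2 : pairVal (-a') k = 0 := by simp [pairVal, ha']
  have e3 := pairVal_eq_zero_of_invariant hC hbk
  have e4 := pairVal_add_left (potential φ - (P + -a')) (P + -a') k
  rw [sub_add_cancel, pairVal_add_left, e2, e3] at e4
  rw [e1, e4]
  ring

theorem pair_add_left (φ φ' ψ : Hpar (Gamma0 M) A) :
    pair (φ + φ') ψ = pair φ ψ + pair φ' ψ := by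
  rw [pair_eq ((isData_datum φ).add (isData_datum φ')) (P := potential φ + potential φ') ?_
    (isData_datum ψ), pairVal_add_left]
  · rfl
  · intro x
    simp only [Pi.add_apply]
    linear_combination isPot_potential φ x + isPot_potential φ' x

theorem pair_add_right (φ ψ ψ' : Hpar (Gamma0 M) A) :
    pair φ (ψ + ψ') = pair φ ψ + pair φ ψ' := by
  rw [pair_eq (isData_datum φ) (isPot_potential φ) ((isData_datum ψ).add (isData_datum ψ')),
    pairVal_add_right]
  rfl

/-- The pairing as a bilinear map. -/
def pairHom : Hpar (Gamma0 M) A →+ Hpar (Gamma0 M) A →+ A :=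
  AddMonoidHom.mk' (fun φ => AddMonoidHom.mk' (pair φ) (pair_add_right φ)) fun φ φ' =>
    AddMonoidHom.ext fun ψ => pair_add_left φ φ' ψ

@[simp] theorem pairHom_apply (φ ψ : Hpar (Gamma0 M) A) : pairHom φ ψ = pair φ ψ := rfl

/-- Naturality in the coefficients. -/
theorem pair_map (f : A →+* B) (φ ψ : Hpar (Gamma0 M) A) :
    pair (mapHpar f.toAddMonoidHom φ) (mapHpar f.toAddMonoidHom ψ) = f (pair φ ψ) := by
  rw [pair_eq ((isData_datum φ).map f.toAddMonoidHom) (P := f ∘ potential φ) ?_
    ((isData_datum ψ).map f.toAddMonoidHom)]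
  · exact pairVal_map f _ _
  · intro x
    simp only [Function.comp_apply, RingHom.toAddMonoidHom_eq_coe, AddMonoidHom.coe_coe, ← map_sub,
      isPot_potential φ x]

/-- A homomorphism orthogonal to everything vanishes. -/
theorem eq_zero_of_pair_eq_zero {φ : Hpar (Gamma0 M) A} (h : ∀ ψ, pair φ ψ = 0) : φ = 0 := by
  classical
  let := Fintype.ofFinite (CuspClass (Gamma0 M))
  set P := potential φ
  set d : XX → A := fun x => P x - P (S' • x)
  set D : CuspClass (Gamma0 M) → A := fun q => ∑ y, d y * (diffLift (Gamma0 M) q y : A)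
  set C : XX → A := fun x => D (cuspOf x)
  have hd : ∀ x, d x = C x - C (S' • x) := by
    intro x
    have hcyc := h (mapHpar (Int.castAddHom A) (basicHom M x))
    rw [pair_eq (isData_datum φ) (isPot_potential φ)
      ((isData_basicHom M x).map (Int.castAddHom A))] at hcyc
    simp only [pairVal, basicCycle, Function.comp_apply, Pi.sub_apply, Finset.sum_apply,
      Pi.smul_apply, smul_eq_mul, Int.coe_castAddHom, Int.cast_sub, Int.cast_sum, Int.cast_mul,
      mul_sub, Finset.mul_sum, Finset.sum_sub_distrib] at hcyc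
    rw [Finset.sum_comm] at hcyc
    simp only [bdry_single, Pi.sub_apply, Int.cast_sub, S_inv_smul, sub_mul, mul_sub,
      Finset.sum_sub_distrib] at hcyc
    simp [Pi.single_apply, Finset.sum_ite_eq', apply_ite, ite_mul] at hcyc
    simp only [d, C, D, P, sub_mul, Finset.sum_sub_distrib]
    linear_combination hcyc
  have hCT : ∀ x, C (T' • x) = C x := fun x => by simp only [C, cuspOf_T]
  have key : ∀ x, (P - C) (S' • x) = (P - C) x := fun x => by
    have := hd x
    simp only [d] at this
    simp only [Pi.sub_apply]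
    linear_combination -this
  refine Subtype.ext (eq_zero_of_data (isData_datum φ) (a := -(P - C))
    (b := datum φ + (P - C)) (by abel) (fun x => by simp only [Pi.neg_apply, key]) fun x => ?_)
  have h1 := isPot_potential φ x
  have h2 := key (T' • x)
  rw [← R_smul] at h2
  simp only [Pi.add_apply, Pi.sub_apply] at h1 h2 ⊢
  linear_combination h1 - hCT x + h2

end FLTAgent.LevelRaise
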