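import Fermat.Agent.PeriodHecke.Families

/-!
A pair of parabolic homomorphisms of `Γ₀(N)` compatible on `Γ₀(N q)` gives a homomorphism of the
corresponding group of matrices over `ℤ[1/q]`.
-/

set_option autoImplicit false

noncomputable section

open scoped MatrixGroups
open CongruenceSubgroup FLTAgent.PeriodHecke

namespace FLTAgent.LevelRaise

local notation "SL2Z" => Matrix.SpecialLinearGroup (Fin 2) ℤ
local notation "SLQ" => Matrix.SpecialLinearGroup (Fin 2) ℚ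

/-- The inclusion in rational matrices. -/
def ιQ : SL2Z →* SLQ := Matrix.SpecialLinearGroup.map (Int.castRingHom ℚ)

@[simp] theorem ιQ_apply (γ : SL2Z) (i j : Fin 2) : ιQ γ i j = (γ i j : ℚ) := rfl

theorem ιQ_injective : Function.Injective ιQ := fun a b h => Subtype.ext <| by
  ext i j
  exact Int.cast_injective (α := ℚ) (congrArg (fun g : SLQ => g i j) h)

theorem slq_ext {g h : SLQ} (h00 : g 0 0 = h 0 0) (h01 : g 0 1 = h 0 1) (h10 : g 1 0 = h 1 0)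
    (h11 : g 1 1 = h 1 1) : g = h :=
  Subtype.ext (by ext i j; fin_cases i <;> fin_cases j <;> assumption)

theorem slq_mul (g h : SLQ) (i j : Fin 2) :
    (g * h) i j = g i 0 * h 0 j + g i 1 * h 1 j := by
  simp [Matrix.SpecialLinearGroup.coe_mul, Matrix.mul_apply, Fin.sum_univ_two]

theorem slq_inv (g : SLQ) : g⁻¹ 0 0 = g 1 1 ∧ g⁻¹ 0 1 = -g 0 1 ∧ g⁻¹ 1 0 = -g 1 0 ∧
    g⁻¹ 1 1 = g 0 0 := by
  simp [Matrix.SpecialLinearGroup.coe_inv, Matrix.adjugate_fin_two]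

/-- Upper unipotent matrix. -/
def Ur (x : ℚ) : SLQ := ⟨!![1, x; 0, 1], by simp [Matrix.det_fin_two_of]⟩

/-- Lower unipotent matrix. -/
def Lr (x : ℚ) : SLQ := ⟨!![1, 0; x, 1], by simp [Matrix.det_fin_two_of]⟩

/-- Diagonal matrix. -/
def Dr (t : ℚˣ) : SLQ := ⟨!![(t : ℚ), 0; 0, (t⁻¹ : ℚˣ)], by simp [Matrix.det_fin_two_of]⟩

@[simp] theorem Ur_apply (x : ℚ) : (Ur x).1 = !![1, x; 0, 1] := rfl
@[simp] theorem Lr_apply (x : ℚ) : (Lr x).1 = !![1, 0; x, 1] := rfl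
@[simp] theorem Dr_apply (t : ℚˣ) : (Dr t).1 = !![(t : ℚ), 0; 0, (t⁻¹ : ℚˣ)] := rfl

theorem Ur_add (x y : ℚ) : Ur (x + y) = Ur x * Ur y := by
  refine slq_ext ?_ ?_ ?_ ?_ <;> simp [slq_mul, add_comm]

theorem Lr_add (x y : ℚ) : Lr (x + y) = Lr x * Lr y := by
  refine slq_ext ?_ ?_ ?_ ?_ <;> simp [slq_mul]

theorem Ur_zero : Ur 0 = 1 := by
  refine slq_ext ?_ ?_ ?_ ?_ <;> simp

theorem Lr_zero : Lr 0 = 1 := by
  refine slq_ext ?_ ?_ ?_ ?_ <;> simp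

theorem Ur_inv (x : ℚ) : (Ur x)⁻¹ = Ur (-x) :=
  inv_eq_of_mul_eq_one_right (by rw [← Ur_add, add_neg_cancel, Ur_zero])

theorem Lr_inv (x : ℚ) : (Lr x)⁻¹ = Lr (-x) :=
  inv_eq_of_mul_eq_one_right (by rw [← Lr_add, add_neg_cancel, Lr_zero])

theorem Dr_mul (t u : ℚˣ) : Dr (t * u) = Dr t * Dr u := by
  refine slq_ext ?_ ?_ ?_ ?_ <;> simp [slq_mul, mul_comm]

/-- The diagonal matrices as a homomorphism. -/
def DrHom : ℚˣ →* SLQ where
  toFun := Dr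
  map_one' := by refine slq_ext ?_ ?_ ?_ ?_ <;> simp
  map_mul' := Dr_mul

theorem Dr_inv (t : ℚˣ) : Dr t⁻¹ = (Dr t)⁻¹ := map_inv DrHom t

theorem Dr_conj_Ur (t : ℚˣ) (x : ℚ) : Dr t * Ur x * (Dr t)⁻¹ = Ur ((t : ℚ) ^ 2 * x) := by
  rw [mul_inv_eq_iff_eq_mul]
  have := t.ne_zero
  refine slq_ext ?_ ?_ ?_ ?_ <;> simp [slq_mul]
  field_simp

theorem Dr_conj_Lr (t : ℚˣ) (x : ℚ) : Dr t * Lr x * (Dr t)⁻¹ = Lr (x / (t : ℚ) ^ 2) := by
  rw [mul_inv_eq_iff_eq_mul]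
  have := t.ne_zero
  refine slq_ext ?_ ?_ ?_ ?_ <;> simp [slq_mul]
  field_simp

/-- Rational numbers whose denominator is a power of `q`. -/
def InR (q : ℕ) (x : ℚ) : Prop := ∃ (n : ℕ) (z : ℤ), x * (q : ℚ) ^ n = z

section InR

variable {q : ℕ} {x y : ℚ}

theorem InR.int (z : ℤ) : InR q (z : ℚ) := ⟨0, z, by simp⟩

theorem InR.nat (z : ℕ) : InR q (z : ℚ) := by simpa using InR.int (q := q) (z : ℤ)

theorem InR.one : InR q 1 := by simpa using InR.int (q := q) 1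

theorem InR.add (hx : InR q x) (hy : InR q y) : InR q (x + y) := by
  obtain ⟨n, a, ha⟩ := hx
  obtain ⟨m, b, hb⟩ := hy
  exact ⟨n + m, a * q ^ m + b * q ^ n, by push_cast; rw [← ha, ← hb, pow_add]; ring⟩

theorem InR.mul (hx : InR q x) (hy : InR q y) : InR q (x * y) := by
  obtain ⟨n, a, ha⟩ := hx
  obtain ⟨m, b, hb⟩ := hy
  exact ⟨n + m, a * b, by push_cast; rw [← ha, ← hb, pow_add]; ring⟩

theorem InR.neg (hx : InR q x) : InR q (-x) := by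
  obtain ⟨n, a, ha⟩ := hx
  exact ⟨n, -a, by push_cast; rw [← ha]; ring⟩

theorem InR.sub (hx : InR q x) (hy : InR q y) : InR q (x - y) := by
  simpa [sub_eq_add_neg] using hx.add hy.neg

theorem InR.qinv (hq : q ≠ 0) : InR q ((q : ℚ)⁻¹) :=
  ⟨1, 1, by simp [hq]⟩

theorem InR.zpow (hq : q ≠ 0) (k : ℤ) : InR q ((q : ℚ) ^ k) := by
  rcases k with n | n
  · simpa using InR.int (q := q) ((q : ℤ) ^ n)
  · exact ⟨n + 1, 1, by simp [zpow_negSucc, hq]⟩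

end InR

/-- The column vector of an element. -/
def colv (N q : ℕ) (k : ℤ) (γ : Gamma0 N) : Fin 2 → ℚ :=
  ![(q : ℚ) ^ k * mat γ 0 0, (q : ℚ) ^ k * mat γ 1 0]

/-- Two parabolic homomorphisms of `Γ₀(N)` agreeing, up to sign and conjugation, on `Γ₀(N q)`. -/
structure CompatPair (N q p : ℕ) where
  φ : Hpar (Gamma0 N) (ZMod p)
  ψ : Hpar (Gamma0 N) (ZMod p)
  compat : ∀ γ η : Gamma0 N, mat η 0 0 = mat γ 0 0 → mat η 0 1 = (q : ℤ) * mat γ 0 1 →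
    (q : ℤ) * mat η 1 0 = mat γ 1 0 → mat η 1 1 = mat γ 1 1 →
    φ.1 (Additive.ofMul γ) + ψ.1 (Additive.ofMul η) = 0

variable {N q p : ℕ}

theorem exists_col (a c : ℤ) (hco : IsCoprime a c) (hc : (N : ℤ) ∣ c) :
    ∃ γ : Gamma0 N, mat γ 0 0 = a ∧ mat γ 1 0 = c := by
  obtain ⟨u, v, huv⟩ := hco
  exact ⟨gamma0Mk N a (-v) c u (by linear_combination huv) hc, rfl, rfl⟩

theorem isCoprime_col (γ : Gamma0 N) : IsCoprime (mat γ 0 0) (mat γ 1 0) := by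
  have h := mat_det γ
  rw [Matrix.det_fin_two] at h
  exact ⟨mat γ 1 1, -mat γ 0 1, by linear_combination h⟩

theorem parabolic_upper {γ : Gamma0 N} (h : mat γ 1 0 = 0) : (mat γ).trace ^ 2 ≤ 4 := by
  have hd := mat_det γ
  rw [Matrix.det_fin_two, h, mul_zero, sub_zero] at hd
  rw [Matrix.trace_fin_two]
  rcases Int.eq_one_or_neg_one_of_mul_eq_one' hd with ⟨a, b⟩ | ⟨a, b⟩ <;> rw [a, b] <;> norm_num

/-- Homomorphisms killing parabolic elements only depend on the column. -/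
theorem apply_eq_of_col {A : Type*} [AddCommGroup A] (φ : Hpar (Gamma0 N) A) {γ δ : Gamma0 N}
    (h0 : mat γ 0 0 = mat δ 0 0) (h1 : mat γ 1 0 = mat δ 1 0) :
    φ.1 (Additive.ofMul γ) = φ.1 (Additive.ofMul δ) := by
  have hz : mat (γ⁻¹ * δ) 1 0 = 0 := by
    rw [mat_mul, show mat γ⁻¹ = (mat γ).adjugate by
      simp [mat, Matrix.SpecialLinearGroup.coe_inv]]
    simp [Matrix.adjugate_fin_two, Matrix.mul_apply, Fin.sum_univ_two, h0, h1]
    ring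
  have := φ.2 _ (parabolic_upper hz)
  rw [ofMul_mul, map_add, ofMul_inv, map_neg, neg_add_eq_zero] at this
  exact this

variable [Fact q.Prime]

theorem qQ_ne : (q : ℚ) ≠ 0 := Nat.cast_ne_zero.mpr (Fact.out : q.Prime).ne_zero

theorem colv_inj {k m : ℤ} {γ δ : Gamma0 N} (h : colv N q k γ = colv N q m δ) :
    k = m ∧ mat γ 0 0 = mat δ 0 0 ∧ mat γ 1 0 = mat δ 1 0 := by
  wlog hkm : k ≤ m generalizing k m γ δ
  · obtain ⟨a, b, c⟩ := this h.symm (le_of_not_ge hkm)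
    exact ⟨a.symm, b.symm, c.symm⟩
  obtain ⟨j, rfl⟩ := Int.le.dest hkm
  have h0 := congrFun h 0
  have h1 := congrFun h 1
  simp only [colv, Matrix.cons_val_zero, Matrix.cons_val_one, zpow_add₀ (qQ_ne (q := q)),
    zpow_natCast, mul_assoc] at h0 h1
  have e0 : mat γ 0 0 = (q : ℤ) ^ j * mat δ 0 0 := by
    exact_mod_cast mul_left_cancel₀ (zpow_ne_zero _ (qQ_ne (q := q))) h0
  have e1 : mat γ 1 0 = (q : ℤ) ^ j * mat δ 1 0 := by
    exact_mod_cast mul_left_cancel₀ (zpow_ne_zero _ (qQ_ne (q := q))) h1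
  have hu : IsUnit ((q : ℤ) ^ j) := (isCoprime_col γ).isUnit_of_dvd' ⟨_, e0⟩ ⟨_, e1⟩
  rcases Nat.eq_zero_or_pos j with rfl | hj
  · simpa using And.intro e0 e1
  · rw [isUnit_pow_iff hj.ne'] at hu
    exact absurd (Int.isUnit_iff.mp hu) (by
      have := (Fact.out : q.Prime).two_le; omega)

variable [NeZero N]

omit [Fact q.Prime] [NeZero N] in
theorem cast_ne_zero_q (hqN : ¬ q ∣ N) : ¬ (q : ℤ) ∣ (N : ℤ) := by exact_mod_cast hqN

omit [NeZero N] in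
theorem coprime_q_N (hqN : ¬ q ∣ N) : IsCoprime (q : ℤ) (N : ℤ) :=
  Int.isCoprime_iff_gcd_eq_one.mpr
    ((Nat.Prime.coprime_iff_not_dvd (Fact.out : q.Prime)).mpr hqN)

omit [NeZero N] in
theorem exists_typeZero (hqN : ¬ q ∣ N) :
    ∃ γ ε : Gamma0 N, ¬ (q : ℤ) ∣ mat γ 1 0 ∧ mat ε 0 0 = q * mat γ 0 0 ∧
      mat ε 1 0 = mat γ 1 0 := by
  refine ⟨gamma0Mk N 1 0 N 1 (by ring) dvd_rfl, ?_⟩
  obtain ⟨ε, h0, h1⟩ := exists_col (N := N) q N (coprime_q_N hqN) dvd_rfl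
  exact ⟨ε, cast_ne_zero_q hqN, by simpa using h0, h1⟩

namespace CompatPair

variable (P : CompatPair N q p) (hqN : ¬ q ∣ N)

/-- The step in the scale. -/
def step : ZMod p :=
  -(P.φ.1 (Additive.ofMul (exists_typeZero hqN).choose) +
    P.ψ.1 (Additive.ofMul (exists_typeZero hqN).choose_spec.choose))

/-- The first description of the function on the orbit. -/
def FO (k : ℤ) (γ : Gamma0 N) : ZMod p := P.φ.1 (Additive.ofMul γ) + (k : ZMod p) * P.step hqN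

/-- The second description. -/
def FO' (m : ℤ) (ε : Gamma0 N) : ZMod p :=
  -P.ψ.1 (Additive.ofMul ε) + ((m : ZMod p) - 1) * P.step hqN

omit [NeZero N] in
theorem FO_congr {k m : ℤ} {γ δ : Gamma0 N} (h : colv N q k γ = colv N q m δ) :
    P.FO hqN k γ = P.FO hqN m δ := by
  obtain ⟨rfl, h0, h1⟩ := colv_inj h
  rw [FO, FO, apply_eq_of_col P.φ h0 h1]

omit [NeZero N] in
theorem FO'_congr {k m : ℤ} {γ δ : Gamma0 N} (h : colv N q k γ = colv N q m δ) :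
    P.FO' hqN k γ = P.FO' hqN m δ := by
  obtain ⟨rfl, h0, h1⟩ := colv_inj h
  rw [FO', FO', apply_eq_of_col P.ψ h0 h1]

/-- `diag(q, 1)`. -/
abbrev dl (q : ℕ) (v : Fin 2 → ℚ) : Fin 2 → ℚ := ![(q : ℚ) * v 0, v 1]

omit [NeZero N] in
theorem FO_eq_FO' {k m : ℤ} {γ ε : Gamma0 N} (h : dl q (colv N q k γ) = colv N q m ε) :
    P.FO hqN k γ = P.FO' hqN m ε := by
  by_cases hc : (q : ℤ) ∣ mat γ 1 0
  · obtain ⟨c', hc'⟩ := hc
    have hN : (N : ℤ) ∣ c' :=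
      (coprime_q_N hqN).symm.dvd_of_dvd_mul_left (hc' ▸ dvd_lower_left N γ)
    have hd := mat_det γ
    rw [Matrix.det_fin_two, hc'] at hd
    set ε' := gamma0Mk N (mat γ 0 0) (q * mat γ 0 1) c' (mat γ 1 1) (by linear_combination hd) hN
    have h' : colv N q (k + 1) ε' = colv N q m ε := by
      rw [← h]
      funext i
      fin_cases i <;> simp [colv, dl, ε', hc', zpow_add₀ (qQ_ne (q := q))] <;> ring
    rw [← P.FO'_congr hqN h']
    have := P.compat γ ε' rfl rfl (by simp [ε', hc']) rfl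
    rw [FO, FO', eq_neg_of_add_eq_zero_left this]
    push_cast; ring
  · -- a reference element
    set γ₀ := (exists_typeZero hqN).choose with hγ₀
    set ε₀ := (exists_typeZero hqN).choose_spec.choose with hε₀
    obtain ⟨hc₀, he0, he1⟩ : ¬ (q : ℤ) ∣ mat γ₀ 1 0 ∧ mat ε₀ 0 0 = q * mat γ₀ 0 0 ∧
        mat ε₀ 1 0 = mat γ₀ 1 0 := (exists_typeZero hqN).choose_spec.choose_spec
    obtain ⟨u, v, huv⟩ := (Prime.coprime_iff_not_dvd (Nat.prime_iff_prime_int.mp Fact.out)).mpr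
      (show ¬ (q : ℤ) ∣ mat γ 1 0 * mat γ₀ 1 0 from fun hd =>
        ((Nat.prime_iff_prime_int.mp Fact.out).dvd_or_dvd hd).elim hc hc₀)
    set j : ℤ := (mat γ 1 0 * mat γ₀ 1 1 - mat γ 1 1 * mat γ₀ 1 0) * v
    set U : Gamma0 N := gamma0Mk N 1 j 0 1 (by ring) (dvd_zero _)
    set γ'' : Gamma0 N := γ * U * γ₀⁻¹ with hγ''
    have hadj : mat γ₀⁻¹ = (mat γ₀).adjugate := by simp [mat, Matrix.SpecialLinearGroup.coe_inv]
    have hq'' : (q : ℤ) ∣ mat γ'' 1 0 := by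
      refine ⟨(mat γ 1 0 * mat γ₀ 1 1 - mat γ 1 1 * mat γ₀ 1 0) * u, ?_⟩
      rw [hγ'', mat_mul, mat_mul, hadj]
      simp [U, j, Matrix.adjugate_fin_two, Matrix.mul_apply, Fin.sum_univ_two]
      linear_combination (mat γ 1 1 * mat γ₀ 1 0 - mat γ 1 0 * mat γ₀ 1 1) * huv
    obtain ⟨c', hc'⟩ := hq''
    have hN : (N : ℤ) ∣ c' :=
      (coprime_q_N hqN).symm.dvd_of_dvd_mul_left (hc' ▸ dvd_lower_left N γ'')
    have hd := mat_det γ''
    rw [Matrix.det_fin_two, hc'] at hd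
    set η := gamma0Mk N (mat γ'' 0 0) (q * mat γ'' 0 1) c' (mat γ'' 1 1)
      (by linear_combination hd) hN
    have hsum := P.compat γ'' η rfl rfl (by simp [η, hc']) rfl
    -- the columns
    have hcol : γ * U = γ'' * γ₀ := by rw [hγ'', inv_mul_cancel_right]
    have hcol0 : mat γ 0 0 = mat γ'' 0 0 * mat γ₀ 0 0 + mat γ'' 0 1 * mat γ₀ 1 0 := by
      have := congrArg (fun g => mat g 0 0) hcol
      simpa [mat_mul, U, Matrix.mul_apply, Fin.sum_univ_two] using this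
    have hcol1 : mat γ 1 0 = mat γ'' 1 0 * mat γ₀ 0 0 + mat γ'' 1 1 * mat γ₀ 1 0 := by
      have := congrArg (fun g => mat g 1 0) hcol
      simpa [mat_mul, U, Matrix.mul_apply, Fin.sum_univ_two] using this
    have h' : colv N q k (η * ε₀) = colv N q m ε := by
      rw [← h]
      funext i
      fin_cases i
      · simp [colv, dl, mat_mul, η, Matrix.mul_apply, Fin.sum_univ_two, he0, he1, hcol0]
        ring
      · simp [colv, dl, mat_mul, η, Matrix.mul_apply, Fin.sum_univ_two, he0, he1, hcol1, hc']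
        left; ring
    rw [← P.FO'_congr hqN h', FO, FO', ofMul_mul, map_add,
      apply_eq_of_col P.φ (δ := γ'' * γ₀)
        (by rw [mat_mul]; simp [Matrix.mul_apply, Fin.sum_univ_two, hcol0])
        (by rw [mat_mul]; simp [Matrix.mul_apply, Fin.sum_univ_two, hcol1]), ofMul_mul, map_add]
    have hstep : P.step hqN = -(P.φ.1 (Additive.ofMul γ₀) + P.ψ.1 (Additive.ofMul ε₀)) := rfl
    rw [hstep, eq_neg_of_add_eq_zero_left hsum]
    ring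

omit [NeZero N] in
include hqN in
theorem exists_dl_colv (k : ℤ) (γ : Gamma0 N) :
    ∃ (m : ℤ) (ε : Gamma0 N), dl q (colv N q k γ) = colv N q m ε := by
  by_cases hc : (q : ℤ) ∣ mat γ 1 0
  · obtain ⟨c', hc'⟩ := hc
    obtain ⟨ε, h0, h1⟩ := exists_col (N := N) (mat γ 0 0) c'
      (IsCoprime.of_mul_right_right (hc' ▸ isCoprime_col γ))
      ((coprime_q_N hqN).symm.dvd_of_dvd_mul_left (hc' ▸ dvd_lower_left N γ))
    refine ⟨k + 1, ε, funext fun i => ?_⟩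
    fin_cases i <;> simp [colv, dl, h0, h1, hc', zpow_add₀ (qQ_ne (q := q))] <;> ring
  · obtain ⟨ε, h0, h1⟩ := exists_col (N := N) (q * mat γ 0 0) (mat γ 1 0)
      (IsCoprime.mul_left ((Prime.coprime_iff_not_dvd (Nat.prime_iff_prime_int.mp Fact.out)).mpr hc)
        (isCoprime_col γ)) (dvd_lower_left N γ)
    refine ⟨k, ε, funext fun i => ?_⟩
    fin_cases i <;> simp [colv, dl, h0, h1] <;> ring

omit [NeZero N] in
theorem exists_colv_dl (m : ℤ) (ε : Gamma0 N) :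
    ∃ (k : ℤ) (γ : Gamma0 N), dl q (colv N q k γ) = colv N q m ε := by
  by_cases ha : (q : ℤ) ∣ mat ε 0 0
  · obtain ⟨a', ha'⟩ := ha
    obtain ⟨γ, h0, h1⟩ := exists_col (N := N) a' (mat ε 1 0)
      (IsCoprime.of_mul_left_right (ha' ▸ isCoprime_col ε)) (dvd_lower_left N ε)
    refine ⟨m, γ, funext fun i => ?_⟩
    fin_cases i <;> simp [colv, dl, h0, h1, ha'] <;> ring
  · obtain ⟨γ, h0, h1⟩ := exists_col (N := N) (mat ε 0 0) (q * mat ε 1 0)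
      (IsCoprime.mul_right ((Prime.coprime_iff_not_dvd
        (Nat.prime_iff_prime_int.mp Fact.out)).mpr ha).symm (isCoprime_col ε))
      (dvd_mul_of_dvd_right (dvd_lower_left N ε) _)
    refine ⟨m - 1, γ, funext fun i => ?_⟩
    fin_cases i <;> simp [colv, dl, h0, h1, zpow_sub₀ (qQ_ne (q := q))] <;>
      field_simp [qQ_ne (q := q)]

/-- `g` maps the orbit to itself, shifting the function by `χ`. -/
def Tr (g : SLQ) (χ : ZMod p) : Prop :=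
  ∀ (k : ℤ) (γ : Gamma0 N), ∃ (k' : ℤ) (γ' : Gamma0 N),
    g.1.mulVec (colv N q k γ) = colv N q k' γ' ∧ P.FO hqN k' γ' = P.FO hqN k γ + χ

omit [NeZero N] in
theorem Tr.unique {g : SLQ} {χ χ' : ZMod p} (h : P.Tr hqN g χ) (h' : P.Tr hqN g χ') : χ = χ' := by
  obtain ⟨k₁, γ₁, e₁, f₁⟩ := h 0 1
  obtain ⟨k₂, γ₂, e₂, f₂⟩ := h' 0 1
  rw [P.FO_congr hqN (e₁.symm.trans e₂), f₂] at f₁
  exact (add_left_cancel f₁).symm

omit [NeZero N] in
theorem Tr.mul {g h : SLQ} {χ χ' : ZMod p} (hg : P.Tr hqN g χ) (hh : P.Tr hqN h χ') :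
    P.Tr hqN (g * h) (χ + χ') := by
  intro k γ
  obtain ⟨k₁, γ₁, e₁, f₁⟩ := hh k γ
  obtain ⟨k₂, γ₂, e₂, f₂⟩ := hg k₁ γ₁
  exact ⟨k₂, γ₂, by rw [Matrix.SpecialLinearGroup.coe_mul, ← Matrix.mulVec_mulVec, e₁, e₂],
    by rw [f₂, f₁]; ring⟩

omit [NeZero N] in
theorem Tr.one : P.Tr hqN 1 0 := fun k γ => ⟨k, γ, by simp, by simp⟩

/-- The group of translations. -/
def grp : Subgroup SLQ where
  carrier := {g | (∃ χ, P.Tr hqN g χ) ∧ ∃ χ, P.Tr hqN g⁻¹ χ}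
  one_mem' := ⟨⟨0, Tr.one P hqN⟩, ⟨0, by simpa using Tr.one P hqN⟩⟩
  mul_mem' := fun {g h} ⟨⟨a, ha⟩, ⟨a', ha'⟩⟩ ⟨⟨b, hb⟩, ⟨b', hb'⟩⟩ =>
    ⟨⟨a + b, ha.mul P hqN hb⟩, ⟨b' + a', by rw [mul_inv_rev]; exact hb'.mul P hqN ha'⟩⟩
  inv_mem' := fun {g} ⟨ha, ha'⟩ => ⟨ha', by simpa using ha⟩

/-- The homomorphism on rational matrices, zero outside the group. -/
def Phi (g : SLQ) : ZMod p :=
  letI := Classical.propDecidable
  if h : g ∈ P.grp hqN then h.1.choose else 0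

theorem Phi_eq {g : SLQ} (hg : g ∈ P.grp hqN) {χ : ZMod p} (h : P.Tr hqN g χ) :
    P.Phi hqN g = χ := by
  rw [Phi, dif_pos hg]
  exact hg.1.choose_spec.unique P hqN h

theorem Phi_mul {g h : SLQ} (hg : g ∈ P.grp hqN) (hh : h ∈ P.grp hqN) :
    P.Phi hqN (g * h) = P.Phi hqN g + P.Phi hqN h := by
  obtain ⟨a, ha⟩ := hg.1
  obtain ⟨b, hb⟩ := hh.1
  rw [P.Phi_eq hqN (mul_mem hg hh) (ha.mul P hqN hb), P.Phi_eq hqN hg ha, P.Phi_eq hqN hh hb]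

theorem Phi_one : P.Phi hqN 1 = 0 := P.Phi_eq hqN (one_mem _) (Tr.one P hqN)

theorem Phi_inv {g : SLQ} (hg : g ∈ P.grp hqN) : P.Phi hqN g⁻¹ = -P.Phi hqN g := by
  have := P.Phi_mul hqN (inv_mem hg) hg
  rw [inv_mul_cancel, Phi_one] at this
  exact eq_neg_of_add_eq_zero_left this.symm

theorem Phi_conj {g h : SLQ} (hg : g ∈ P.grp hqN) (hh : h ∈ P.grp hqN) :
    P.Phi hqN (g * h * g⁻¹) = P.Phi hqN h := by
  rw [P.Phi_mul hqN (mul_mem hg hh) (inv_mem hg), P.Phi_mul hqN hg hh, P.Phi_inv hqN hg]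
  ring

theorem Phi_pow {g : SLQ} (hg : g ∈ P.grp hqN) (n : ℕ) :
    P.Phi hqN (g ^ n) = n * P.Phi hqN g := by
  induction n with
  | zero => simp [Phi_one]
  | succ n ih => rw [pow_succ, P.Phi_mul hqN (pow_mem hg n) hg, ih]; push_cast; ring

omit [NeZero N] in
theorem tr_gamma0 (γ : Gamma0 N) : P.Tr hqN (ιQ γ) (P.φ.1 (Additive.ofMul γ)) := by
  intro k δ
  refine ⟨k, γ * δ, funext fun i => ?_, ?_⟩
  · fin_cases i <;>
      simp [colv, mat_mul, Matrix.mulVec, dotProduct, Matrix.mul_apply, Fin.sum_univ_two, mat] <;>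
      ring
  · rw [FO, FO, ofMul_mul, map_add]; ring

omit [NeZero N] in
theorem gamma0_mem (γ : Gamma0 N) : ιQ γ ∈ P.grp hqN :=
  ⟨⟨_, P.tr_gamma0 hqN γ⟩, ⟨_, by simpa [map_inv] using P.tr_gamma0 hqN γ⁻¹⟩⟩

theorem Phi_gamma0 (γ : Gamma0 N) : P.Phi hqN (ιQ γ) = P.φ.1 (Additive.ofMul γ) :=
  P.Phi_eq hqN (P.gamma0_mem hqN γ) (P.tr_gamma0 hqN γ)

/-- Conjugate by `diag(q, 1)`. -/
def conjQ (γ : SL2Z) : SLQ :=
  ⟨!![(γ 0 0 : ℚ), (γ 0 1 : ℚ) / q; (q : ℚ) * γ 1 0, (γ 1 1 : ℚ)], by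
    rw [Matrix.det_fin_two_of]
    have h := congrArg (fun z : ℤ => (z : ℚ)) γ.2
    simp only [Matrix.det_fin_two, Int.cast_sub, Int.cast_mul, Int.cast_one] at h
    field_simp [qQ_ne (q := q)]
    linear_combination h⟩

theorem tr_conjQ (γ : Gamma0 N) :
    P.Tr hqN (conjQ (q := q) γ) (-P.ψ.1 (Additive.ofMul γ)) := by
  intro k δ
  obtain ⟨m, ε, hε⟩ := exists_dl_colv hqN k δ
  obtain ⟨k', δ', hδ'⟩ := exists_colv_dl (q := q) m (γ * ε)
  refine ⟨k', δ', ?_, ?_⟩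
  · have hinj : Function.Injective (dl q) := fun v w hvw => funext fun i => by
      fin_cases i
      · exact mul_left_cancel₀ (qQ_ne (q := q)) (congrFun hvw 0)
      · exact congrFun hvw 1
    refine hinj ?_
    rw [hδ']
    have h0 := congrFun hε 0
    have h1 := congrFun hε 1
    simp [colv, dl] at h0 h1
    funext i
    fin_cases i
    · simp [dl, colv, conjQ, mat_mul, Matrix.mulVec, dotProduct, Matrix.mul_apply,
        Fin.sum_univ_two, mat] at h0 h1 ⊢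
      field_simp [qQ_ne (q := q)] at h0 h1 ⊢
      linear_combination ((γ : SL2Z) 0 0 : ℚ) * h0 + ((γ : SL2Z) 0 1 : ℚ) * h1
    · simp [dl, colv, conjQ, mat_mul, Matrix.mulVec, dotProduct, Matrix.mul_apply,
        Fin.sum_univ_two, mat] at h0 h1 ⊢
      linear_combination ((γ : SL2Z) 1 0 : ℚ) * h0 + ((γ : SL2Z) 1 1 : ℚ) * h1
  · rw [P.FO_eq_FO' hqN hδ', P.FO_eq_FO' hqN hε, FO', FO', ofMul_mul, map_add]
    ring

theorem conjQ_mem (γ : Gamma0 N) : conjQ (q := q) γ ∈ P.grp hqN := by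
  refine ⟨⟨_, P.tr_conjQ hqN γ⟩, ⟨-P.ψ.1 (Additive.ofMul γ⁻¹), ?_⟩⟩
  have e : (conjQ (q := q) (γ : SL2Z))⁻¹ = conjQ (q := q) ((γ⁻¹ : Gamma0 N) : SL2Z) := by
    obtain ⟨a, b, c, d⟩ := slq_inv (conjQ (q := q) (γ : SL2Z))
    refine slq_ext (a.trans ?_) (b.trans ?_) (c.trans ?_) (d.trans ?_) <;>
      simp [conjQ, Matrix.SpecialLinearGroup.coe_inv, Matrix.adjugate_fin_two] <;> ring
  rw [e]
  exact P.tr_conjQ hqN γ⁻¹

/-- The unit `q`. -/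
def uq : ℚˣ := Units.mk0 (q : ℚ) qQ_ne

theorem Dq_mem : Dr (uq (q := q)) ∈ P.grp hqN := by
  obtain ⟨x, y, hxy⟩ : IsCoprime ((q : ℤ) ^ 2) (N : ℤ) := (coprime_q_N hqN).pow_left
  -- `q ^ 2 * x - (-y) * N = 1`
  set t : ℤ := x + -y
  set g₁ := gamma0Mk N (q * x) (-y) N (q * 1) (by linear_combination hxy) dvd_rfl
  set g₂ := gamma0Mk N 1 1 (N * t) (1 + N * t) (by ring) ⟨t, rfl⟩
  set g₃ := gamma0Mk N (x + -y * (N * t)) (q * x * t) (q * (N + (q : ℤ) ^ 2 * (N * t)))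
    (N + (q : ℤ) ^ 2 * (1 + N * t))
    (by simp only [t]
        linear_combination (1 - (q : ℤ) ^ 2 * N * (x + -y) ^ 2 - N * (x + -y)) * hxy)
    (Dvd.dvd.mul_left (dvd_add dvd_rfl (Dvd.dvd.mul_left (dvd_mul_right _ _) _)) _)
  have e : Dr (uq (q := q)) * ιQ g₃ = ιQ g₁ * conjQ (q := q) g₂ := by
    have hq := qQ_ne (q := q)
    have hxy' := congrArg (fun z : ℤ => (z : ℚ)) hxy
    push_cast at hxy'
    refine slq_ext ?_ ?_ ?_ ?_ <;> simp only [slq_mul, ιQ_apply] <;>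
      simp [g₁, g₂, g₃, conjQ, uq, t, gamma0Mk] <;> field_simp
    · linear_combination ((x : ℚ) + -y) * hxy'
  rw [show Dr (uq (q := q)) = ιQ g₁ * conjQ (q := q) g₂ * (ιQ g₃)⁻¹ by
    rw [← e, mul_inv_cancel_right]]
  exact mul_mem (mul_mem (P.gamma0_mem hqN _) (P.conjQ_mem hqN _)) (inv_mem (P.gamma0_mem hqN _))

theorem Dq_zpow_mem (k : ℤ) : Dr (uq (q := q) ^ k) ∈ P.grp hqN := by
  rw [show Dr (uq (q := q) ^ k) = Dr (uq (q := q)) ^ k from map_zpow DrHom _ k]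
  exact zpow_mem (P.Dq_mem hqN) k

omit [NeZero N] in
theorem ιQ_upper (z : ℤ) :
    ιQ (gamma0Mk N 1 z 0 1 (by ring) (dvd_zero _) : Gamma0 N) = Ur z := by
  refine slq_ext ?_ ?_ ?_ ?_ <;> rw [ιQ_apply] <;> simp [gamma0Mk]

omit [NeZero N] in
theorem ιQ_lower (z : ℤ) :
    ιQ (gamma0Mk N 1 0 (N * z) 1 (by ring) ⟨z, rfl⟩ : Gamma0 N) = Lr (N * z) := by
  refine slq_ext ?_ ?_ ?_ ?_ <;> rw [ιQ_apply] <;> simp [gamma0Mk]

theorem Ur_mem_and {y : ℚ} (hy : InR q y) :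
    Ur y ∈ P.grp hqN ∧ P.Phi hqN (Ur y) = 0 := by
  obtain ⟨n, z, hz⟩ := hy
  set D := Dr (uq (q := q) ^ (-(n : ℤ)))
  have hD : D ∈ P.grp hqN := P.Dq_zpow_mem hqN _
  have e : Ur y = D * Ur (((z * (q : ℤ) ^ n : ℤ)) : ℚ) * D⁻¹ := by
    rw [Dr_conj_Ur]
    congr 1
    simp [uq, ← hz]
    field_simp [qQ_ne (q := q)]
  have hz' : Ur (((z * (q : ℤ) ^ n : ℤ)) : ℚ) ∈ P.grp hqN := by
    rw [← ιQ_upper (N := N)]; exact P.gamma0_mem hqN _
  refine ⟨e ▸ mul_mem (mul_mem hD hz') (inv_mem hD), ?_⟩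
  rw [e, P.Phi_conj hqN hD hz', ← ιQ_upper (N := N), Phi_gamma0]
  exact P.φ.2 _ (parabolic_upper rfl)

theorem Lr_mem_and {y : ℚ} (hy : InR q y) :
    Lr ((N : ℚ) * y) ∈ P.grp hqN ∧ P.Phi hqN (Lr ((N : ℚ) * y)) = 0 := by
  obtain ⟨n, z, hz⟩ := hy
  set D := Dr (uq (q := q) ^ (n : ℤ))
  have hD : D ∈ P.grp hqN := P.Dq_zpow_mem hqN _
  have e : Lr ((N : ℚ) * y) = D * Lr ((N : ℚ) * ((z * (q : ℤ) ^ n : ℤ) : ℚ)) * D⁻¹ := by
    rw [Dr_conj_Lr]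
    congr 1
    simp [uq, ← hz]
    field_simp [qQ_ne (q := q)]
  have hz' : Lr ((N : ℚ) * ((z * (q : ℤ) ^ n : ℤ) : ℚ)) ∈ P.grp hqN := by
    rw [← ιQ_lower (N := N)]; exact P.gamma0_mem hqN _
  refine ⟨e ▸ mul_mem (mul_mem hD hz') (inv_mem hD), ?_⟩
  rw [e, P.Phi_conj hqN hD hz', ← ιQ_lower (N := N), Phi_gamma0]
  exact P.φ.2 _ (by simp [Matrix.trace_fin_two])

/-- Matrices over `ℤ[1/q]` with lower left entry divisible by `N` belong to the group. -/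
theorem mem_grp {g : SLQ} (h00 : InR q (g 0 0)) (h01 : InR q (g 0 1))
    (h10 : InR q (g 1 0 / N)) (h11 : InR q (g 1 1)) : g ∈ P.grp hqN := by
  obtain ⟨n₀, a₀, ha⟩ := h00
  obtain ⟨n₁, c₀, hc⟩ := h10
  obtain ⟨n₂, b₀, hb⟩ := h01
  obtain ⟨n₃, d₀, hd⟩ := h11
  set A : ℤ := a₀ * q ^ n₁
  set C : ℤ := N * c₀ * q ^ n₀
  have hN : (N : ℚ) ≠ 0 := Nat.cast_ne_zero.mpr (NeZero.ne N)
  have hA : (A : ℚ) = (q : ℚ) ^ (n₀ + n₁) * g 0 0 := by
    simp only [A]; push_cast; rw [← ha, pow_add]; ring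
  have hC : (C : ℚ) = (q : ℚ) ^ (n₀ + n₁) * g 1 0 := by
    simp only [C]; push_cast; rw [← hc, pow_add]; field_simp
  have hdet := g.2
  rw [Matrix.det_fin_two] at hdet
  have hdvd : ((Int.gcd A C : ℕ) : ℤ) ∣ (q : ℤ) ^ (n₀ + n₁ + n₂ + n₃) := by
    have : (q : ℤ) ^ (n₀ + n₁ + n₂ + n₃) = A * (d₀ * q ^ n₂) - C * (b₀ * q ^ n₃) := by
      apply Int.cast_injective (α := ℚ)
      push_cast
      rw [hA, hC, ← hd, ← hb]
      simp only [pow_add]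
      linear_combination -((q : ℚ) ^ n₀ * (q : ℚ) ^ n₁ * (q : ℚ) ^ n₂ * (q : ℚ) ^ n₃) * hdet
    rw [this]
    exact dvd_sub (Dvd.dvd.mul_right (Int.gcd_dvd_left _ _) _)
      (Dvd.dvd.mul_right (Int.gcd_dvd_right _ _) _)
  obtain ⟨i, -, hi⟩ := (Nat.dvd_prime_pow Fact.out).mp
    (show Int.gcd A C ∣ q ^ (n₀ + n₁ + n₂ + n₃) by exact_mod_cast hdvd)
  obtain ⟨a, hAa⟩ := Int.gcd_dvd_left A C
  obtain ⟨c, hCc⟩ := Int.gcd_dvd_right A C
  rw [hi] at hAa hCc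
  push_cast at hAa hCc
  have hco : IsCoprime a c := by
    rw [Int.isCoprime_iff_gcd_eq_one]
    have := hi
    rw [hAa, hCc, Int.gcd_mul_left] at this
    simp only [Int.natAbs_pow, Int.natAbs_natCast] at this
    exact mul_left_cancel₀ (pow_ne_zero i (Fact.out : q.Prime).ne_zero) (this.trans (mul_one _).symm)
  have hNc : (N : ℤ) ∣ c := by
    refine (((coprime_q_N hqN).pow_left (m := i)).symm).dvd_of_dvd_mul_left ?_
    rw [← hCc]
    exact Dvd.dvd.mul_right (dvd_mul_right _ _) _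
  obtain ⟨γ, hγ0, hγ1⟩ := exists_col (N := N) a c hco hNc
  set k : ℤ := (i : ℤ) - (n₀ + n₁ : ℕ)
  set y : ℚ := (q : ℚ) ^ (-k) * ((mat γ 1 1 : ℚ) * g 0 1 - (mat γ 0 1 : ℚ) * g 1 1)
  have hy : InR q y := by
    refine (InR.zpow (Fact.out : q.Prime).ne_zero _).mul ?_
    exact ((InR.int _).mul ⟨n₂, b₀, hb⟩).sub ((InR.int _).mul ⟨n₃, d₀, hd⟩)
  have e : g = ιQ γ * Dr (uq (q := q) ^ k) * Ur y := by
    have hq := qQ_ne (q := q)
    have hAa' := congrArg (fun z : ℤ => (z : ℚ)) hAa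
    have hCc' := congrArg (fun z : ℤ => (z : ℚ)) hCc
    push_cast at hAa' hCc'
    rw [hA] at hAa'
    rw [hC] at hCc'
    have hk : (q : ℚ) ^ k = (q : ℚ) ^ i / (q : ℚ) ^ (n₀ + n₁) := by
      simp only [k, zpow_sub₀ hq, zpow_natCast]
    have e0 : g 0 0 = (q : ℚ) ^ k * mat γ 0 0 := by
      rw [hk, hγ0]; field_simp; linear_combination hAa'
    have e1 : g 1 0 = (q : ℚ) ^ k * mat γ 1 0 := by
      rw [hk, hγ1]; field_simp; linear_combination hCc'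
    have hm := congrArg (fun z : ℤ => (z : ℚ)) (mat_det γ)
    rw [Matrix.det_fin_two] at hm
    push_cast at hm
    have hne : (q : ℚ) ^ k ≠ 0 := zpow_ne_zero _ hq
    refine slq_ext ?_ ?_ ?_ ?_ <;> simp [slq_mul, uq, y, zpow_neg, mat] at e0 e1 hm ⊢
    · linear_combination e0
    · rw [e0, e1] at hdet
      field_simp
      linear_combination ((γ : SL2Z) 0 1 : ℚ) * hdet - (q : ℚ) ^ k * g 0 1 * hm
    · linear_combination e1
    · rw [e0, e1] at hdet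
      field_simp
      linear_combination ((γ : SL2Z) 1 1 : ℚ) * hdet - (q : ℚ) ^ k * g 1 1 * hm
  rw [e]
  exact mul_mem (mul_mem (P.gamma0_mem hqN γ) (P.Dq_zpow_mem hqN k)) (P.Ur_mem_and hqN hy).1

end CompatPair

end FLTAgent.LevelRaise
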