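import Fermat.Agent.LevelRaise.Pairing
import Fermat.Agent.LevelRaise.Farey

/-!
Invariant cocycles on triples of cusps; their value on the triangulated surface does not change
under matrices of positive determinant normalising the group.
-/

set_option autoImplicit false

noncomputable section

open scoped MatrixGroups
open CongruenceSubgroup FLTAgent.PeriodHecke

namespace FLTAgent.LevelRaise

local notation "SL2Z" => Matrix.SpecialLinearGroup (Fin 2) ℤ
local notation "M2" => Matrix (Fin 2) (Fin 2) ℤ
local notation "S'" => (ModularGroup.S : SL2Z)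
local notation "T'" => (ModularGroup.T : SL2Z)
local notation "R'" => ((ModularGroup.S * ModularGroup.T : SL2Z))

variable {M : ℕ}

local notation "Γ₀" => Gamma0 M

/-- An alternating cocycle on triples of cusps, invariant under the group. -/
structure IsInvCoc (M : ℕ) (w : Pt → Pt → Pt → ℚ) : Prop where
  coc : ∀ a b c d, w b c d - w a c d + w a b d - w a b c = 0
  left : ∀ a b, w a a b = 0
  right : ∀ a b, w a b b = 0
  outer : ∀ a b, w a b a = 0
  swap : ∀ a b c, w a c b = -w a b c
  inv : ∀ (γ : Gamma0 M) a b c, w (actPt (mat γ) a) (actPt (mat γ) b) (actPt (mat γ) c) = w a b c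

theorem IsInvCoc.swap₁ {w : Pt → Pt → Pt → ℚ} (hw : IsInvCoc M w) (a b c : Pt) :
    w b a c = -w a b c := by
  have h := hw.coc a b a c
  rw [hw.left, hw.outer] at h
  linarith

theorem IsInvCoc.sub_smul {w w' : Pt → Pt → Pt → ℚ} (hw : IsInvCoc M w) (hw' : IsInvCoc M w')
    (r : ℚ) : IsInvCoc M (fun a b c => w a b c - r * w' a b c) where
  coc a b c d := by linear_combination hw.coc a b c d - r * hw'.coc a b c d
  left a b := by simp [hw.left, hw'.left]
  right a b := by simp [hw.right, hw'.right]
  outer a b := by simp [hw.outer, hw'.outer]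
  swap a b c := by simp only [hw.swap a b c, hw'.swap a b c]; ring
  inv γ a b c := by simp only [hw.inv, hw'.inv]

theorem mat_eq_coe (γ : Γ₀) : mat γ = ((γ : SL2Z) : M2) := rfl

theorem det_mat_ne (γ : Γ₀) : (mat γ).det ≠ 0 := det_sl_ne (γ : SL2Z)

/-- The value on the triangle of a coset. -/
def triVal (w : Pt → Pt → Pt → ℚ) (x : Cos M) : ℚ :=
  w (vtx x.out) (vtx (R' * x.out)) (vtx (R' * (R' * x.out)))

theorem vtx_coset {g : SL2Z} {γ : Γ₀} (k : SL2Z) :
    vtx (k * (g * γ)) = actPt (mat γ⁻¹) (vtx (k * g)) := by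
  rw [← mul_assoc, vtx_mul]; rfl

/-- The sum over all triangles. -/
def total (M : ℕ) [NeZero M] (w : Pt → Pt → Pt → ℚ) : ℚ := ∑ x : Cos M, triVal w x

theorem IsInvCoc.triVal_mk {w : Pt → Pt → Pt → ℚ} (hw : IsInvCoc M w) (g : SL2Z) :
    triVal w (g : Cos M) = w (vtx g) (vtx (R' * g)) (vtx (R' * (R' * g))) := by
  obtain ⟨γ, hγ⟩ := QuotientGroup.mk_out_eq_mul Γ₀ g
  unfold triVal
  rw [hγ]
  have h : vtx (g * γ) = actPt (mat γ⁻¹) (vtx g) := by
    simpa using vtx_coset (g := g) (γ := γ) 1
  rw [h, vtx_coset (g := g) (γ := γ), show R' * (R' * (g * γ)) = R' * R' * (g * γ) by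
    simp only [mul_assoc], vtx_coset (g := g) (γ := γ), hw.inv]
  simp only [mul_assoc]

/-! ### Functions on edges -/

open Classical in
/-- A function on adjacent pairs from a function on cosets. -/
def edgeFun (u : Cos M → ℚ) (a b : Pt) : ℚ :=
  if h : Adj a b then u ((h.exists_frame.choose : SL2Z) : Cos M) else 0

theorem edgeFun_vtx (u : Cos M → ℚ) (g : SL2Z) :
    edgeFun u (vtx g) (vtx (S' * g)) = u (g : Cos M) := by
  rw [edgeFun, dif_pos (adj_vtx_S g)]
  obtain ⟨h1, h2⟩ := (adj_vtx_S g).exists_frame.choose_spec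
  rcases eq_or_neg_of_vtx_eq h1.symm h2.symm with h | h
  · rw [h]
  · rw [h, show ((-g : SL2Z) : Cos M) = (-1 : SL2Z) • (g : Cos M) by
      rw [MulAction.Quotient.smul_coe, smul_eq_mul, neg_one_mul],
      ES.neg_one_smul_coset (ES.Gamma0_neg_one_mem (N := M))]

theorem edgeFun_of_not {u : Cos M → ℚ} {a b : Pt} (h : ¬ Adj a b) : edgeFun u a b = 0 :=
  dif_neg h

theorem adj_act_iff (γ : Γ₀) (a b : Pt) : Adj (actPt (mat γ) a) (actPt (mat γ) b) ↔ Adj a b := by
  refine ⟨fun h => ?_, fun h => h.act (γ : SL2Z)⟩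
  have h' := h.act ((γ : SL2Z)⁻¹)
  rwa [mat_eq_coe, actPt_actPt _ _ (det_sl_ne _), actPt_actPt _ _ (det_sl_ne _),
    ← Matrix.SpecialLinearGroup.coe_mul, inv_mul_cancel, Matrix.SpecialLinearGroup.coe_one,
    actPt_one, actPt_one] at h'

theorem edgeFun_inv (u : Cos M → ℚ) (γ : Γ₀) (a b : Pt) :
    edgeFun u (actPt (mat γ) a) (actPt (mat γ) b) = edgeFun u a b := by
  by_cases h : Adj a b
  · obtain ⟨g, rfl, rfl⟩ := h.exists_frame
    rw [mat_eq_coe, act_vtx, act_vtx, mul_assoc, edgeFun_vtx, edgeFun_vtx]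
    congr 1
    rw [QuotientGroup.eq]
    simp
  · rw [edgeFun_of_not h, edgeFun_of_not fun h' => h ((adj_act_iff γ a b).mp h')]

theorem edgeFun_swap {u : Cos M → ℚ} (hu : ∀ x, u (S' • x) = -u x) {a b : Pt} (h : Adj a b) :
    edgeFun u b a = -edgeFun u a b := by
  obtain ⟨g, rfl, rfl⟩ := h.exists_frame
  have := edgeFun_vtx u (S' * g)
  rw [vtx_SS] at this
  rw [this, edgeFun_vtx, ← hu]
  congr 1

theorem edgeFun_triangle (u : Cos M → ℚ) (g : SL2Z) :
    edgeFun u (vtx g) (vtx (R' * g)) = u (T' • (g : Cos M)) := by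
  have := edgeFun_vtx u (T' * g)
  rw [vtx_T, vtx_ST] at this
  exact this

variable [NeZero M]

/-- A function of total zero on triangles is a coboundary of a function on edges. -/
theorem exists_edge_solution {t : Cos M → ℚ} (ht : ∀ x, t (R' • x) = t x) (h0 : ∑ x, t x = 0) :
    ∃ u : Cos M → ℚ, (∀ x, u (S' • x) = -u x) ∧
      ∀ x, u (T' • x) + u (T' • R' • x) + u (T' • R' • R' • x) = t x := by
  classical
  let L : (Cos M → ℚ) →ₗ[ℚ] (Cos M → ℚ) :=
    { toFun := fun v x => (v (T' • x) - v (S' • T' • x)) + (v (T' • R' • x) - v (S' • T' • R' • x))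
        + (v (T' • R' • R' • x) - v (S' • T' • R' • R' • x))
      map_add' := fun v v' => by funext x; simp only [Pi.add_apply]; ring
      map_smul' := fun r v => by funext x; simp only [Pi.smul_apply, smul_eq_mul, RingHom.id_apply]; ring }
  suffices t ∈ LinearMap.range L by
    obtain ⟨v, hv⟩ := this
    refine ⟨fun x => v x - v (S' • x), fun x => by simp only [S_smul_S_smul]; ring,
      fun x => congrFun hv x⟩
  by_contra hne
  obtain ⟨f, hft, hf⟩ := Submodule.exists_dual_map_eq_bot_of_notMem hne inferInstance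
  have hf' : ∀ v, f (L v) = 0 := fun v => by
    have : f (L v) ∈ (LinearMap.range L).map f :=
      Submodule.mem_map_of_mem (LinearMap.mem_range_self L v)
    rwa [hf, Submodule.mem_bot] at this
  let a : Cos M → ℚ := fun x => f (Pi.single x 1)
  have hfa : ∀ v : Cos M → ℚ, f v = ∑ x, v x * a x := fun v => by
    conv_lhs => rw [pi_eq_sum_univ' v]
    simp [a, map_sum, map_smul]
  let ν : Cos M → ℚ := fun x => a x + a (R' • x) + a (R' • R' • x)
  have hRRR : ∀ x : Cos M, R' • R' • R' • x = x := fun x => by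
    rw [smul_smul, smul_smul, show R' * R' * R' = -1 from by decide, neg_smul_cos]
  have hνR : ∀ x, ν (R' • x) = ν x := fun x => by simp only [ν, hRRR]; ring
  -- testing against a single coset
  have hkey : ∀ v : Cos M → ℚ, ∑ x, (v (T' • x) - v (S' • T' • x)) * ν x = 0 := by
    intro v
    have hs : ∀ F G : Cos M → ℚ, ∑ x, F (R' • x) * G x = ∑ x, F x * G (R' • R' • x) := fun F G => by
      rw [← sum_smul_cos R' (fun x => F x * G (R' • R' • x))]
      simp only [hRRR]
    have := hf' v
    rw [hfa] at this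
    simp only [L, LinearMap.coe_mk, AddHom.coe_mk, add_mul, Finset.sum_add_distrib] at this
    set F : Cos M → ℚ := fun x => v (T' • x) - v (S' • T' • x)
    have e1 := hs F a
    have e2 := hs (fun x => F (R' • x)) a
    have e3 := hs F (fun x => a (R' • R' • x))
    simp only [hRRR] at e3
    show ∑ x, F x * ν x = 0
    simp only [ν, mul_add, Finset.sum_add_distrib]
    change ∑ x, F x * a x + ∑ x, F (R' • x) * a x + ∑ x, F (R' • R' • x) * a x = 0 at this
    linarith [e1, e2, e3, this]
  have hνS : ∀ y : Cos M, ν (T'⁻¹ • y) = ν (T'⁻¹ • S' • y) := by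
    intro y
    have := hkey (Pi.single y 1)
    have e : ∀ x : Cos M, (T' • x = y ↔ x = T'⁻¹ • y) ∧ (S' • T' • x = y ↔ x = T'⁻¹ • S' • y) :=
      fun x => ⟨eq_inv_smul_iff.symm, fun h => by rw [← h, S_smul_S_smul, inv_smul_smul],
        fun h => by rw [h, smul_inv_smul, S_smul_S_smul]⟩
    simp only [Pi.single_apply, sub_mul, Finset.sum_sub_distrib, ite_mul, one_mul, zero_mul,
      (e _).1, (e _).2, Finset.sum_ite_eq', Finset.mem_univ, if_true] at this
    linarith
  have hνT : ∀ x, ν (T' • x) = ν x := by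
    intro x
    have h1 := hνS (T' • x)
    rw [inv_smul_smul] at h1
    have h2 := hνR (T'⁻¹ • S' • T' • x)
    rw [R_smul (T'⁻¹ • S' • T' • x), smul_inv_smul, S_smul_S_smul] at h2
    rw [h1, h2]
  have hconst : ∀ x, ν x = ν ((1 : SL2Z) : Cos M) := by
    have hνS' : ∀ x, ν (S' • x) = ν x := fun x => by
      rw [show S' • x = R' • T'⁻¹ • x by rw [R_smul, smul_inv_smul], hνR, ← hνT (T'⁻¹ • x),
        smul_inv_smul]
    have h : ∀ g : SL2Z, ∀ z, ν (g • z) = ν z :=
      ES.smul_generators_induction (P := fun g => ∀ z, ν (g • z) = ν z) hνS' hνT (by simp)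
        (fun a b ha hb z => by rw [mul_smul, ha, hb])
        (fun a ha z => by rw [← ha (a⁻¹ • z), smul_inv_smul])
    intro x
    induction x using QuotientGroup.induction_on with
    | H z => rw [← h z ((1 : SL2Z) : Cos M), MulAction.Quotient.smul_coe, smul_eq_mul, mul_one]
  have h3 : ∑ x, t x * ν x = 3 * f t := by
    have hs : ∀ G : Cos M → ℚ, ∑ x, t x * G (R' • x) = ∑ x, t x * G x := fun G => by
      rw [← sum_smul_cos R' (fun x => t x * G x)]
      simp only [ht]
    rw [hfa]
    simp only [ν, mul_add, Finset.sum_add_distrib]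
    rw [hs a, hs (fun x => a (R' • x)), hs a]
    ring
  refine hft ?_
  have : ∑ x, t x * ν x = 0 := by
    simp only [hconst, ← Finset.sum_mul, h0, zero_mul]
  linarith

/-- An invariant cocycle with total zero is the coboundary of an invariant function on pairs. -/
theorem exists_coboundary_of_total {w : Pt → Pt → Pt → ℚ} (hw : IsInvCoc M w)
    (h0 : total M w = 0) :
    ∃ θ : Pt → Pt → ℚ, (∀ (γ : Γ₀) a b, θ (actPt (mat γ) a) (actPt (mat γ) b) = θ a b) ∧
      (∀ a b, θ b a = -θ a b) ∧ ∀ a b c, w a b c = θ b c - θ a c + θ a b := by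
  classical
  have htR : ∀ x : Cos M, triVal w (R' • x) = triVal w x := by
    intro x
    induction x using QuotientGroup.induction_on with
    | H g =>
      rw [MulAction.Quotient.smul_coe, smul_eq_mul, hw.triVal_mk, hw.triVal_mk, vtx_RRR]
      have h1 := hw.swap₁ (vtx (R' * g)) (vtx g) (vtx (R' * (R' * g)))
      have h2 := hw.swap (vtx (R' * g)) (vtx g) (vtx (R' * (R' * g)))
      linarith
  obtain ⟨u, huS, hu⟩ := exists_edge_solution htR h0
  set e := edgeFun u
  let dd : Pt → Pt → Pt → ℚ := fun a v v' => e v v' - w a v v'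
  have hanti : ∀ a v v', Adj v v' → dd a v' v = -dd a v v' := fun a v v' h => by
    simp only [dd, e, edgeFun_swap huS h, hw.swap a v v']; ring
  have htri0 : ∀ g : SL2Z, e (vtx g) (vtx (R' * g)) + e (vtx (R' * g)) (vtx (R' * (R' * g))) +
      e (vtx (R' * (R' * g))) (vtx g) = w (vtx g) (vtx (R' * g)) (vtx (R' * (R' * g))) := by
    intro g
    have h1 := hu (g : Cos M)
    rw [hw.triVal_mk] at h1
    rw [← h1]
    have h3 := edgeFun_triangle u (R' * (R' * g))
    rw [vtx_RRR] at h3
    simp only [e, edgeFun_triangle, h3]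
    rfl
  have htri : ∀ a v₁ v₂ v₃, Adj v₁ v₂ → Adj v₂ v₃ → Adj v₁ v₃ →
      dd a v₁ v₂ + dd a v₂ v₃ + dd a v₃ v₁ = 0 := by
    intro a v₁ v₂ v₃ h12 h23 h13
    have hc := hw.coc a v₁ v₂ v₃
    have hs : w a v₃ v₁ = -w a v₁ v₃ := hw.swap a v₁ v₃
    obtain ⟨g, ⟨rfl, rfl⟩ | ⟨rfl, rfl⟩, rfl⟩ := exists_triangle h12 h23 h13
    · simp only [dd]
      linarith [htri0 g]
    · have h0 := htri0 g
      have s1 := edgeFun_swap huS h12
      have s2 := edgeFun_swap huS h23
      have s3 := edgeFun_swap huS h13
      have s4 := hw.swap₁ (vtx g) (vtx (R' * g)) (vtx (R' * (R' * g)))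
      simp only [dd, e] at *
      linarith
  let gg : Pt → Pt → ℚ := fun a => farPot (dd a)
  let θ : Pt → Pt → ℚ := fun a b => gg a b - gg a a
  have hgg : ∀ a v v', Adj v v' → gg a v' - gg a v = e v v' - w a v v' :=
    fun a v v' h => farPot_spec (dd a) (hanti a) (htri a) v v' h
  have hinvθ : ∀ (γ : Γ₀) a b, θ (actPt (mat γ) a) (actPt (mat γ) b) = θ a b := by
    intro γ a b
    set F : Pt → ℚ := fun v => gg (actPt (mat γ) a) (actPt (mat γ) v) - gg a v
    have hF : ∀ v v', Adj v v' → F v = F v' := fun v v' h => by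
      have h1 := hgg a v v' h
      have h2 := hgg (actPt (mat γ) a) _ _ ((adj_act_iff γ v v').mpr h)
      rw [hw.inv, show e (actPt (mat γ) v) (actPt (mat γ) v') = e v v' from edgeFun_inv u γ v v']
        at h2
      simp only [F]; linarith
    have := (eq_of_edges hF b).trans (eq_of_edges hF a).symm
    simp only [F, θ] at this ⊢
    linarith
  have hzero : ∀ a, θ a a = 0 := fun a => sub_self _
  have hD : ∀ a b c, w a b c = θ b c - θ a c + θ a b := by
    intro a b c
    set D : Pt → Pt → Pt → ℚ := fun a b c => w a b c - (θ b c - θ a c + θ a b)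
    have hDadj : ∀ a b c, Adj b c → D a b c = 0 := fun a b c h => by
      have h1 := hgg a b c h
      have h2 := hgg b b c h
      rw [hw.left] at h2
      simp only [D, θ]; linarith
    have hcst : ∀ c c', Adj c c' → D a b c = D a b c' := fun c c' h => by
      have h1 := hDadj b c c' h
      have h2 := hDadj a c c' h
      have h3 := hw.coc a b c c'
      simp only [D] at h1 h2 ⊢
      linarith
    have h4 := (eq_of_edges hcst c).trans (eq_of_edges hcst b).symm
    simp only [D, hw.right, hzero] at h4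
    linarith
  refine ⟨θ, hinvθ, fun a b => ?_, hD⟩
  have := hD a b a
  rw [hw.outer, hzero] at this
  linarith

/-- Coboundaries have total zero. -/
theorem total_coboundary (θ : Pt → Pt → ℚ)
    (hinv : ∀ (γ : Γ₀) a b, θ (actPt (mat γ) a) (actPt (mat γ) b) = θ a b)
    (hanti : ∀ a b, θ b a = -θ a b) :
    total M (fun a b c => θ b c - θ a c + θ a b) = 0 := by
  let E : Cos M → ℚ := fun x => θ (vtx x.out) (vtx (S' * x.out))
  have hE : ∀ g : SL2Z, E (g : Cos M) = θ (vtx g) (vtx (S' * g)) := fun g => by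
    obtain ⟨γ, hγ⟩ := QuotientGroup.mk_out_eq_mul Γ₀ g
    simp only [E]
    rw [hγ]
    have h : vtx (g * γ) = actPt (mat γ⁻¹) (vtx g) := by
      simpa using vtx_coset (g := g) (γ := γ) 1
    rw [h, vtx_coset (g := g) (γ := γ), hinv]
  have hT : ∀ g : SL2Z, θ (vtx g) (vtx (R' * g)) = E (T' • (g : Cos M)) := fun g => by
    rw [MulAction.Quotient.smul_coe, smul_eq_mul, hE, vtx_T, vtx_ST]
  have hS : ∑ x, E x = 0 := by
    have h : ∑ x, E (S' • x) = -∑ x, E x := by
      rw [← Finset.sum_neg_distrib]
      refine Finset.sum_congr rfl fun x _ => ?_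
      induction x using QuotientGroup.induction_on with
      | H g => rw [MulAction.Quotient.smul_coe, smul_eq_mul, hE, hE, vtx_SS, hanti]
    rw [sum_smul_cos] at h
    linarith
  unfold total triVal
  have key : ∀ x : Cos M, θ (vtx (R' * x.out)) (vtx (R' * (R' * x.out))) -
      θ (vtx x.out) (vtx (R' * (R' * x.out))) + θ (vtx x.out) (vtx (R' * x.out)) =
      E (T' • R' • x) + E (T' • R' • R' • x) + E (T' • x) := fun x => by
    have hx : ∀ k : SL2Z, ((k * x.out : SL2Z) : Cos M) = k • x := fun k => by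
      rw [← smul_eq_mul, ← MulAction.Quotient.smul_coe, QuotientGroup.out_eq']
    have h4 : ((R' * (R' * x.out) : SL2Z) : Cos M) = R' • R' • x := by
      rw [← mul_assoc, hx, mul_smul]
    have h3 := hT (R' * (R' * x.out))
    rw [vtx_RRR, h4] at h3
    rw [hanti (vtx (R' * (R' * x.out))) (vtx x.out), hT, hT, hx, QuotientGroup.out_eq', h3]
    ring
  simp only [key, Finset.sum_add_distrib]
  rw [sum_smul_cos R' (fun x => E (T' • x)), sum_smul_cos R' (fun x => E (T' • R' • x)),
    sum_smul_cos R' (fun x => E (T' • x)), sum_smul_cos, hS]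
  norm_num

/-! ### The orientation cocycle -/

/-- The sign as a rational number. -/
def sgn (r : ℚ) : ℚ := (SignType.sign r : ℚ)

theorem sgn_mul (r s : ℚ) : sgn (r * s) = sgn r * sgn s := by simp [sgn, sign_mul]

theorem sgn_of_pos {r : ℚ} (h : 0 < r) : sgn r = 1 := by simp [sgn, sign_pos h]

theorem sgn_zero : sgn 0 = 0 := by simp [sgn]

theorem sgn_neg (r : ℚ) : sgn (-r) = -sgn r := by
  simp [sgn, Left.sign_neg]

/-- The orientation of three cusps. -/
def orient (a b c : Pt) : ℚ :=
  sgn (det2 a b) + sgn (det2 b c) + sgn (det2 c a)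

theorem det2_none_some (r : ℚ) : ((det2 none (some r) : ℤ) : ℚ) = r.den := by simp [det2, pn, pd]

theorem det2_some_some (r s : ℚ) :
    sgn (det2 (some r) (some s) : ℤ) = sgn (r - s) := by
  have hr : (0 : ℚ) < r.den * s.den := by positivity
  have : ((det2 (some r) (some s) : ℤ) : ℚ) = (r - s) * (r.den * s.den) := by
    simp only [det2, pn_some, pd_some]
    push_cast
    have h1 := Rat.mul_den_eq_num r
    have h2 := Rat.mul_den_eq_num s
    linear_combination -(s.den : ℚ) * h1 + (r.den : ℚ) * h2
  rw [this, sgn_mul, sgn_of_pos hr, mul_one]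

theorem orient_eq (a b c : Pt) :
    orient a b c = -(sgn (det2 a b) * sgn (det2 b c) * sgn (det2 c a)) := by
  have hself : ∀ p : Pt, det2 p p = 0 := fun p => by simp [det2]; ring
  have hns : ∀ r : ℚ, sgn (det2 none (some r) : ℤ) = 1 ∧ sgn (det2 (some r) none : ℤ) = -1 := by
    intro r
    refine ⟨?_, ?_⟩
    · rw [det2_none_some]; exact sgn_of_pos (by positivity)
    · rw [det2_swap, Int.cast_neg, sgn_neg, det2_none_some, sgn_of_pos (by positivity)]
  have h0 : sgn 0 = 0 := by simp [sgn]
  have hlt : ∀ x y : ℚ, x < y → sgn (x - y) = -1 ∧ sgn (y - x) = 1 := fun x y h => by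
    have : sgn (y - x) = 1 := sgn_of_pos (sub_pos.mpr h)
    exact ⟨by rw [← neg_sub, sgn_neg, this], this⟩
  unfold orient
  cases a with
  | none => cases b with
    | none => cases c <;> simp [hself, h0, hns]
    | some r => cases c with
      | none => simp [hself, h0, hns]
      | some s =>
        rw [(hns r).1, (hns s).2, det2_some_some]
        rcases lt_trichotomy r s with h | rfl | h
        · rw [(hlt r s h).1]; norm_num
        · simp [h0]
        · rw [(hlt s r h).2]; norm_num
  | some r => cases b with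
    | none => cases c with
      | none => simp [hself, h0, hns]
      | some s =>
        rw [(hns r).2, (hns s).1, det2_some_some]
        rcases lt_trichotomy r s with h | rfl | h
        · rw [(hlt r s h).2]; norm_num
        · simp [h0]
        · rw [(hlt s r h).1]; norm_num
    | some s => cases c with
      | none =>
        rw [(hns r).1, (hns s).2, det2_some_some]
        rcases lt_trichotomy r s with h | rfl | h
        · rw [(hlt r s h).1]; norm_num
        · simp [h0]
        · rw [(hlt s r h).2]; norm_num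
      | some t =>
        simp only [det2_some_some]
        rcases lt_trichotomy r s with h | h | h <;> rcases lt_trichotomy s t with h' | h' | h' <;>
          rcases lt_trichotomy r t with h'' | h'' | h'' <;>
          first
            | (exfalso; linarith)
            | (subst_vars; simp [h0, hlt, *])

theorem orient_act {W : M2} (hW : 0 < W.det) (a b c : Pt) :
    orient (actPt W a) (actPt W b) (actPt W c) = orient a b c := by
  have hW' : W.det ≠ 0 := hW.ne'
  obtain ⟨l, hl, a1, a2⟩ := exists_scale (image_ne hW' a)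
  obtain ⟨m, hm, b1, b2⟩ := exists_scale (image_ne hW' b)
  obtain ⟨n, hn, c1, c2⟩ := exists_scale (image_ne hW' c)
  have key : ∀ (p r : Pt) (i j : ℤ),
      W 0 0 * pn p + W 0 1 * pd p = i * pn (actPt W p) →
      W 1 0 * pn p + W 1 1 * pd p = i * pd (actPt W p) →
      W 0 0 * pn r + W 0 1 * pd r = j * pn (actPt W r) →
      W 1 0 * pn r + W 1 1 * pd r = j * pd (actPt W r) →
      sgn W.det * sgn (det2 p r : ℤ) = sgn i * sgn j * sgn (det2 (actPt W p) (actPt W r) : ℤ) := by
    intro p r i j e1 e2 e3 e4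
    have e : W.det * det2 p r = i * j * det2 (actPt W p) (actPt W r) := by
      have : W.det * det2 p r = (W 0 0 * pn p + W 0 1 * pd p) * (W 1 0 * pn r + W 1 1 * pd r) -
          (W 1 0 * pn p + W 1 1 * pd p) * (W 0 0 * pn r + W 0 1 * pd r) := by
        simp only [det2, Matrix.det_fin_two]; ring
      rw [this, e1, e2, e3, e4]
      simp only [det2]; ring
    rw [← sgn_mul, ← sgn_mul, ← sgn_mul]
    exact_mod_cast congrArg (fun z : ℤ => sgn (z : ℚ)) e
  have hd : sgn (W.det : ℚ) = 1 := sgn_of_pos (by exact_mod_cast hW)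
  have hsq : ∀ i : ℤ, i ≠ 0 → sgn (i : ℚ) * sgn (i : ℚ) = 1 := fun i hi => by
    rw [← sgn_mul]; exact sgn_of_pos (mul_self_pos.mpr (Int.cast_ne_zero.mpr hi))
  have k1 := key a b l m a1 a2 b1 b2
  have k2 := key b c m n b1 b2 c1 c2
  have k3 := key c a n l c1 c2 a1 a2
  rw [hd, one_mul] at k1 k2 k3
  rw [orient_eq, orient_eq, k1, k2, k3]
  linear_combination (sgn (det2 (actPt W a) (actPt W b) : ℤ) *
    sgn (det2 (actPt W b) (actPt W c) : ℤ) * sgn (det2 (actPt W c) (actPt W a) : ℤ)) *
    ((sgn (m : ℚ) * sgn (m : ℚ)) * (sgn (n : ℚ) * sgn (n : ℚ)) * (hsq l hl) +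
      (sgn (n : ℚ) * sgn (n : ℚ)) * (hsq m hm) + hsq n hn)

omit [NeZero M] in
theorem isInvCoc_orient : IsInvCoc M orient where
  coc a b c d := by
    simp only [orient, det2_swap c a, det2_swap d a, det2_swap d b, det2_swap d c]
    push_cast
    simp only [sgn_neg, det2_swap b a]
    ring
  left a b := by
    simp only [orient, det2_swap a b, show det2 a a = 0 by simp [det2]; ring]
    simp [sgn_neg, sgn_zero]
  right a b := by
    simp only [orient, det2_swap a b, show det2 b b = 0 by simp [det2]; ring]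
    simp [sgn_neg, sgn_zero]
  outer a b := by
    simp only [orient, det2_swap a b, show det2 a a = 0 by simp [det2]; ring]
    simp [sgn_neg, sgn_zero]
  swap a b c := by
    simp only [orient, det2_swap a b, det2_swap b c, det2_swap c a]
    push_cast
    simp only [sgn_neg]
    ring
  inv γ a b c := orient_act (by rw [mat_det]; norm_num) a b c

theorem total_orient_ne : total M orient ≠ 0 := by
  have h : ∀ x : Cos M, triVal orient x = -1 := fun x => by
    induction x using QuotientGroup.induction_on with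
    | H g =>
      rw [(isInvCoc_orient (M := M)).triVal_mk,
        ← orient_act (W := (g : M2)) (by rw [g.2]; norm_num), act_vtx, act_vtx, act_vtx,
        mul_inv_cancel, mul_inv_cancel_right, ← mul_assoc R' R' g, mul_inv_cancel_right]
      simp [orient, vtx, mkPt, det2, pn, pd, sgn, ModularGroup.coe_S, ModularGroup.coe_T,
        Matrix.mul_apply, Fin.sum_univ_two]
  simp [total, h]

/-- The total of an invariant cocycle does not change under a normalising matrix of positive
determinant. -/
theorem total_comp (c : Γ₀ →* Γ₀) {W : M2} (hW : 0 < W.det)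
    (hc : ∀ γ, W * mat γ = mat (c γ) * W) {w : Pt → Pt → Pt → ℚ} (hw : IsInvCoc M w) :
    total M (fun a b d => w (actPt W a) (actPt W b) (actPt W d)) = total M w := by
  set r := total M w / total M orient
  have hw' := hw.sub_smul (isInvCoc_orient (M := M)) r
  have h0 : total M (fun a b d => w a b d - r * orient a b d) = 0 := by
    simp only [total, triVal, Finset.sum_sub_distrib, ← Finset.mul_sum]
    exact sub_eq_zero.mpr (div_mul_cancel₀ (total M w) (total_orient_ne (M := M))).symm
  obtain ⟨θ, hinv, hanti, hθ⟩ := exists_coboundary_of_total hw' h0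
  have hcomm : ∀ (γ : Γ₀) a, actPt W (actPt (mat γ) a) = actPt (mat (c γ)) (actPt W a) :=
    fun γ a => by
      rw [actPt_actPt _ _ (det_mat_ne γ), actPt_actPt _ _ hW.ne', hc]
  have h1 := total_coboundary (M := M) (fun a b => θ (actPt W a) (actPt W b))
    (fun γ a b => by simp only [hcomm, hinv]) (fun a b => hanti _ _)
  simp only [← hθ, orient_act hW, total, triVal, Finset.sum_sub_distrib, ← Finset.mul_sum] at h1
  simp only [total, triVal] at h0 ⊢
  rw [Finset.sum_sub_distrib, ← Finset.mul_sum] at h0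
  linarith

end FLTAgent.LevelRaise
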